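import Mathlib

/-!
# Modular forms for finite index subgroups of `SL(2, ℤ)` as plain functions, and their translates
-/

noncomputable section

open UpperHalfPlane CongruenceSubgroup Filter Topology
open scoped Manifold MatrixGroups ModularForm

namespace FermatAgent.ModCurve.Forms

variable {Γ : Subgroup SL(2, ℤ)}

/-- A modular form, as a plain function. -/
structure IsMF (Γ : Subgroup SL(2, ℤ)) (k : ℤ) (f : ℍ → ℂ) : Prop where
  holo : MDiff f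
  inv : ∀ γ ∈ Γ, f ∣[k] γ = f
  bdd : ∀ γ : SL(2, ℤ), IsBoundedAtImInfty (f ∣[k] γ)

/-- A cusp form, as a plain function. -/
structure IsCF (Γ : Subgroup SL(2, ℤ)) (k : ℤ) (f : ℍ → ℂ) : Prop extends IsMF Γ k f where
  zero : ∀ γ : SL(2, ℤ), IsZeroAtImInfty (f ∣[k] γ)

namespace IsMF

theorem zero' (k : ℤ) : IsMF Γ k 0 :=
  ⟨mdifferentiable_const, fun γ _ ↦ by simp, fun γ ↦ by
    simpa using (zero_form_isBoundedAtImInfty : IsBoundedAtImInfty (0 : ℍ → ℂ))⟩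

theorem add {k : ℤ} {f g : ℍ → ℂ} (hf : IsMF Γ k f) (hg : IsMF Γ k g) : IsMF Γ k (f + g) :=
  ⟨hf.holo.add hg.holo, fun γ hγ ↦ by rw [SlashAction.add_slash, hf.inv γ hγ, hg.inv γ hγ],
    fun γ ↦ by rw [SlashAction.add_slash]; exact (hf.bdd γ).add (hg.bdd γ)⟩

theorem smul {k : ℤ} {f : ℍ → ℂ} (c : ℂ) (hf : IsMF Γ k f) : IsMF Γ k (c • f) :=
  ⟨hf.holo.const_smul c, fun γ hγ ↦ by rw [ModularForm.SL_smul_slash, hf.inv γ hγ],
    fun γ ↦ by rw [ModularForm.SL_smul_slash]; exact (hf.bdd γ).smul c⟩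

theorem mul {k l : ℤ} {f g : ℍ → ℂ} (hf : IsMF Γ k f) (hg : IsMF Γ l g) :
    IsMF Γ (k + l) (f * g) :=
  ⟨hf.holo.mul hg.holo, fun γ hγ ↦ by
      rw [ModularForm.mul_slash_SL2, hf.inv γ hγ, hg.inv γ hγ],
    fun γ ↦ by rw [ModularForm.mul_slash_SL2]; exact (hf.bdd γ).mul (hg.bdd γ)⟩

theorem const (c : ℂ) : IsMF Γ 0 (Function.const ℍ c) :=
  ⟨mdifferentiable_const, fun γ _ ↦ ModularForm.is_invariant_const γ c,
    fun γ ↦ by rw [ModularForm.is_invariant_const]; exact const_boundedAtFilter _ c⟩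

theorem ofTop {k : ℤ} {f : ℍ → ℂ} (hf : IsMF ⊤ k f) : IsMF Γ k f :=
  ⟨hf.holo, fun γ _ ↦ hf.inv γ trivial, hf.bdd⟩

theorem inv_top {k : ℤ} {f : ℍ → ℂ} (hf : IsMF ⊤ k f) (γ : SL(2, ℤ)) : f ∣[k] γ = f :=
  hf.inv γ trivial

theorem bounded {k : ℤ} {f : ℍ → ℂ} (hf : IsMF Γ k f) : IsBoundedAtImInfty f := by
  simpa using hf.bdd 1

/-- Transport along an equality of weights and of functions. -/
theorem cast {k l : ℤ} {f g : ℍ → ℂ} (hf : IsMF Γ k f) (h : k = l) (h' : f = g) : IsMF Γ l g :=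
  h ▸ h' ▸ hf

end IsMF

/-- The space of modular forms of weight `k`. -/
def mfSpace (Γ : Subgroup SL(2, ℤ)) (k : ℤ) : Submodule ℂ (ℍ → ℂ) where
  carrier := {f | IsMF Γ k f}
  add_mem' hf hg := hf.add hg
  zero_mem' := IsMF.zero' k
  smul_mem' c _ hf := hf.smul c

theorem IsMF.sum {ι : Type*} {k : ℤ} {s : Finset ι} {f : ι → ℍ → ℂ}
    (h : ∀ i ∈ s, IsMF Γ k (f i)) : IsMF Γ k (∑ i ∈ s, f i) :=
  Submodule.sum_mem (mfSpace Γ k) h

theorem IsMF.neg {k : ℤ} {f : ℍ → ℂ} (hf : IsMF Γ k f) : IsMF Γ k (-f) :=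
  (mfSpace Γ k).neg_mem hf

theorem IsMF.sub {k : ℤ} {f g : ℍ → ℂ} (hf : IsMF Γ k f) (hg : IsMF Γ k g) : IsMF Γ k (f - g) :=
  (mfSpace Γ k).sub_mem hf hg

/-! ### Translates indexed by cosets -/

variable (Γ) in
/-- The coset space indexing the translates. -/
abbrev Cosets : Type := SL(2, ℤ) ⧸ Γ

/-- The translate of an invariant function attached to a coset. -/
def tr (k : ℤ) (f : ℍ → ℂ) (x : Cosets Γ) : ℍ → ℂ := f ∣[k] (x.out)⁻¹

theorem tr_mk {k : ℤ} {f : ℍ → ℂ} (hinv : ∀ γ ∈ Γ, f ∣[k] γ = f) (g : SL(2, ℤ)) :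
    tr k f (QuotientGroup.mk g : Cosets Γ) = f ∣[k] g⁻¹ := by
  obtain ⟨h, hh⟩ := QuotientGroup.mk_out_eq_mul Γ g
  rw [tr, hh, mul_inv_rev, SlashAction.slash_mul, hinv _ (inv_mem h.2)]

theorem tr_one {k : ℤ} {f : ℍ → ℂ} (hinv : ∀ γ ∈ Γ, f ∣[k] γ = f) :
    tr k f (QuotientGroup.mk 1 : Cosets Γ) = f := by
  rw [tr_mk hinv]; simp

theorem tr_slash {k : ℤ} {f : ℍ → ℂ} (hinv : ∀ γ ∈ Γ, f ∣[k] γ = f) (γ : SL(2, ℤ))
    (x : Cosets Γ) : (tr k f x) ∣[k] γ = tr k f (γ⁻¹ • x) := by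
  obtain ⟨g, rfl⟩ := QuotientGroup.mk_surjective x
  rw [MulAction.Quotient.smul_mk, smul_eq_mul, tr_mk hinv, tr_mk hinv, ← SlashAction.slash_mul]
  simp [mul_inv_rev]

theorem tr_apply_smul {k : ℤ} {f : ℍ → ℂ} (hinv : ∀ γ ∈ Γ, f ∣[k] γ = f) (γ : SL(2, ℤ))
    (x : Cosets Γ) (τ : ℍ) :
    tr k f x (γ • τ) = denom γ τ ^ k * tr k f (γ⁻¹ • x) τ := by
  rw [← tr_slash hinv γ x, ModularForm.SL_slash_apply, mul_left_comm,
    ← zpow_add₀ (denom_ne_zero _ τ), add_neg_cancel, zpow_zero, mul_one]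

theorem tr_add (k : ℤ) (f g : ℍ → ℂ) (x : Cosets Γ) : tr k (f + g) x = tr k f x + tr k g x :=
  SlashAction.add_slash _ _ _ _

theorem tr_smul (k : ℤ) (c : ℂ) (f : ℍ → ℂ) (x : Cosets Γ) : tr k (c • f) x = c • tr k f x :=
  ModularForm.SL_smul_slash _ _ _ _

theorem tr_zero (k : ℤ) (x : Cosets Γ) : tr k (0 : ℍ → ℂ) x = 0 :=
  SlashAction.zero_slash _ _

theorem tr_mul (k l : ℤ) (f g : ℍ → ℂ) (x : Cosets Γ) :
    tr (k + l) (f * g) x = tr k f x * tr l g x :=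
  ModularForm.mul_slash_SL2 _ _ _ _ _

theorem tr_sum {ι : Type*} (k : ℤ) (s : Finset ι) (f : ι → ℍ → ℂ) (x : Cosets Γ) :
    tr k (∑ i ∈ s, f i) x = ∑ i ∈ s, tr k (f i) x := by
  induction s using Finset.cons_induction with
  | empty => simp [tr_zero]
  | cons a s ha ih => simp [Finset.sum_cons, tr_add, ih]

theorem tr_of_top {k : ℤ} {f : ℍ → ℂ} (hf : IsMF ⊤ k f) (x : Cosets Γ) : tr k f x = f :=
  hf.inv_top _

theorem IsMF.tr_holo {k : ℤ} {f : ℍ → ℂ} (hf : IsMF Γ k f) (x : Cosets Γ) : MDiff (tr k f x) :=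
  hf.holo.slash k (((x.out)⁻¹ : SL(2, ℤ)) : GL (Fin 2) ℝ)

theorem IsMF.tr_bdd {k : ℤ} {f : ℍ → ℂ} (hf : IsMF Γ k f) (x : Cosets Γ) :
    IsBoundedAtImInfty (tr k f x) :=
  hf.bdd _

theorem IsCF.tr_isZeroAtImInfty {k : ℤ} {f : ℍ → ℂ} (hf : IsCF Γ k f) (x : Cosets Γ) :
    IsZeroAtImInfty (tr k f x) :=
  hf.zero _

/-- A family indexed by cosets transforming like translates is the family of translates of a
modular form. -/
theorem isMF_of_family {k : ℤ} (F : Cosets Γ → ℍ → ℂ) (hol : ∀ x, MDiff (F x))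
    (bdd : ∀ x, IsBoundedAtImInfty (F x))
    (eqv : ∀ (γ : SL(2, ℤ)) x τ, F x (γ • τ) = denom γ τ ^ k * F (γ⁻¹ • x) τ) :
    IsMF Γ k (F (QuotientGroup.mk 1)) ∧
      ∀ x, tr k (F (QuotientGroup.mk 1)) x = F x := by
  have key : ∀ γ : SL(2, ℤ), (F (QuotientGroup.mk 1)) ∣[k] γ = F (QuotientGroup.mk γ⁻¹) := by
    intro γ; ext τ
    rw [ModularForm.SL_slash_apply, eqv, MulAction.Quotient.smul_mk, smul_eq_mul, mul_one,
      mul_comm, ← mul_assoc, ← zpow_add₀ (denom_ne_zero _ τ), neg_add_cancel, zpow_zero, one_mul]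
  refine ⟨⟨hol _, fun γ hγ ↦ ?_, fun γ ↦ ?_⟩, fun x ↦ ?_⟩
  · rw [key]; congr 1
    rw [QuotientGroup.eq]; simpa using hγ
  · rw [key]; exact bdd _
  · rw [tr, key, inv_inv, QuotientGroup.out_eq']

theorem isCF_of_family {k : ℤ} (F : Cosets Γ → ℍ → ℂ) (hol : ∀ x, MDiff (F x))
    (zero : ∀ x, IsZeroAtImInfty (F x))
    (eqv : ∀ (γ : SL(2, ℤ)) x τ, F x (γ • τ) = denom γ τ ^ k * F (γ⁻¹ • x) τ) :
    IsCF Γ k (F (QuotientGroup.mk 1)) ∧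
      ∀ x, tr k (F (QuotientGroup.mk 1)) x = F x := by
  obtain ⟨h1, h2⟩ := isMF_of_family F hol (fun x ↦ (zero x).isBoundedAtImInfty) eqv
  refine ⟨⟨h1, fun γ ↦ ?_⟩, h2⟩
  rw [← inv_inv γ, ← tr_mk h1.inv γ⁻¹, h2]
  exact zero _

/-! ### Bridges to Mathlib -/

variable [Γ.FiniteIndex]

/-- Bundle a modular form. -/
def IsMF.toModularForm {k : ℤ} {f : ℍ → ℂ} (hf : IsMF Γ k f) :
    ModularForm (Γ : Subgroup (GL (Fin 2) ℝ)) k where
  toFun := f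
  slash_action_eq' := by rintro _ ⟨γ, hγ, rfl⟩; exact hf.inv γ hγ
  holo' := hf.holo
  bdd_at_cusps' {c} hc := by
    rw [Subgroup.IsArithmetic.isCusp_iff_isCusp_SL2Z] at hc
    rw [OnePoint.isBoundedAt_iff_forall_SL2Z hc]
    exact fun γ _ ↦ hf.bdd γ

/-- Bundle a cusp form. -/
def IsCF.toCuspForm {k : ℤ} {f : ℍ → ℂ} (hf : IsCF Γ k f) :
    CuspForm (Γ : Subgroup (GL (Fin 2) ℝ)) k where
  toFun := f
  slash_action_eq' := by rintro _ ⟨γ, hγ, rfl⟩; exact hf.inv γ hγ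
  holo' := hf.holo
  zero_at_cusps' {c} hc := by
    rw [Subgroup.IsArithmetic.isCusp_iff_isCusp_SL2Z] at hc
    rw [OnePoint.isZeroAt_iff_forall_SL2Z hc]
    exact fun γ _ ↦ hf.zero γ

@[simp] theorem IsCF.coe_toCuspForm {k : ℤ} {f : ℍ → ℂ} (hf : IsCF Γ k f) :
    ⇑hf.toCuspForm = f := rfl

omit [Γ.FiniteIndex] in
theorem isMF_coe {k : ℤ} {𝒢 : Subgroup (GL (Fin 2) ℝ)} [𝒢.IsArithmetic] (f : ModularForm 𝒢 k)
    (h : ∀ γ ∈ Γ, (γ : GL (Fin 2) ℝ) ∈ 𝒢) : IsMF Γ k f :=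
  ⟨f.holo', fun γ hγ ↦ f.slash_action_eq' _ (h γ hγ),
    fun γ ↦ ModularFormClass.bdd_at_infty_slash f γ⟩

theorem isCF_coe {k : ℤ} (f : CuspForm (Γ : Subgroup (GL (Fin 2) ℝ)) k) : IsCF Γ k f :=
  ⟨⟨f.holo', fun γ hγ ↦ f.slash_action_eq' _ ⟨γ, hγ, rfl⟩,
    fun γ ↦ (CuspFormClass.zero_at_infty_slash f γ).isBoundedAtImInfty⟩,
    fun γ ↦ CuspFormClass.zero_at_infty_slash f γ⟩

/-- Modular forms of negative weight vanish. -/
theorem IsMF.eq_zero_of_neg {k : ℤ} (hk : k < 0) {f : ℍ → ℂ} (hf : IsMF Γ k f) : f = 0 :=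
  congrArg (fun g : ModularForm (Γ : Subgroup (GL (Fin 2) ℝ)) k ↦ ⇑g)
    (ModularForm.isZero_of_neg_weight hk hf.toModularForm)

/-- Modular forms of weight zero are constant. -/
theorem IsMF.exists_const {f : ℍ → ℂ} (hf : IsMF Γ 0 f) : ∃ c, f = Function.const ℍ c :=
  ModularForm.eq_const_of_weight_zero hf.toModularForm

omit [Γ.FiniteIndex] in
/-- Modular forms of odd weight vanish when `-1` is in the group. -/
theorem IsMF.eq_zero_of_odd (hΓ : (-1 : SL(2, ℤ)) ∈ Γ) {k : ℤ} (hk : Odd k) {f : ℍ → ℂ}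
    (hf : IsMF Γ k f) : f = 0 := by
  funext τ
  have h := congrFun (hf.inv _ hΓ) τ
  rw [ModularForm.SL_slash_apply] at h
  have h1 : (-1 : SL(2, ℤ)) • τ = τ := by simp
  have h2 : denom ((-1 : SL(2, ℤ)) : GL (Fin 2) ℝ) τ = -1 := by simp [denom]
  rw [h1, h2, hk.neg.neg_one_zpow] at h
  simp only [Pi.zero_apply]
  linear_combination -h / 2

/-- Cusp forms of weight at most zero vanish. -/
theorem IsCF.eq_zero_of_nonpos {k : ℤ} (hk : k ≤ 0) {f : ℍ → ℂ} (hf : IsCF Γ k f) : f = 0 := by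
  rcases hk.lt_or_eq with h | rfl
  · exact hf.toIsMF.eq_zero_of_neg h
  · obtain ⟨c, rfl⟩ := hf.toIsMF.exists_const
    have hz : IsZeroAtImInfty (Function.const ℍ c) := by simpa using hf.zero 1
    have hc : c = 0 := tendsto_nhds_unique tendsto_const_nhds hz
    simp [hc]

end FermatAgent.ModCurve.Forms
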