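import Mathlib
import Fermat.Agent.ModCurve.Forms.Basic

/-!
# Level one facts, and behaviour at infinity of functions of period one
-/

noncomputable section

open UpperHalfPlane CongruenceSubgroup Filter Topology Asymptotics
open scoped Manifold MatrixGroups ModularForm

namespace FermatAgent.ModCurve.Forms

/-! ### Functions of period one -/

/-- `f (τ + 1) = f τ`. -/
def PeriodOne (f : ℍ → ℂ) : Prop := ∀ τ : ℍ, f ((1 : ℝ) +ᵥ τ) = f τ

theorem PeriodOne.periodic {f : ℍ → ℂ} (hf : PeriodOne f) :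
    Function.Periodic (f ∘ ofComplex) ((1 : ℝ) : ℂ) := by
  intro w
  by_cases! hw : 0 < w.im
  · have : 0 < (w + ((1 : ℝ) : ℂ)).im := by simp [hw]
    simp only [Function.comp_apply, ofComplex_apply_of_im_pos this, ofComplex_apply_of_im_pos hw]
    convert hf ⟨w, hw⟩ using 2
    ext
    simp [add_comm]
  · have : (w + ((1 : ℝ) : ℂ)).im ≤ 0 := by simpa using hw
    simp only [Function.comp_apply, ofComplex_apply_of_im_nonpos this, ofComplex_apply_of_im_nonpos hw]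

theorem PeriodOne.tendsto_valueAtInfty {f : ℍ → ℂ} (hf : PeriodOne f) (hhol : MDiff f)
    (hbdd : IsBoundedAtImInfty f) : Tendsto f atImInfty (𝓝 (valueAtInfty f)) := by
  have hanal := analyticAt_cuspFunction_zero one_pos hf.periodic hhol hbdd
  rw [← cuspFunction_apply_zero one_pos hanal hf.periodic]
  exact (hanal.continuousAt.tendsto.comp (qParam_tendsto_atImInfty one_pos)).congr
    fun τ ↦ eq_cuspFunction τ one_ne_zero hf.periodic

theorem PeriodOne.isBigO_exp {f : ℍ → ℂ} (hf : PeriodOne f) (hhol : MDiff f)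
    (h0 : IsZeroAtImInfty f) :
    f =O[atImInfty] fun τ ↦ Real.exp (-2 * Real.pi * τ.im) := by
  simpa using h0.exp_decay_atImInfty one_pos hf.periodic hhol h0.isBoundedAtImInfty

theorem norm_qParam_one (τ : ℍ) :
    ‖Function.Periodic.qParam 1 (τ : ℂ)‖ = Real.exp (-2 * Real.pi * τ.im) := by
  simp [Function.Periodic.norm_qParam]

/-- If `q • f` is zero at infinity then `f` is bounded there. -/
theorem PeriodOne.isBoundedAtImInfty_of_qParam_mul {f : ℍ → ℂ} (hf : PeriodOne f)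
    (hhol : MDiff f)
    (h0 : IsZeroAtImInfty fun τ : ℍ ↦ Function.Periodic.qParam 1 (τ : ℂ) * f τ) :
    IsBoundedAtImInfty f := by
  have hper : PeriodOne fun τ : ℍ ↦ Function.Periodic.qParam 1 (τ : ℂ) * f τ := by
    intro τ
    simp only [hf τ]
    congr 1
    simp [Function.Periodic.qParam, mul_add, Complex.exp_add, Complex.exp_two_pi_mul_I]
  have hhol' : MDiff fun τ : ℍ ↦ Function.Periodic.qParam 1 (τ : ℂ) * f τ := by
    refine MDifferentiable.mul ?_ hhol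
    rw [UpperHalfPlane.mdifferentiable_iff]
    refine DifferentiableOn.congr (f := fun z ↦ Function.Periodic.qParam 1 z)
      (Function.Periodic.differentiable_qParam.differentiableOn) fun z hz ↦ ?_
    simp [ofComplex_apply_of_im_pos hz]
  obtain ⟨C, hC⟩ := (hper.isBigO_exp hhol' h0).bound
  rw [isBoundedAtImInfty_iff]
  obtain ⟨A, hA⟩ := (atImInfty_mem _).1 hC
  refine ⟨C, A, fun τ hτ ↦ ?_⟩
  have := hA τ hτ
  simp only [Set.mem_ofPred_eq, norm_mul, norm_qParam_one, Real.norm_eq_abs,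
    abs_of_pos (Real.exp_pos _)] at this
  exact le_of_mul_le_mul_left (by linarith [mul_comm C (Real.exp (-2 * Real.pi * τ.im))])
    (Real.exp_pos (-2 * Real.pi * τ.im))

theorem periodOne_of_top {k : ℤ} {f : ℍ → ℂ} (hf : IsMF ⊤ k f) : PeriodOne f := by
  intro τ
  have h := congrFun (hf.inv_top ModularGroup.T) τ
  rw [ModularForm.SL_slash_apply, modular_T_smul] at h
  have hd : denom (ModularGroup.T : GL (Fin 2) ℝ) τ = 1 := by simp [ModularGroup.denom_apply, ModularGroup.T]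
  rwa [hd, one_zpow, mul_one] at h

/-! ### Level one -/

/-- Bundle a level one form. -/
def IsMF.toLevelOne {k : ℤ} {f : ℍ → ℂ} (hf : IsMF ⊤ k f) : ModularForm 𝒮ℒ k where
  toFun := f
  slash_action_eq' := by rintro _ ⟨γ, rfl⟩; exact hf.inv_top γ
  holo' := hf.holo
  bdd_at_cusps' {c} hc := by
    rw [OnePoint.isBoundedAt_iff_forall_SL2Z hc]
    exact fun γ _ ↦ hf.bdd γ

@[simp] theorem IsMF.coe_toLevelOne {k : ℤ} {f : ℍ → ℂ} (hf : IsMF ⊤ k f) :
    ⇑hf.toLevelOne = f := rfl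

/-- Bundle a level one cusp form. -/
def IsCF.toLevelOne {k : ℤ} {f : ℍ → ℂ} (hf : IsCF ⊤ k f) : CuspForm 𝒮ℒ k where
  toFun := f
  slash_action_eq' := by rintro _ ⟨γ, rfl⟩; exact hf.inv_top γ
  holo' := hf.holo
  zero_at_cusps' {c} hc := by
    rw [OnePoint.isZeroAt_iff_forall_SL2Z hc]
    exact fun γ _ ↦ hf.zero γ

theorem isMF_levelOne {k : ℤ} (f : ModularForm 𝒮ℒ k) : IsMF ⊤ k f :=
  isMF_coe f fun γ _ ↦ ⟨γ, rfl⟩

theorem isMF_levelOne_cusp {k : ℤ} (f : CuspForm 𝒮ℒ k) : IsMF ⊤ k f :=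
  ⟨f.holo', fun γ _ ↦ f.slash_action_eq' _ ⟨γ, rfl⟩,
    fun γ ↦ (CuspFormClass.zero_at_infty_slash f γ).isBoundedAtImInfty⟩

theorem isCF_top_of_isZero {k : ℤ} {f : ℍ → ℂ} (hf : IsMF ⊤ k f) (h : IsZeroAtImInfty f) :
    IsCF ⊤ k f :=
  ⟨hf, fun γ ↦ by rw [hf.inv_top γ]; exact h⟩

/-- The Eisenstein series `E₄`. -/
def e4 : ℍ → ℂ := ⇑ModularForm.E₄

/-- The Eisenstein series `E₆`. -/
def e6 : ℍ → ℂ := ⇑ModularForm.E₆

/-- The discriminant. -/
def disc : ℍ → ℂ := ⇑CuspForm.discriminant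

theorem isMF_e4 : IsMF ⊤ 4 e4 := isMF_levelOne _
theorem isMF_e6 : IsMF ⊤ 6 e6 := isMF_levelOne _
theorem isMF_disc : IsMF ⊤ 12 disc := isMF_levelOne_cusp _

theorem disc_ne_zero (τ : ℍ) : disc τ ≠ 0 := ModularForm.discriminant_ne_zero τ

theorem disc_eq (τ : ℍ) : disc τ = (e4 τ ^ 3 - e6 τ ^ 2) / 1728 :=
  ModularForm.discriminant_eq_E₄_cube_sub_E₆_sq τ

theorem e4_ne_zero_or (τ : ℍ) : e4 τ ≠ 0 ∨ e6 τ ≠ 0 := by
  by_contra! h
  exact disc_ne_zero τ (by simp [disc_eq, h.1, h.2])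

theorem exp_isBigO_disc :
    (fun τ : ℍ ↦ Real.exp (-2 * Real.pi * τ.im)) =O[atImInfty] disc :=
  ModularForm.exp_isBigO_discriminant

theorem disc_isZeroAtImInfty : IsZeroAtImInfty disc :=
  ModularForm.discriminant_isZeroAtImInfty

theorem tendsto_of_levelOne {k : ℤ} (f : ModularForm 𝒮ℒ k) :
    Tendsto f atImInfty (𝓝 ((qExpansion 1 f).coeff 0)) := by
  have hp : PeriodOne f := periodOne_of_top (isMF_levelOne f)
  rw [qExpansion_coeff_zero one_pos
    (analyticAt_cuspFunction_zero one_pos hp.periodic f.holo' (ModularFormClass.bdd_at_infty f))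
    hp.periodic]
  exact hp.tendsto_valueAtInfty f.holo' (ModularFormClass.bdd_at_infty f)

theorem tendsto_e4 : Tendsto e4 atImInfty (𝓝 1) := by
  have := tendsto_of_levelOne ModularForm.E₄
  rwa [EisensteinSeries.E_qExpansion_coeff_zero _ ⟨2, rfl⟩] at this

theorem tendsto_e6 : Tendsto e6 atImInfty (𝓝 1) := by
  have := tendsto_of_levelOne ModularForm.E₆
  rwa [EisensteinSeries.E_qExpansion_coeff_zero _ ⟨3, rfl⟩] at this

theorem isMF_e4_pow (a : ℕ) : IsMF ⊤ (4 * a) (e4 ^ a) := by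
  induction a with
  | zero => exact (IsMF.const 1).cast (by simp) (by ext; simp)
  | succ n ih => exact (ih.mul isMF_e4).cast (by push_cast; ring) (pow_succ _ _).symm

theorem isMF_e6_pow (b : ℕ) : IsMF ⊤ (6 * b) (e6 ^ b) := by
  induction b with
  | zero => exact (IsMF.const 1).cast (by simp) (by ext; simp)
  | succ n ih => exact (ih.mul isMF_e6).cast (by push_cast; ring) (pow_succ _ _).symm

/-- A cusp form of level one is a discriminant multiple. -/
theorem IsCF.exists_eq_disc_mul {k : ℤ} {f : ℍ → ℂ} (hf : IsCF ⊤ k f) :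
    ∃ g, IsMF ⊤ (k - 12) g ∧ f = disc * g :=
  ⟨_, isMF_levelOne (CuspForm.discriminantEquiv hf.toLevelOne),
    (ModularForm.discriminant_mul_discriminantEquiv hf.toLevelOne).symm⟩

/-- Level one cusp forms of weight below 12 vanish. -/
theorem IsCF.eq_zero_of_lt_twelve {k : ℤ} (hk : k < 12) {f : ℍ → ℂ} (hf : IsCF ⊤ k f) : f = 0 := by
  obtain ⟨g, hg, rfl⟩ := hf.exists_eq_disc_mul
  simp [hg.eq_zero_of_neg (by omega)]

/-- Level one cusp forms of weight 12 are multiples of the discriminant. -/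
theorem IsCF.exists_eq_smul_disc {f : ℍ → ℂ} (hf : IsCF ⊤ 12 f) : ∃ c : ℂ, f = c • disc := by
  obtain ⟨g, hg, rfl⟩ := hf.exists_eq_disc_mul
  obtain ⟨c, rfl⟩ := (hg.cast (by norm_num) rfl : IsMF ⊤ 0 g).exists_const
  exact ⟨c, by ext τ; simp [mul_comm]⟩

/-- Level one forms of weight two vanish. -/
theorem IsMF.eq_zero_of_two {f : ℍ → ℂ} (hf : IsMF ⊤ 2 f) : f = 0 :=
  congrArg (fun g : ModularForm 𝒮ℒ 2 ↦ ⇑g)
    (rank_zero_iff_forall_zero.1 ModularForm.levelOne_weight_two_rank_zero hf.toLevelOne)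

/-- Every level one form of nonzero weight lies in the ideal generated by `E₄` and `E₆`. -/
theorem IsMF.exists_eq_e4_e6 {k : ℤ} (hk : k ≠ 0) {f : ℍ → ℂ} (hf : IsMF ⊤ k f) :
    ∃ A B, IsMF ⊤ (k - 4) A ∧ IsMF ⊤ (k - 6) B ∧ f = e4 * A + e6 * B := by
  have triv : f = 0 → ∃ A B, IsMF ⊤ (k - 4) A ∧ IsMF ⊤ (k - 6) B ∧ f = e4 * A + e6 * B :=
    fun h ↦ ⟨0, 0, IsMF.zero' _, IsMF.zero' _, by simp [h]⟩
  rcases Int.even_or_odd k with ⟨m, hm⟩ | ho
  swap
  · exact triv (hf.eq_zero_of_odd (Γ := ⊤) (Subgroup.mem_top _) ho)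
  rcases lt_or_ge k 0 with hneg | hpos
  · exact triv (hf.eq_zero_of_neg hneg)
  by_cases h2 : k = 2
  · subst h2; exact triv hf.eq_zero_of_two
  obtain ⟨a, b, hab⟩ : ∃ a b : ℕ, k = 4 * a + 6 * b := by
    rcases Int.even_or_odd m with ⟨r, hr⟩ | ⟨r, hr⟩
    · exact ⟨r.toNat, 0, by omega⟩
    · exact ⟨(r - 1).toNat, 1, by omega⟩
  have hE : IsMF ⊤ k (e4 ^ a * e6 ^ b) :=
    ((isMF_e4_pow a).mul (isMF_e6_pow b)).cast (by omega) rfl
  have hlim : Tendsto (e4 ^ a * e6 ^ b) atImInfty (𝓝 1) := by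
    have := (tendsto_e4.pow a).mul (tendsto_e6.pow b)
    simp only [one_pow, mul_one] at this
    exact this
  obtain ⟨v, hv⟩ : ∃ v, Tendsto f atImInfty (𝓝 v) :=
    ⟨_, (periodOne_of_top hf).tendsto_valueAtInfty hf.holo hf.bounded⟩
  have hc : IsCF ⊤ k (f - v • (e4 ^ a * e6 ^ b)) := by
    refine isCF_top_of_isZero (hf.sub (hE.smul v)) ?_
    have := hv.sub (hlim.const_smul v)
    simp only [smul_eq_mul, mul_one, sub_self] at this
    exact this
  obtain ⟨g, hg, hfg⟩ := hc.exists_eq_disc_mul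
  obtain ⟨P, Q, hP, hQ, hPQ⟩ : ∃ P Q, IsMF ⊤ (k - 4) P ∧ IsMF ⊤ (k - 6) Q ∧
      e4 ^ a * e6 ^ b = e4 * P + e6 * Q := by
    rcases a with _ | a
    · rcases b with _ | b
      · omega
      · refine ⟨0, e6 ^ b, IsMF.zero' _, (isMF_e6_pow b).cast (by push_cast at hab; omega) rfl, ?_⟩
        simp [pow_succ, mul_comm]
    · refine ⟨e4 ^ a * e6 ^ b, 0, ((isMF_e4_pow a).mul (isMF_e6_pow b)).cast
        (by push_cast at hab; omega) rfl, IsMF.zero' _, ?_⟩
      ring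
  refine ⟨v • P + (1 / 1728 : ℂ) • (e4 ^ 2 * g), v • Q + (-1 / 1728 : ℂ) • (e6 * g),
    (hP.smul v).add ((((isMF_e4_pow 2).mul hg).cast (by push_cast; ring) rfl).smul _),
    (hQ.smul v).add (((isMF_e6.mul hg).cast (by ring) rfl).smul _), ?_⟩
  ext τ
  have h1 := congrFun hfg τ
  have h2 := congrFun hPQ τ
  simp only [Pi.sub_apply, Pi.mul_apply, Pi.smul_apply, smul_eq_mul, Pi.add_apply, Pi.pow_apply,
    disc_eq] at h1 h2 ⊢
  linear_combination h1 + v * h2

end FermatAgent.ModCurve.Forms
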