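import Mathlib
import Fermat.Agent.ModCurve.Forms.LevelOne

/-!
# Modular forms as a free module over level one forms
-/

noncomputable section

open UpperHalfPlane CongruenceSubgroup Filter Topology
open scoped Manifold MatrixGroups ModularForm

namespace FermatAgent.ModCurve.Forms

variable {Γ : Subgroup SL(2, ℤ)}

/-- `E₄, E₆` form a regular sequence on modular forms. -/
theorem exists_of_e4_mul_add_e6_mul_eq_zero {k : ℤ} {a b : ℍ → ℂ} (ha : IsMF Γ (k - 4) a)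
    (hb : IsMF Γ (k - 6) b) (h : e4 * a + e6 * b = 0) :
    ∃ c, IsMF Γ (k - 10) c ∧ a = e6 * c ∧ b = -(e4 * c) := by
  set c : ℍ → ℂ := fun τ ↦ -(e6 τ * a τ + e4 τ ^ 2 * b τ) / (1728 * disc τ) with hc
  have h' : ∀ τ, e4 τ * a τ + e6 τ * b τ = 0 := fun τ ↦ congrFun h τ
  have hne : ∀ τ, (1728 : ℂ) * disc τ ≠ 0 := fun τ ↦ by simp [disc_ne_zero]
  have hA : a = e6 * c := by
    ext τ; simp only [Pi.mul_apply, hc]
    rw [mul_div_assoc', eq_div_iff (hne τ), disc_eq]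
    linear_combination e4 τ ^ 2 * h' τ
  have hB : b = -(e4 * c) := by
    ext τ; simp only [Pi.neg_apply, Pi.mul_apply, hc]
    rw [mul_div_assoc', ← neg_div, eq_div_iff (hne τ), disc_eq]
    linear_combination -e6 τ * h' τ
  have hB' : -b = e4 * c := by rw [hB, neg_neg]
  refine ⟨c, ⟨?_, fun γ hγ ↦ ?_, fun γ ↦ ?_⟩, hA, hB⟩
  · intro τ
    simp only [hc]
    have hnum : MDiffAt (fun τ ↦ -(e6 τ * a τ + e4 τ ^ 2 * b τ)) τ :=
      (((isMF_e6.holo τ).mul (ha.holo τ)).add (((isMF_e4.holo τ).pow 2).mul (hb.holo τ))).neg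
    have hden : MDiffAt (fun τ ↦ 1728 * disc τ) τ :=
      (mdifferentiableAt_const (c := (1728 : ℂ))).mul (isMF_disc.holo τ)
    exact MDifferentiableAt.div hnum hden (hne τ)
  · have e1 : e6 * (c ∣[k - 10] γ) = e6 * c := by
      conv_rhs => rw [← hA, ← ha.inv γ hγ, hA]
      rw [show k - 4 = 6 + (k - 10) by ring, ModularForm.mul_slash_SL2, isMF_e6.inv_top]
    have e2 : e4 * (c ∣[k - 10] γ) = e4 * c := by
      conv_rhs => rw [← hB', ← hb.neg.inv γ hγ, hB']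
      rw [show k - 6 = 4 + (k - 10) by ring, ModularForm.mul_slash_SL2, isMF_e4.inv_top]
    ext τ
    rcases e4_ne_zero_or τ with h0 | h0
    · exact mul_left_cancel₀ h0 (congrFun e2 τ)
    · exact mul_left_cancel₀ h0 (congrFun e1 τ)
  · have e2 : e4 * (c ∣[k - 10] γ) = (-b) ∣[k - 6] γ := by
      rw [hB', show k - 6 = 4 + (k - 10) by ring, ModularForm.mul_slash_SL2, isMF_e4.inv_top]
    obtain ⟨C, A, hCA⟩ := isBoundedAtImInfty_iff.1 (hb.neg.bdd γ)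
    obtain ⟨A', hA'⟩ := (atImInfty_mem _).1 (tendsto_e4.norm.eventually
      (eventually_ge_nhds (show (1 / 2 : ℝ) < ‖(1 : ℂ)‖ by simp; norm_num)))
    rw [isBoundedAtImInfty_iff]
    refine ⟨2 * C, max A A', fun τ hτ ↦ ?_⟩
    have h1 := hCA τ (le_trans (le_max_left _ _) hτ)
    have h2 : (1 / 2 : ℝ) ≤ ‖e4 τ‖ := hA' τ (le_trans (le_max_right _ _) hτ)
    rw [← congrFun e2 τ, Pi.mul_apply, norm_mul] at h1
    nlinarith [norm_nonneg ((c ∣[k - 10] γ) τ)]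

/-- The submodule of forms of weight `k` lying in `(E₄, E₆)`. -/
def eisIdeal (Γ : Subgroup SL(2, ℤ)) (k : ℤ) : Submodule ℂ (mfSpace Γ k) :=
  ((mfSpace Γ (k - 4)).map (LinearMap.mulLeft ℂ e4) ⊔
    (mfSpace Γ (k - 6)).map (LinearMap.mulLeft ℂ e6)).comap (mfSpace Γ k).subtype

theorem mem_eisIdeal {k : ℤ} {f : mfSpace Γ k} :
    f ∈ eisIdeal Γ k ↔ ∃ A B, IsMF Γ (k - 4) A ∧ IsMF Γ (k - 6) B ∧ (f : ℍ → ℂ) = e4 * A + e6 * B := by
  simp only [eisIdeal, Submodule.mem_comap, Submodule.mem_sup, Submodule.mem_map,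
    LinearMap.mulLeft_apply, Submodule.coe_subtype]
  constructor
  · rintro ⟨_, ⟨A, hA, rfl⟩, _, ⟨B, hB, rfl⟩, h⟩
    exact ⟨A, B, hA, hB, h.symm⟩
  · rintro ⟨A, B, hA, hB, h⟩
    exact ⟨_, ⟨A, hA, rfl⟩, _, ⟨B, hB, rfl⟩, h.symm⟩

/-- A complement of the ideal in weight `k`. -/
def genSpace (Γ : Subgroup SL(2, ℤ)) (k : ℕ) : Submodule ℂ (mfSpace Γ k) :=
  (Submodule.exists_isCompl (eisIdeal Γ k)).choose

theorem isCompl_genSpace (Γ : Subgroup SL(2, ℤ)) (k : ℕ) :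
    IsCompl (eisIdeal Γ k) (genSpace Γ k) :=
  (Submodule.exists_isCompl (eisIdeal Γ k)).choose_spec

/-- The index type of generators. -/
def GenIdx (Γ : Subgroup SL(2, ℤ)) : Type :=
  Σ k : ℕ, Module.Basis.ofVectorSpaceIndex ℂ (genSpace Γ k)

/-- The weight of a generator. -/
def GenIdx.wt (i : GenIdx Γ) : ℤ := (i.1 : ℤ)

/-- The generators. -/
def gen (i : GenIdx Γ) : ℍ → ℂ :=
  ((Module.Basis.ofVectorSpace ℂ (genSpace Γ i.1) i.2 : genSpace Γ i.1) : mfSpace Γ i.1)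

theorem isMF_gen (i : GenIdx Γ) : IsMF Γ i.wt (gen i) :=
  ((Module.Basis.ofVectorSpace ℂ (genSpace Γ i.1) i.2 : genSpace Γ i.1) : mfSpace Γ i.1).2

variable (Γ) in
/-- A system of level one coefficients in weight `k`, supported in `s`. -/
structure Coeffs (k : ℤ) (s : Finset (GenIdx Γ)) (P : GenIdx Γ → ℍ → ℂ) : Prop where
  mem : ∀ i, IsMF ⊤ (k - i.wt) (P i)
  supp : ∀ i, i ∉ s → P i = 0

theorem Coeffs.sum_eq {k : ℤ} {s t : Finset (GenIdx Γ)} {P : GenIdx Γ → ℍ → ℂ}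
    (h : Coeffs Γ k s P) (hst : s ⊆ t) : ∑ i ∈ t, P i * gen i = ∑ i ∈ s, P i * gen i :=
  (Finset.sum_subset hst fun i _ hi ↦ by rw [h.supp i hi, zero_mul]).symm

theorem Coeffs.isMF_sum {k : ℤ} {s : Finset (GenIdx Γ)} {P : GenIdx Γ → ℍ → ℂ}
    (h : Coeffs Γ k s P) : IsMF Γ k (∑ i ∈ s, P i * gen i) :=
  IsMF.sum fun i _ ↦ ((h.mem i).ofTop.mul (isMF_gen i)).cast (by ring) rfl

variable [Γ.FiniteIndex]

/-- The generators generate. -/
theorem exists_coeffs {k : ℤ} {f : ℍ → ℂ} (hf : IsMF Γ k f) :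
    ∃ s P, Coeffs Γ k s P ∧ f = ∑ i ∈ s, P i * gen i := by
  classical
  induction hn : k.toNat using Nat.strong_induction_on generalizing k f with
  | _ n ih =>
  rcases lt_or_ge k 0 with hneg | hpos
  · exact ⟨∅, 0, ⟨fun i ↦ IsMF.zero' _, fun i _ ↦ rfl⟩, by simp [hf.eq_zero_of_neg hneg]⟩
  obtain ⟨m, rfl⟩ : ∃ m : ℕ, (m : ℤ) = k := ⟨k.toNat, Int.toNat_of_nonneg hpos⟩
  have hdec : (⟨f, hf⟩ : mfSpace Γ (m : ℤ)) ∈ eisIdeal Γ m ⊔ genSpace Γ m := by
    rw [(isCompl_genSpace Γ m).sup_eq_top]; trivial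
  obtain ⟨u, hu, v, hv, huv⟩ := Submodule.mem_sup.1 hdec
  obtain ⟨A, B, hA, hB, hu'⟩ := mem_eisIdeal.1 hu
  have key : ∀ (l : ℤ) (g e : ℍ → ℂ), 0 < l → IsMF ⊤ l e → IsMF Γ (m - l) g →
      ∃ s P, Coeffs Γ m s P ∧ e * g = ∑ i ∈ s, P i * gen i := by
    intro l g e hl he hg
    rcases lt_or_ge ((m : ℤ) - l) 0 with h | h
    · exact ⟨∅, 0, ⟨fun i ↦ IsMF.zero' _, fun i _ ↦ rfl⟩, by simp [hg.eq_zero_of_neg h]⟩
    obtain ⟨s, P, hP, hg'⟩ := ih ((m : ℤ) - l).toNat (by omega) hg rfl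
    refine ⟨s, fun i ↦ e * P i, ⟨fun i ↦ (he.mul (hP.mem i)).cast (by ring) rfl,
      fun i hi ↦ by simp [hP.supp i hi]⟩, ?_⟩
    rw [hg', Finset.mul_sum]
    exact Finset.sum_congr rfl fun i _ ↦ (mul_assoc _ _ _).symm
  obtain ⟨s₁, P₁, hP₁, h₁⟩ := key 4 A e4 (by norm_num) isMF_e4 hA
  obtain ⟨s₂, P₂, hP₂, h₂⟩ := key 6 B e6 (by norm_num) isMF_e6 hB
  -- the component in the complement
  let bas := Module.Basis.ofVectorSpace ℂ (genSpace Γ m)
  set c := bas.repr ⟨v, hv⟩ with hc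
  have hw : (v : ℍ → ℂ) = ∑ j ∈ c.support, c j • gen (⟨m, j⟩ : GenIdx Γ) := by
    have := bas.linearCombination_repr ⟨v, hv⟩
    rw [Finsupp.linearCombination_apply, Finsupp.sum, ← hc] at this
    have := congrArg (fun w : genSpace Γ m ↦ ((w : mfSpace Γ (m : ℤ)) : ℍ → ℂ)) this
    simp only [Submodule.coe_sum, Submodule.coe_smul] at this
    exact this.symm
  let emb : Module.Basis.ofVectorSpaceIndex ℂ (genSpace Γ m) ↪ GenIdx Γ :=
    ⟨fun j ↦ ⟨m, j⟩, fun a b h ↦ eq_of_heq (Sigma.mk.inj h).2⟩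
  set s₃ := c.support.map emb with hs₃
  let P₃ : GenIdx Γ → ℍ → ℂ := fun i ↦
    if h : i.1 = m then Function.const ℍ (c (h ▸ i.2)) else 0
  have hP₃ : Coeffs Γ m s₃ P₃ := by
    refine ⟨fun i ↦ ?_, fun i hi ↦ ?_⟩
    · simp only [P₃]; split_ifs with h
      · exact (IsMF.const _).cast (by rw [GenIdx.wt, h]; ring) rfl
      · exact IsMF.zero' _
    · simp only [P₃]; split_ifs with h
      · obtain ⟨k', j⟩ := i
        subst h
        have : c j = 0 := by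
          by_contra hj
          exact hi (Finset.mem_map.2 ⟨j, Finsupp.mem_support_iff.2 hj, rfl⟩)
        simp only [this]; rfl
      · rfl
  have h₃ : (v : ℍ → ℂ) = ∑ i ∈ s₃, P₃ i * gen i := by
    rw [hw, hs₃, Finset.sum_map]
    refine Finset.sum_congr rfl fun j _ ↦ ?_
    have e : P₃ (emb j) = Function.const ℍ (c j) := by
      simp only [P₃]; exact dif_pos rfl
    rw [e]; ext τ; rfl
  set S := s₁ ∪ s₂ ∪ s₃ with hS
  refine ⟨S, P₁ + P₂ + P₃, ⟨fun i ↦ ((hP₁.mem i).add (hP₂.mem i)).add (hP₃.mem i),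
    fun i hi ↦ ?_⟩, ?_⟩
  · simp only [hS, Finset.mem_union, not_or] at hi
    simp [hP₁.supp i hi.1.1, hP₂.supp i hi.1.2, hP₃.supp i hi.2]
  · have hsum : f = e4 * A + e6 * B + (v : ℍ → ℂ) := by
      have := congrArg (fun w : mfSpace Γ (m : ℤ) ↦ (w : ℍ → ℂ)) huv
      simp only [Submodule.coe_add, hu'] at this
      exact this.symm
    rw [hsum, h₁, h₂, h₃, ← hP₁.sum_eq (t := S) (fun i hi ↦ by simp [hS, hi]),
      ← hP₂.sum_eq (t := S) (fun i hi ↦ by simp [hS, hi]),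
      ← hP₃.sum_eq (t := S) (fun i hi ↦ by simp [hS, hi]), ← Finset.sum_add_distrib,
      ← Finset.sum_add_distrib]
    exact Finset.sum_congr rfl fun i _ ↦ by simp [add_mul]

/-- The generators are independent over level one forms. -/
theorem coeffs_eq_zero {k : ℤ} {s : Finset (GenIdx Γ)} {P : GenIdx Γ → ℍ → ℂ}
    (hP : Coeffs Γ k s P) (h : ∑ i ∈ s, P i * gen i = 0) : ∀ i, P i = 0 := by
  classical
  induction hn : k.toNat using Nat.strong_induction_on generalizing k s P with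
  | _ n ih =>
  intro i₀
  by_cases hi₀ : k - i₀.wt < 0
  · exact (hP.mem i₀).eq_zero_of_neg hi₀
  obtain ⟨m, rfl⟩ : ∃ m : ℕ, (m : ℤ) = k :=
    ⟨k.toNat, Int.toNat_of_nonneg (by simp only [GenIdx.wt] at hi₀; omega)⟩
  -- the coefficients decompose
  have hdec : ∀ i, ∃ A B, IsMF ⊤ ((m : ℤ) - i.wt - 4) A ∧ IsMF ⊤ ((m : ℤ) - i.wt - 6) B ∧
      (i ∉ s → A = 0 ∧ B = 0) ∧ ((m : ℤ) ≠ i.wt → P i = e4 * A + e6 * B) ∧
      ((m : ℤ) = i.wt → A = 0 ∧ B = 0) := by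
    intro i
    by_cases hi : i ∈ s ∧ (m : ℤ) ≠ i.wt
    · obtain ⟨A, B, hA, hB, hAB⟩ := (hP.mem i).exists_eq_e4_e6 (sub_ne_zero.2 hi.2)
      exact ⟨A, B, hA, hB, fun h ↦ absurd hi.1 h, fun _ ↦ hAB, fun h ↦ absurd h hi.2⟩
    · refine ⟨0, 0, IsMF.zero' _, IsMF.zero' _, fun _ ↦ ⟨rfl, rfl⟩, fun hne ↦ ?_,
        fun _ ↦ ⟨rfl, rfl⟩⟩
      simp [hP.supp i fun h' ↦ hi ⟨h', hne⟩]
  choose A B hA hB hsupp hne heq using hdec
  have hcA : Coeffs Γ ((m : ℤ) - 4) s A :=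
    ⟨fun i ↦ (hA i).cast (by ring) rfl, fun i hi ↦ (hsupp i hi).1⟩
  have hcB : Coeffs Γ ((m : ℤ) - 6) s B :=
    ⟨fun i ↦ (hB i).cast (by ring) rfl, fun i hi ↦ (hsupp i hi).2⟩
  set a := ∑ i ∈ s, A i * gen i
  set b := ∑ i ∈ s, B i * gen i
  -- the part in weight m
  let bas := Module.Basis.ofVectorSpace ℂ (genSpace Γ m)
  let emb : Module.Basis.ofVectorSpaceIndex ℂ (genSpace Γ m) → GenIdx Γ := fun j ↦ ⟨m, j⟩
  have hemb : Function.Injective emb := fun a b h ↦ eq_of_heq (Sigma.mk.inj h).2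
  set T := s.preimage emb hemb.injOn with hT
  have hconst : ∀ j, ∃ c, P (emb j) = Function.const ℍ c := fun j ↦
    ((hP.mem (emb j)).cast (by simp [emb, GenIdx.wt]) rfl : IsMF ⊤ 0 _).exists_const
  choose c hc using hconst
  set w : genSpace Γ m := ∑ j ∈ T, c j • bas j with hw
  have hsplit : (w : mfSpace Γ (m : ℤ)).1 + (e4 * a + e6 * b) = 0 := by
    have e1 : (w : mfSpace Γ (m : ℤ)).1 = ∑ i ∈ s with (m : ℤ) = i.wt, P i * gen i := by
      have : s.filter (fun i ↦ (m : ℤ) = i.wt) = T.map ⟨emb, hemb⟩ := by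
        ext i
        simp only [Finset.mem_filter, Finset.mem_map, hT, Finset.mem_preimage,
          Function.Embedding.coeFn_mk]
        constructor
        · rintro ⟨hi, hwt⟩
          obtain ⟨k', j⟩ := i
          obtain rfl : m = k' := Int.ofNat_inj.1 hwt
          exact ⟨j, hi, rfl⟩
        · rintro ⟨j, hj, rfl⟩
          exact ⟨hj, rfl⟩
      rw [this, Finset.sum_map, hw]
      simp only [Submodule.coe_sum, Submodule.coe_smul, Function.Embedding.coeFn_mk]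
      refine Finset.sum_congr rfl fun j _ ↦ ?_
      rw [hc j]; ext τ; simp [gen, emb, bas]
    have e2 : e4 * a + e6 * b = ∑ i ∈ s with ¬(m : ℤ) = i.wt, P i * gen i := by
      simp only [a, b, Finset.mul_sum, ← Finset.sum_add_distrib]
      rw [Finset.sum_filter]
      refine Finset.sum_congr rfl fun i _ ↦ ?_
      split_ifs with h'
      · simp [(heq i h').1, (heq i h').2]
      · rw [hne i h']; ring
    rw [e1, e2, Finset.sum_filter_add_sum_filter_not, h]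
  have hwI : (w : mfSpace Γ (m : ℤ)) ∈ eisIdeal Γ m :=
    mem_eisIdeal.2 ⟨-a, -b, hcA.isMF_sum.neg, hcB.isMF_sum.neg, by
      linear_combination hsplit⟩
  have hw0 : w = 0 := by
    have := (Submodule.disjoint_def.1 (isCompl_genSpace Γ m).disjoint) _ hwI w.2
    exact Subtype.ext this
  have hc0 : ∀ j ∈ T, c j = 0 := by
    intro j hj
    exact linearIndependent_iff'.1 bas.linearIndependent T c (hw ▸ hw0) j hj
  have hab : e4 * a + e6 * b = 0 := by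
    rw [hw0] at hsplit; simpa using hsplit
  obtain ⟨d, hd, had, hbd⟩ := exists_of_e4_mul_add_e6_mul_eq_zero hcA.isMF_sum hcB.isMF_sum hab
  obtain ⟨t, D, hD, hdD⟩ := exists_coeffs hd
  -- the difference systems
  have hA' : Coeffs Γ ((m : ℤ) - 4) (s ∪ t) (fun i ↦ A i - e6 * D i) :=
    ⟨fun i ↦ (hcA.mem i).sub ((isMF_e6.mul (hD.mem i)).cast (by ring) rfl), fun i hi ↦ by
      simp only [Finset.mem_union, not_or] at hi
      simp [hcA.supp i hi.1, hD.supp i hi.2]⟩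
  have hB' : Coeffs Γ ((m : ℤ) - 6) (s ∪ t) (fun i ↦ B i + e4 * D i) :=
    ⟨fun i ↦ (hcB.mem i).add ((isMF_e4.mul (hD.mem i)).cast (by ring) rfl), fun i hi ↦ by
      simp only [Finset.mem_union, not_or] at hi
      simp [hcB.supp i hi.1, hD.supp i hi.2]⟩
  have hzero : ∀ {l : ℤ} {Q : GenIdx Γ → ℍ → ℂ}, 0 < l → Coeffs Γ ((m : ℤ) - l) (s ∪ t) Q →
      ∑ i ∈ s ∪ t, Q i * gen i = 0 → ∀ i, Q i = 0 := by
    intro l Q hl hQ hQ0 i
    by_cases hm : (m : ℤ) - l - i.wt < 0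
    · exact (hQ.mem i).eq_zero_of_neg hm
    · exact ih ((m : ℤ) - l).toNat (by simp only [GenIdx.wt] at hm; omega) hQ hQ0 rfl i
  have sA : ∀ i, A i = e6 * D i := fun i ↦ sub_eq_zero.1 <| hzero (by norm_num) hA' (by
    simp only [sub_mul, Finset.sum_sub_distrib]
    rw [hcA.sum_eq Finset.subset_union_left]
    rw [had,
      sub_eq_zero, hdD, Finset.mul_sum, ← Finset.sum_subset (Finset.subset_union_right (s₁ := s))
        (fun i _ hi ↦ by simp [hD.supp i hi])]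
    exact Finset.sum_congr rfl fun i _ ↦ (mul_assoc _ _ _).symm) i
  have sB : ∀ i, B i = -(e4 * D i) := fun i ↦ eq_neg_of_add_eq_zero_left <| hzero (by norm_num) hB' (by
    simp only [add_mul, Finset.sum_add_distrib]
    rw [hcB.sum_eq Finset.subset_union_left]
    rw [hbd,
      neg_add_eq_zero, hdD, Finset.mul_sum, ← Finset.sum_subset (Finset.subset_union_right (s₁ := s))
        (fun i _ hi ↦ by simp [hD.supp i hi])]
    exact Finset.sum_congr rfl fun i _ ↦ (mul_assoc _ _ _).symm) i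
  by_cases hwt : (m : ℤ) = i₀.wt
  · obtain ⟨k', j⟩ := i₀
    obtain rfl : m = k' := Int.ofNat_inj.1 hwt
    by_cases hs : (⟨m, j⟩ : GenIdx Γ) ∈ s
    · have := hc0 j (by rw [hT]; exact Finset.mem_preimage.2 hs)
      rw [show P ⟨m, j⟩ = P (emb j) from rfl, hc j, this]
      rfl
    · exact hP.supp _ hs
  · rw [hne i₀ hwt, sA, sB]; ring

end FermatAgent.ModCurve.Forms
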