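import Mathlib

/-!
# A lattice is determined by its invariants `g₂`, `g₃`
-/

noncomputable section

open PeriodPair Filter Topology

namespace FermatAgent.ModCurve.Forms

/-- Two period pairs with the same `g₂` and `g₃` span the same lattice. -/
theorem lattice_eq_of_g₂_eq_of_g₃_eq (L₁ L₂ : PeriodPair) (h₂ : L₁.g₂ = L₂.g₂)
    (h₃ : L₁.g₃ = L₂.g₃) : L₁.lattice = L₂.lattice := by
  set φ₁ := L₁.weierstrassPExcept 0 with hφ₁
  set φ₂ := L₂.weierstrassPExcept 0 with hφ₂
  set ψ₁ := L₁.derivWeierstrassPExcept 0 with hψ₁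
  set ψ₂ := L₂.derivWeierstrassPExcept 0 with hψ₂
  have hφ₁a : AnalyticAt ℂ φ₁ 0 := L₁.analyticAt_weierstrassPExcept 0
  have hφ₂a : AnalyticAt ℂ φ₂ 0 := L₂.analyticAt_weierstrassPExcept 0
  have hψ₁a : AnalyticAt ℂ ψ₁ 0 := L₁.analyticAt_derivWeierstrassPExcept 0
  have hψ₂a : AnalyticAt ℂ ψ₂ 0 := L₂.analyticAt_derivWeierstrassPExcept 0
  set h : ℂ → ℂ := φ₁ - φ₂ with hh
  have hha : AnalyticAt ℂ h 0 := hφ₁a.sub hφ₂a
  have hh0 : h 0 = 0 := by simp [hh, hφ₁, hφ₂]
  have near : ∀ᶠ z in 𝓝[≠] (0 : ℂ), z ≠ 0 ∧ z ∉ L₁.lattice ∧ z ∉ L₂.lattice := by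
    filter_upwards [self_mem_nhdsWithin,
      mem_nhdsWithin_of_mem_nhds (L₁.compl_lattice_sdiff_singleton_mem_nhds 0),
      mem_nhdsWithin_of_mem_nhds (L₂.compl_lattice_sdiff_singleton_mem_nhds 0)] with z hz h1 h2
    simp_all
  -- the differential equation for the difference
  have ode : ∀ᶠ z in 𝓝[≠] (0 : ℂ),
      (z ^ 3 * (ψ₁ z + ψ₂ z) - 4) * (z * deriv h z) =
      (4 * ((φ₁ z * z ^ 2 + 1) ^ 2 + (φ₁ z * z ^ 2 + 1) * (φ₂ z * z ^ 2 + 1)
        + (φ₂ z * z ^ 2 + 1) ^ 2) - L₁.g₂ * z ^ 4) * h z := by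
    filter_upwards [near] with z ⟨hz, hz1, hz2⟩
    have e1 := L₁.derivWeierstrassP_sq z hz1
    have e2 := L₂.derivWeierstrassP_sq z hz2
    rw [← h₂, ← h₃] at e2
    have p1 : L₁.weierstrassP z = φ₁ z + 1 / z ^ 2 := by
      have := L₁.weierstrassPExcept_def 0 z
      simp only [ZeroMemClass.coe_zero, sub_zero] at this
      rw [hφ₁, this]; simp
    have p2 : L₂.weierstrassP z = φ₂ z + 1 / z ^ 2 := by
      have := L₂.weierstrassPExcept_def 0 z
      simp only [ZeroMemClass.coe_zero, sub_zero] at this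
      rw [hφ₂, this]; simp
    have q1 : L₁.derivWeierstrassP z = ψ₁ z - 2 / z ^ 3 := by
      have := L₁.derivWeierstrassPExcept_def 0 z
      simp only [ZeroMemClass.coe_zero, sub_zero] at this
      rw [hψ₁, this]; ring
    have q2 : L₂.derivWeierstrassP z = ψ₂ z - 2 / z ^ 3 := by
      have := L₂.derivWeierstrassPExcept_def 0 z
      simp only [ZeroMemClass.coe_zero, sub_zero] at this
      rw [hψ₂, this]; ring
    have d1 : deriv φ₁ z = ψ₁ z :=
      L₁.eqOn_deriv_weierstrassPExcept_derivWeierstrassPExcept 0 (x := z) (by simp [hz1])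
    have d2 : deriv φ₂ z = ψ₂ z :=
      L₂.eqOn_deriv_weierstrassPExcept_derivWeierstrassPExcept 0 (x := z) (by simp [hz2])
    have dh : deriv h z = ψ₁ z - ψ₂ z := by
      rw [hh, deriv_sub, d1, d2]
      · exact (L₁.analyticOnNhd_weierstrassPExcept 0 z (by simp [hz1])).differentiableAt
      · exact (L₂.analyticOnNhd_weierstrassPExcept 0 z (by simp [hz2])).differentiableAt
    rw [p1, q1] at e1
    rw [p2, q2] at e2
    rw [dh, hh, Pi.sub_apply]
    field_simp at e1 e2
    apply mul_left_cancel₀ (pow_ne_zero 2 hz)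
    linear_combination e1 - e2
  -- the difference vanishes near zero
  have hzero : ∀ᶠ z in 𝓝 (0 : ℂ), h z = 0 := by
    by_contra hne
    have hord : analyticOrderAt h 0 ≠ ⊤ := by rwa [Ne, analyticOrderAt_eq_top]
    obtain ⟨g, hga, hg0, hg⟩ := hha.analyticOrderAt_ne_top.1 hord
    set m := analyticOrderNatAt h 0 with hm
    have hm0 : m ≠ 0 := by
      intro hm0
      have := hg.self_of_nhds
      simp [hm0, hh0] at this
      exact hg0 this.symm
    have hdh : ∀ᶠ z in 𝓝 (0 : ℂ), z * deriv h z = z ^ m * (m * g z + z * deriv g z) := by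
      filter_upwards [eventually_eventually_nhds.2 hg, hga.eventually_analyticAt] with z hz hgz
      have : deriv h z = deriv (fun w ↦ w ^ m * g w) z := by
        refine Filter.EventuallyEq.deriv_eq ?_
        filter_upwards [hz] with w hw; simpa using hw
      rw [this, deriv_fun_mul (differentiableAt_pow m) hgz.differentiableAt, deriv_pow_field]
      obtain ⟨j, hj⟩ : ∃ j, m = j + 1 := ⟨m - 1, by omega⟩
      rw [hj]; push_cast; ring
    let Φ : ℂ → ℂ := fun z ↦ (z ^ 3 * (ψ₁ z + ψ₂ z) - 4) * (m * g z + z * deriv g z) -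
      (4 * ((φ₁ z * z ^ 2 + 1) ^ 2 + (φ₁ z * z ^ 2 + 1) * (φ₂ z * z ^ 2 + 1)
        + (φ₂ z * z ^ 2 + 1) ^ 2) - L₁.g₂ * z ^ 4) * g z
    have hΦ : ∀ᶠ z in 𝓝[≠] (0 : ℂ), Φ z = 0 := by
      filter_upwards [ode, nhdsWithin_le_nhds hdh, nhdsWithin_le_nhds hg, self_mem_nhdsWithin]
        with z h1 h2 h3 (hz : z ≠ 0)
      replace h3 : h z = z ^ m * g z := by simpa using h3
      rw [h2, h3] at h1
      apply mul_left_cancel₀ (pow_ne_zero m hz)
      simp only [Φ]
      linear_combination h1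
    have hΦc : ContinuousAt Φ 0 := by
      have := hφ₁a.continuousAt; have := hφ₂a.continuousAt
      have := hψ₁a.continuousAt; have := hψ₂a.continuousAt
      have := hga.continuousAt; have := hga.deriv.continuousAt
      simp only [Φ]; fun_prop
    have hΦ0 : Φ 0 = 0 :=
      tendsto_nhds_unique (hΦc.tendsto.mono_left nhdsWithin_le_nhds)
        (tendsto_const_nhds.congr' (hΦ.mono fun z hz ↦ hz.symm))
    have : (-4 * (m : ℂ) - 12) * g 0 = 0 := by
      simp only [Φ] at hΦ0; linear_combination hΦ0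
    rcases mul_eq_zero.1 this with h' | h'
    · have : ((4 * m + 12 : ℕ) : ℂ) = 0 := by push_cast; linear_combination -h'
      norm_cast at this
    · exact hg0 h'
  -- identity theorem
  set U : Set ℂ := ((L₁.lattice : Set ℂ) ∪ L₂.lattice)ᶜ with hU
  have hUo : IsOpen U := (L₁.isClosed_lattice.union L₂.isClosed_lattice).isOpen_compl
  have hUc : IsPreconnected U :=
    (Set.Countable.isConnected_compl_of_one_lt_rank (by simp)
      ((countable_of_Lindelof_of_discrete (X := L₁.lattice) |> Set.countable_coe_iff.1).union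
        (countable_of_Lindelof_of_discrete (X := L₂.lattice) |> Set.countable_coe_iff.1))).isPreconnected
  have heq : Set.EqOn L₁.weierstrassP L₂.weierstrassP U := by
    obtain ⟨z₀, hev, hz₀, h1, h2⟩ := (((eventually_eventually_nhds.2 hzero).filter_mono
      nhdsWithin_le_nhds).and near).exists
    refine AnalyticOnNhd.eqOn_of_preconnected_of_eventuallyEq
      (L₁.analyticOnNhd_weierstrassP.mono (fun z hz ↦ ?_))
      (L₂.analyticOnNhd_weierstrassP.mono (fun z hz ↦ ?_)) hUc (z₀ := z₀) (by simp [hU, h1, h2]) ?_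
    · simp_all
    · simp_all
    · filter_upwards [hev] with z hz
      have a1 := L₁.weierstrassPExcept_add 0 z
      have a2 := L₂.weierstrassPExcept_add 0 z
      simp only [ZeroMemClass.coe_zero] at a1 a2
      rw [← a1, ← a2]
      have : φ₁ z = φ₂ z := sub_eq_zero.1 hz
      rw [← hφ₁, ← hφ₂, this]
  have main : ∀ (A B : PeriodPair), Set.EqOn A.weierstrassP B.weierstrassP
      ((A.lattice : Set ℂ) ∪ B.lattice)ᶜ → A.lattice ≤ B.lattice := by
    intro A B hAB x hx
    by_contra hxB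
    have hcongr : A.weierstrassP =ᶠ[𝓝[≠] x] B.weierstrassP := by
      filter_upwards [self_mem_nhdsWithin,
        mem_nhdsWithin_of_mem_nhds (A.compl_lattice_sdiff_singleton_mem_nhds x),
        mem_nhdsWithin_of_mem_nhds (B.isClosed_lattice.isOpen_compl.mem_nhds hxB)] with z hz h1 h2
      apply hAB
      simp_all
    have := A.order_weierstrassP x hx
    rw [meromorphicOrderAt_congr hcongr] at this
    have h0 := (B.analyticOnNhd_weierstrassP x hxB).meromorphicOrderAt_nonneg
    rw [this] at h0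
    exact absurd h0 (by decide)
  exact le_antisymm (main L₁ L₂ heq) (main L₂ L₁ (by rw [Set.union_comm]; exact heq.symm))

end FermatAgent.ModCurve.Forms
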