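import Mathlib
import Fermat.Prelude.Def_ModularForm_HeckeOperator
import Fermat.Agent.ModCurve.Forms.LatticeUnique
import Fermat.Agent.ModCurve.Forms.LevelOne

/-!
# The translates of `E₄(Nτ)`, `E₆(Nτ)` separate the cosets of `Γ₀(N)` at every point
-/

noncomputable section

open UpperHalfPlane CongruenceSubgroup Filter Topology Matrix.SpecialLinearGroup
open scoped Manifold MatrixGroups ModularForm Pointwise

namespace FermatAgent.ModCurve.Forms

theorem denom_sl (g : SL(2, ℤ)) (τ : ℂ) :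
    denom (g : GL (Fin 2) ℝ) τ = (g 1 0 : ℂ) * τ + g 1 1 := by
  exact rfl

theorem coe_sl_smul (g : SL(2, ℤ)) (τ : ℍ) :
    ((g • τ : ℍ) : ℂ) = ((g 0 0 : ℂ) * τ + g 0 1) / ((g 1 0 : ℂ) * τ + g 1 1) := by
  rw [UpperHalfPlane.coe_specialLinearGroup_apply]
  simp

variable (N : ℕ) [NeZero N]

/-- The point `Nτ`. -/
def scalePt (τ : ℍ) : ℍ := ⟨(N : ℂ) * τ, by
  have hN : (0 : ℝ) < N := Nat.cast_pos.2 (NeZero.pos N)
  simpa using mul_pos hN τ.im_pos⟩

@[simp] theorem coe_scalePt (τ : ℍ) : (scalePt N τ : ℂ) = (N : ℂ) * τ := rfl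

theorem heckeDiagMatrix_smul_eq (τ : ℍ) : ModularForm.heckeDiagMatrix N • τ = scalePt N τ :=
  UpperHalfPlane.ext (ModularForm.coe_heckeDiagMatrix_smul (NeZero.ne N) τ)

/-- `f(Nτ)`. -/
def dilate (f : ℍ → ℂ) : ℍ → ℂ := fun τ ↦ f (scalePt N τ)

theorem dilate_eq_smul_slash (k : ℤ) (f : ℍ → ℂ) :
    dilate N f = (N : ℂ) ^ (1 - k) • (f ∣[k] ModularForm.heckeDiagMatrix N) := by
  ext τ
  rw [Pi.smul_apply, ModularForm.slash_heckeDiagMatrix_apply k (NeZero.ne N), smul_eq_mul,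
    ← mul_assoc, ← zpow_add₀ (NeZero.ne _), heckeDiagMatrix_smul_eq]
  simp [dilate]

/-- The diagonal matrix `diag(N, 1)` over `ℚ`. -/
def diagRat : GL (Fin 2) ℚ :=
  Matrix.GeneralLinearGroup.mkOfDetNeZero !![(N : ℚ), 0; 0, 1]
    (by simp [Matrix.det_fin_two_of, NeZero.ne])

theorem heckeDiagMatrix_eq_map :
    ModularForm.heckeDiagMatrix N = (diagRat N).map (Rat.castHom ℝ) := by
  ext i j
  simp [diagRat, ModularForm.val_heckeDiagMatrix (NeZero.ne N)]
  fin_cases i <;> fin_cases j <;> simp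

/-- The matrix conjugate by `diag(N,1)` of an element of `Γ₀(N)`. -/
def conjDiag (γ : SL(2, ℤ)) (hγ : γ ∈ Gamma0 N) : SL(2, ℤ) :=
  ⟨!![γ 0 0, N * γ 0 1; γ 1 0 / N, γ 1 1], by
    have hd : (N : ℤ) ∣ γ 1 0 := (ZMod.intCast_zmod_eq_zero_iff_dvd _ _).1 hγ
    have := γ.2
    rw [Matrix.det_fin_two] at this
    rw [Matrix.det_fin_two_of, mul_assoc, mul_comm (γ 0 1), ← mul_assoc, Int.mul_ediv_cancel' hd]
    linarith⟩

theorem isMF_dilate {k : ℤ} {f : ℍ → ℂ} (hf : IsMF ⊤ k f) : IsMF (Gamma0 N) k (dilate N f) := by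
  refine ⟨?_, fun γ hγ ↦ ?_, fun γ ↦ ?_⟩
  · rw [dilate_eq_smul_slash N k]
    exact ((hf.holo.slash k _).const_smul _)
  · obtain ⟨c', hc'⟩ : (N : ℤ) ∣ γ 1 0 := (ZMod.intCast_zmod_eq_zero_iff_dvd _ _).1 hγ
    have hN : (N : ℂ) ≠ 0 := NeZero.ne _
    ext τ
    rw [ModularForm.SL_slash_apply]
    set γ' : SL(2, ℤ) := conjDiag N γ hγ with hγ'
    have hcz : (γ 1 0 : ℤ) / N = c' := by
      rw [hc', Int.mul_ediv_cancel_left _ (by exact_mod_cast NeZero.ne N)]
    have e00 : γ' 0 0 = γ 0 0 := rfl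
    have e01 : γ' 0 1 = N * γ 0 1 := rfl
    have e10 : γ' 1 0 = c' := hcz
    have e11 : γ' 1 1 = γ 1 1 := rfl
    have hden : denom (γ' : GL (Fin 2) ℝ) (scalePt N τ) = denom (γ : GL (Fin 2) ℝ) τ := by
      rw [denom_sl, denom_sl, e10, e11, coe_scalePt, hc']
      push_cast; ring
    have hsm : scalePt N (γ • τ) = γ' • scalePt N τ := by
      apply UpperHalfPlane.ext
      rw [coe_scalePt, coe_sl_smul, coe_sl_smul, ← denom_sl, ← denom_sl, hden, coe_scalePt,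
        e00, e01]
      push_cast; ring
    have key := congrFun (hf.inv_top γ') (scalePt N τ)
    rw [ModularForm.SL_slash_apply, hden] at key
    simp only [dilate, hsm]
    exact key
  · rw [dilate_eq_smul_slash N k, ModularForm.SL_smul_slash]
    refine Filter.BoundedAtFilter.smul _ ?_
    rw [heckeDiagMatrix_eq_map]
    have : Subgroup.IsArithmetic
        (ConjAct.toConjAct ((diagRat N).map (Rat.castHom ℝ))⁻¹ • 𝒮ℒ) := by
      rw [← map_inv]
      exact Subgroup.IsArithmetic.conj 𝒮ℒ _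
    exact ModularFormClass.bdd_at_infty_slash
      (ModularForm.translate hf.toLevelOne ((diagRat N).map (Rat.castHom ℝ))) γ

/-- `E₄(Nτ)`. -/
def e4N : ℍ → ℂ := dilate N e4

/-- `E₆(Nτ)`. -/
def e6N : ℍ → ℂ := dilate N e6

theorem isMF_e4N : IsMF (Gamma0 N) 4 (e4N N) := isMF_dilate N isMF_e4
theorem isMF_e6N : IsMF (Gamma0 N) 6 (e6N N) := isMF_dilate N isMF_e6

/-- The period pair `(w z, w)`. -/
def pairOf (z : ℍ) (w : ℂ) (hw : w ≠ 0) : PeriodPair where
  ω₁ := w * z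
  ω₂ := w
  indep := by
    rw [LinearIndependent.pair_iff]
    intro s t h
    have h' : (s : ℂ) * z + t = 0 := by
      apply mul_left_cancel₀ hw
      rw [Complex.real_smul, Complex.real_smul] at h
      linear_combination h
    have him : s * z.im = 0 := by simpa using congrArg Complex.im h'
    have hs : s = 0 := (mul_eq_zero.1 him).resolve_right z.im_ne_zero
    refine ⟨hs, ?_⟩
    simpa [hs] using h'

/-- The lattice invariant of `(w z, w)` in terms of the normalised Eisenstein series. -/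
theorem G_pairOf {k : ℕ} (hk : 3 ≤ k) (z : ℍ) (w : ℂ) (hw : w ≠ 0) :
    (pairOf z w hw).G k = w ^ (-(k : ℤ)) * (2 * riemannZeta k * ModularForm.E hk z) := by
  have hE : ModularForm.E hk z =
      (1 / 2 : ℂ) * eisensteinSeries (N := 1) 0 k z := rfl
  rw [hE, show w ^ (-(k : ℤ)) * (2 * riemannZeta k * ((1 / 2 : ℂ) *
      eisensteinSeries (N := 1) 0 k z)) =
      w ^ (-(k : ℤ)) * (riemannZeta k * eisensteinSeries (N := 1) 0 k z) by ring,
    ← tsum_eisSummand_eq_riemannZeta_mul_eisensteinSeries hk, ← tsum_mul_left, PeriodPair.G,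
    ← ((finTwoArrowEquiv ℤ).trans (pairOf z w hw).latticeEquivProd.toEquiv.symm).tsum_eq]
  congr with v
  simp only [Equiv.trans_apply, LinearEquiv.coe_toEquiv_symm, EquivLike.coe_coe,
    EisensteinSeries.eisSummand, PeriodPair.latticeEquiv_symm_apply, finTwoArrowEquiv_apply,
    zpow_neg, zpow_natCast]
  rw [← mul_inv, ← mul_pow]
  simp [pairOf]
  ring

/-- The sublattice attached to `g` at the point `τ`. -/
def coPair (g : SL(2, ℤ)) (τ : ℍ) : PeriodPair :=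
  pairOf (scalePt N (g • τ)) (denom g τ) (denom_ne_zero _ τ)

theorem G_coPair_four (g : SL(2, ℤ)) (τ : ℍ) :
    (coPair N g τ).G 4 = 2 * riemannZeta 4 * (e4N N ∣[(4 : ℤ)] g) τ := by
  rw [coPair, G_pairOf (k := 4) (by norm_num), ModularForm.SL_slash_apply]
  simp [e4N, dilate, e4]
  ring

theorem G_coPair_six (g : SL(2, ℤ)) (τ : ℍ) :
    (coPair N g τ).G 6 = 2 * riemannZeta 6 * (e6N N ∣[(6 : ℤ)] g) τ := by
  rw [coPair, G_pairOf (k := 6) (by norm_num), ModularForm.SL_slash_apply]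
  simp [e6N, dilate, e6]
  ring

theorem mk_inv_eq_of_coPair_lattice_eq (g h : SL(2, ℤ)) (τ : ℍ)
    (hL : (coPair N g τ).lattice = (coPair N h τ).lattice) :
    (QuotientGroup.mk g⁻¹ : Cosets (Gamma0 N)) = QuotientGroup.mk h⁻¹ := by
  have hmem : (coPair N g τ).ω₂ ∈ (coPair N h τ).lattice := hL ▸ PeriodPair.ω₂_mem_lattice _
  obtain ⟨m, n, hmn⟩ := PeriodPair.mem_lattice.1 hmem
  have hω : ∀ u : SL(2, ℤ), (coPair N u τ).ω₁ = N * ((u 0 0 : ℂ) * τ + u 0 1) ∧
      (coPair N u τ).ω₂ = (u 1 0 : ℂ) * τ + u 1 1 := by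
    intro u
    refine ⟨?_, denom_sl u τ⟩
    show denom (u : GL (Fin 2) ℝ) τ * (scalePt N (u • τ) : ℂ) = _
    rw [coe_scalePt, coe_sl_smul, ← denom_sl]
    field_simp [denom_ne_zero]
  rw [(hω h).1, (hω h).2, (hω g).2] at hmn
  have him := congrArg Complex.im hmn
  simp at him
  have h10 : (g 1 0 : ℤ) = m * N * h 0 0 + n * h 1 0 := by
    have : ((g 1 0 : ℤ) : ℝ) * τ.im = ((m * N * h 0 0 + n * h 1 0 : ℤ) : ℝ) * τ.im := by
      push_cast; linear_combination -him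
    exact_mod_cast mul_right_cancel₀ τ.im_ne_zero this
  have h11 : (g 1 1 : ℤ) = m * N * h 0 1 + n * h 1 1 := by
    have : ((g 1 1 : ℤ) : ℂ) = ((m * N * h 0 1 + n * h 1 1 : ℤ) : ℂ) := by
      have h10' : ((g 1 0 : ℤ) : ℂ) = ((m * N * h 0 0 + n * h 1 0 : ℤ) : ℂ) := by rw [h10]
      push_cast at h10' ⊢
      linear_combination -hmn - (τ : ℂ) * h10'
    exact_mod_cast this
  rw [QuotientGroup.eq, inv_inv]
  show ((g * h⁻¹) 1 0 : ZMod N) = 0
  rw [ZMod.intCast_zmod_eq_zero_iff_dvd]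
  refine ⟨m, ?_⟩
  have hdet := h.2
  rw [Matrix.det_fin_two] at hdet
  simp [Matrix.mul_apply, Fin.sum_univ_two, Matrix.adjugate_fin_two, h10, h11]
  linear_combination (m * (N : ℤ)) * hdet

/-- The pair of values of the translates of `E₄(N·)` and `E₆(N·)` determines the coset. -/
theorem separation (τ : ℍ) :
    Function.Injective fun x : Cosets (Gamma0 N) ↦
      ((tr 4 (e4N N) x τ, tr 6 (e6N N) x τ) : ℂ × ℂ) := by
  intro x y hxy
  simp only [Prod.mk.injEq] at hxy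
  have h4 : (coPair N x.out⁻¹ τ).g₂ = (coPair N y.out⁻¹ τ).g₂ := by
    simp only [PeriodPair.g₂, G_coPair_four]
    rw [show (e4N N ∣[(4 : ℤ)] x.out⁻¹) τ = _ from hxy.1]; rfl
  have h6 : (coPair N x.out⁻¹ τ).g₃ = (coPair N y.out⁻¹ τ).g₃ := by
    simp only [PeriodPair.g₃, G_coPair_six]
    rw [show (e6N N ∣[(6 : ℤ)] x.out⁻¹) τ = _ from hxy.2]; rfl
  have := mk_inv_eq_of_coPair_lattice_eq N _ _ τ (lattice_eq_of_g₂_eq_of_g₃_eq _ _ h4 h6)
  simpa [QuotientGroup.out_eq'] using this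

end FermatAgent.ModCurve.Forms
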