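import Mathlib
import Fermat.Agent.ModCurve.Forms.Separation
import Fermat.Agent.ModCurve.Forms.Generators

/-!
# A frame of modular forms on `Γ₀(N)` with nowhere vanishing determinant
-/

noncomputable section

open UpperHalfPlane CongruenceSubgroup Filter Topology Matrix
open scoped Manifold MatrixGroups ModularForm

namespace FermatAgent.ModCurve.Forms

section Family

variable {Γ : Subgroup SL(2, ℤ)} [Fintype (Cosets Γ)] [DecidableEq (Cosets Γ)]

/-- The determinant function of a square family of functions. -/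
def famDet (F : Cosets Γ → Cosets Γ → ℍ → ℂ) : ℍ → ℂ :=
  fun τ ↦ (Matrix.of fun i x ↦ F i x τ).det

theorem famDet_smul {F : Cosets Γ → Cosets Γ → ℍ → ℂ} {κ : Cosets Γ → ℤ}
    (h : ∀ (γ : SL(2, ℤ)) i x τ, F i x (γ • τ) = denom γ τ ^ κ i * F i (γ⁻¹ • x) τ)
    (γ : SL(2, ℤ)) (τ : ℍ) :
    famDet F (γ • τ) = denom γ τ ^ (∑ i, κ i) *
      ((Equiv.Perm.sign (MulAction.toPerm γ⁻¹ : Equiv.Perm (Cosets Γ)) : ℤ) * famDet F τ) := by
  set σ : Equiv.Perm (Cosets Γ) := MulAction.toPerm γ⁻¹ with hσ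
  have e : (Matrix.of fun i x ↦ F i x (γ • τ)) =
      Matrix.diagonal (fun i ↦ denom γ τ ^ κ i) *
        (Matrix.of fun i x ↦ F i x τ).submatrix id σ := by
    ext i x
    rw [Matrix.diagonal_mul, Matrix.submatrix_apply, Matrix.of_apply, Matrix.of_apply, h]
    rfl
  rw [famDet, e, Matrix.det_mul, Matrix.det_diagonal, Matrix.det_permute', famDet]
  congr 1
  induction (Finset.univ : Finset (Cosets Γ)) using Finset.cons_induction with
  | empty => simp
  | cons a s ha ih => rw [Finset.prod_cons, Finset.sum_cons, zpow_add₀ (denom_ne_zero _ τ), ih]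

theorem famDet_holo {F : Cosets Γ → Cosets Γ → ℍ → ℂ} (h : ∀ i x, MDiff (F i x)) :
    MDiff (famDet F) := by
  have : famDet F = fun τ ↦ ∑ σ : Equiv.Perm (Cosets Γ),
      ((Equiv.Perm.sign σ : ℤ) : ℂ) * ∏ i, F (σ i) i τ := by
    funext τ; simp [famDet, Matrix.det_apply']
  rw [this, UpperHalfPlane.mdifferentiable_iff]
  refine DifferentiableOn.fun_sum fun σ _ ↦ DifferentiableOn.const_mul ?_ _
  refine DifferentiableOn.fun_finsetProd fun i _ ↦ ?_
  exact UpperHalfPlane.mdifferentiable_iff.1 (h (σ i) i)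

theorem famDet_bdd {F : Cosets Γ → Cosets Γ → ℍ → ℂ} (h : ∀ i x, IsBoundedAtImInfty (F i x)) :
    IsBoundedAtImInfty (famDet F) := by
  have e : famDet F = ∑ σ : Equiv.Perm (Cosets Γ),
      (Equiv.Perm.sign σ : ℤ) • ∏ i, F (σ i) i := by
    funext τ; simp [famDet, Matrix.det_apply', Finset.sum_apply, Finset.prod_apply, zsmul_eq_mul]
  rw [e]
  exact (boundedAtImInftySubalgebra ℂ).sum_mem fun σ _ ↦
    (boundedAtImInftySubalgebra ℂ).zsmul_mem ((boundedAtImInftySubalgebra ℂ).prod_mem fun i _ ↦ h _ _) _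

/-- The product of two such determinants is a level one form. -/
theorem isMF_famDet_mul {F G : Cosets Γ → Cosets Γ → ℍ → ℂ} {κ μ : Cosets Γ → ℤ}
    (hF : ∀ (γ : SL(2, ℤ)) i x τ, F i x (γ • τ) = denom γ τ ^ κ i * F i (γ⁻¹ • x) τ)
    (hG : ∀ (γ : SL(2, ℤ)) i x τ, G i x (γ • τ) = denom γ τ ^ μ i * G i (γ⁻¹ • x) τ)
    (hFh : ∀ i x, MDiff (F i x)) (hGh : ∀ i x, MDiff (G i x))
    (hFb : ∀ i x, IsBoundedAtImInfty (F i x)) (hGb : ∀ i x, IsBoundedAtImInfty (G i x)) :
    IsMF ⊤ ((∑ i, κ i) + ∑ i, μ i) (famDet F * famDet G) := by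
  have key : ∀ γ : SL(2, ℤ),
      (famDet F * famDet G) ∣[(∑ i, κ i) + ∑ i, μ i] γ = famDet F * famDet G := by
    intro γ
    ext τ
    rw [ModularForm.SL_slash_apply, Pi.mul_apply, famDet_smul hF, famDet_smul hG, Pi.mul_apply,
      _root_.zpow_neg, zpow_add₀ (denom_ne_zero _ τ)]
    have hs : ((Equiv.Perm.sign (MulAction.toPerm γ⁻¹ : Equiv.Perm (Cosets Γ)) : ℤ) : ℂ) *
        ((Equiv.Perm.sign (MulAction.toPerm γ⁻¹ : Equiv.Perm (Cosets Γ)) : ℤ) : ℂ) = 1 := by
      rw [← Int.cast_mul, ← Units.val_mul, Int.units_mul_self, Units.val_one, Int.cast_one]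
    have h1 := zpow_ne_zero (∑ i, κ i) (denom_ne_zero (γ : GL (Fin 2) ℝ) τ)
    have h2 := zpow_ne_zero (∑ i, μ i) (denom_ne_zero (γ : GL (Fin 2) ℝ) τ)
    field_simp
    linear_combination (famDet F τ * famDet G τ) * hs
  exact ⟨(famDet_holo hFh).mul (famDet_holo hGh), fun γ _ ↦ key γ,
    fun γ ↦ by rw [key]; exact (famDet_bdd hFb).mul (famDet_bdd hGb)⟩

end Family

variable (N : ℕ) [NeZero N]

instance : Finite (Cosets (Gamma0 N)) := Subgroup.finite_quotient_of_finiteIndex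

instance : Fintype (Cosets (Gamma0 N)) := Fintype.ofFinite _

instance : DecidableEq (Cosets (Gamma0 N)) := Classical.decEq _

instance {Γ : Subgroup SL(2, ℤ)} : DecidableEq (GenIdx Γ) := Classical.decEq _

/-- The values of a translate family at a point. -/
def evalTr (τ : ℍ) (i : GenIdx (Gamma0 N)) : Cosets (Gamma0 N) → ℂ :=
  fun x ↦ tr i.wt (gen i) x τ

omit [NeZero N] in
theorem tr_gen_apply_smul (i : GenIdx (Gamma0 N)) (γ : SL(2, ℤ)) (x : Cosets (Gamma0 N)) (τ : ℍ) :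
    tr i.wt (gen i) x (γ • τ) = denom γ τ ^ i.wt * tr i.wt (gen i) (γ⁻¹ • x) τ :=
  tr_apply_smul (isMF_gen i).inv γ x τ

theorem tr_mem_span {k : ℤ} {f : ℍ → ℂ} (hf : IsMF (Gamma0 N) k f) (τ : ℍ) :
    (fun x ↦ tr k f x τ) ∈ Submodule.span ℂ (Set.range (evalTr N τ)) := by
  obtain ⟨s, P, hP, rfl⟩ := exists_coeffs hf
  have : (fun x ↦ tr k (∑ i ∈ s, P i * gen i) x τ) = ∑ i ∈ s, P i τ • evalTr N τ i := by
    funext x
    rw [tr_sum, Finset.sum_apply, Finset.sum_apply]
    refine Finset.sum_congr rfl fun i _ ↦ ?_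
    rw [show k = (k - i.wt) + i.wt by ring, tr_mul, Pi.mul_apply, tr_of_top (hP.mem i)]
    rfl
  rw [this]
  exact Submodule.sum_mem _ fun i _ ↦ Submodule.smul_mem _ _ (Submodule.subset_span ⟨i, rfl⟩)

theorem span_evalTr (τ : ℍ) : Submodule.span ℂ (Set.range (evalTr N τ)) = ⊤ := by
  classical
  set W := Submodule.span ℂ (Set.range (evalTr N τ)) with hW
  set a : Cosets (Gamma0 N) → ℂ := fun x ↦ tr 4 (e4N N) x τ with ha
  set b : Cosets (Gamma0 N) → ℂ := fun x ↦ tr 6 (e6N N) x τ with hb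
  have hpowa : ∀ i : ℕ, IsMF (Gamma0 N) (4 * i) (e4N N ^ i) ∧
      ∀ x, tr (4 * i) (e4N N ^ i) x τ = a x ^ i := by
    intro i
    induction i with
    | zero =>
      have h := (IsMF.const (Γ := ⊤) (1 : ℂ)).cast (l := 4 * ((0 : ℕ) : ℤ)) (by simp)
        (show Function.const ℍ (1 : ℂ) = e4N N ^ 0 by ext; simp)
      exact ⟨h.ofTop, fun x ↦ by rw [tr_of_top h]; simp⟩
    | succ n ih =>
      refine ⟨(ih.1.mul (isMF_e4N N)).cast (by push_cast; ring) (pow_succ _ _).symm, fun x ↦ ?_⟩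
      rw [pow_succ, pow_succ, show (4 : ℤ) * (n + 1 : ℕ) = 4 * n + 4 by push_cast; ring, tr_mul,
        Pi.mul_apply, ih.2]
  have hpowb : ∀ i : ℕ, IsMF (Gamma0 N) (6 * i) (e6N N ^ i) ∧
      ∀ x, tr (6 * i) (e6N N ^ i) x τ = b x ^ i := by
    intro i
    induction i with
    | zero =>
      have h := (IsMF.const (Γ := ⊤) (1 : ℂ)).cast (l := 6 * ((0 : ℕ) : ℤ)) (by simp)
        (show Function.const ℍ (1 : ℂ) = e6N N ^ 0 by ext; simp)
      exact ⟨h.ofTop, fun x ↦ by rw [tr_of_top h]; simp⟩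
    | succ n ih =>
      refine ⟨(ih.1.mul (isMF_e6N N)).cast (by push_cast; ring) (pow_succ _ _).symm, fun x ↦ ?_⟩
      rw [pow_succ, pow_succ, show (6 : ℤ) * (n + 1 : ℕ) = 6 * n + 6 by push_cast; ring, tr_mul,
        Pi.mul_apply, ih.2]
  have hmon : ∀ i m : ℕ, a ^ i * b ^ m ∈ W := by
    intro i m
    have : a ^ i * b ^ m = fun x ↦ tr (4 * i + 6 * m) (e4N N ^ i * e6N N ^ m) x τ := by
      funext x
      simp [tr_mul, (hpowa i).2, (hpowb m).2]
    rw [this]
    exact tr_mem_span N ((hpowa i).1.mul (hpowb m).1) τ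
  set A := Algebra.adjoin ℂ ({a, b} : Set (Cosets (Gamma0 N) → ℂ)) with hA
  have hAW : Subalgebra.toSubmodule A ≤ W := by
    rw [hA, Algebra.adjoin_eq_span, Submodule.span_le]
    intro f hf
    obtain ⟨i, m, rfl⟩ := (Submonoid.mem_closure_pair a b f).1 hf
    exact hmon i m
  have hsingle : ∀ x₀ : Cosets (Gamma0 N), Pi.single x₀ (1 : ℂ) ∈ A := by
    intro x₀
    have hL : ∀ y, ∃ g ∈ A, g x₀ = 1 ∧ (y ≠ x₀ → g y = 0) := by
      intro y
      by_cases hy : y = x₀
      · exact ⟨1, one_mem _, rfl, fun h ↦ absurd hy h⟩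
      have hne : a y ≠ a x₀ ∨ b y ≠ b x₀ := by
        by_contra! h
        exact hy (separation N τ (Prod.ext h.1 h.2))
      rcases hne with h | h
      · refine ⟨(a x₀ - a y)⁻¹ • (a - algebraMap ℂ _ (a y)), A.smul_mem (sub_mem
          (Algebra.subset_adjoin (by simp)) (A.algebraMap_mem _)) _, ?_, fun _ ↦ by simp⟩
        simp [inv_mul_cancel₀ (sub_ne_zero.2 (Ne.symm h))]
      · refine ⟨(b x₀ - b y)⁻¹ • (b - algebraMap ℂ _ (b y)), A.smul_mem (sub_mem
          (Algebra.subset_adjoin (by simp)) (A.algebraMap_mem _)) _, ?_, fun _ ↦ by simp⟩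
        simp [inv_mul_cancel₀ (sub_ne_zero.2 (Ne.symm h))]
    choose g hgA hg1 hg0 using hL
    have : Pi.single x₀ (1 : ℂ) = ∏ y, g y := by
      funext z
      rw [Finset.prod_apply]
      by_cases hz : z = x₀
      · subst hz; simp [hg1]
      · rw [Pi.single_eq_of_ne hz, Finset.prod_eq_zero (Finset.mem_univ z) (f := fun c ↦ g c z) (hg0 z hz)]
    rw [this]
    exact prod_mem fun y _ ↦ hgA y
  rw [eq_top_iff]
  intro f _
  rw [show f = ∑ x, f x • Pi.single x (1 : ℂ) by funext z; simp [Finset.sum_apply, Pi.single_apply]]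
  exact Submodule.sum_mem _ fun x _ ↦ Submodule.smul_mem _ _ (hAW (hsingle x))

/-- The translate determinant of a tuple of generators. -/
def genDet (u : Cosets (Gamma0 N) → GenIdx (Gamma0 N)) : ℍ → ℂ :=
  famDet fun l x ↦ tr (u l).wt (gen (u l)) x

theorem isMF_genDet_mul (u v : Cosets (Gamma0 N) → GenIdx (Gamma0 N)) :
    IsMF ⊤ ((∑ l, (u l).wt) + ∑ l, (v l).wt) (genDet N u * genDet N v) :=
  isMF_famDet_mul (F := fun l x ↦ tr (u l).wt (gen (u l)) x)
    (G := fun l x ↦ tr (v l).wt (gen (v l)) x)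
    (fun γ _ x τ ↦ tr_gen_apply_smul N _ γ x τ) (fun γ _ x τ ↦ tr_gen_apply_smul N _ γ x τ)
    (fun _ x ↦ (isMF_gen _).tr_holo x) (fun _ x ↦ (isMF_gen _).tr_holo x)
    (fun _ x ↦ (isMF_gen _).tr_bdd x) (fun _ x ↦ (isMF_gen _).tr_bdd x)

/-- A set of generators independent at one point is everything. -/
theorem surjective_of_linearIndependent {τ₀ : ℍ} (e : Cosets (Gamma0 N) → GenIdx (Gamma0 N))
    (he : LinearIndependent ℂ fun i ↦ evalTr N τ₀ (e i)) : Function.Surjective e := by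
  by_contra hsurj
  obtain ⟨j, hj⟩ : ∃ j, ∀ i, e i ≠ j := by simpa [Function.Surjective] using hsurj
  have hinj : Function.Injective e := fun a b h ↦ he.injective (by simp [h])
  let F : Cosets (Gamma0 N) → Cosets (Gamma0 N) → ℍ → ℂ := fun i x ↦ tr (e i).wt (gen (e i)) x
  let e' : Cosets (Gamma0 N) → Cosets (Gamma0 N) → GenIdx (Gamma0 N) :=
    fun i ↦ Function.update e i j
  let Q : Cosets (Gamma0 N) → ℍ → ℂ := fun i ↦ genDet N (e' i)
  set D := genDet N e with hD
  set W := ∑ i, (e i).wt with hW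
  have hQ : ∀ i, IsMF ⊤ (2 * W + j.wt - (e i).wt) (D * Q i) := by
    intro i
    refine (isMF_genDet_mul N e (e' i)).cast ?_ rfl
    have : (fun l ↦ (e' i l).wt) = Function.update (fun l ↦ (e l).wt) i j.wt := by
      funext l; by_cases h : l = i
      · subst h; simp [e']
      · simp [e', h]
    rw [this, Finset.sum_update_of_mem (Finset.mem_univ i), hW,
      ← Finset.sum_sdiff (s₁ := {i}) (Finset.subset_univ _) (f := fun l ↦ (e l).wt),
      Finset.sum_singleton]
    ring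
  have hDD : IsMF ⊤ (2 * W) (D * D) :=
    (isMF_genDet_mul N e e).cast (by rw [hW]; ring) rfl
  -- Cramer's identity
  have hcr : ∀ τ, ∑ i, Q i τ * gen (e i) τ = D τ * gen j τ := by
    intro τ
    set B : Matrix (Cosets (Gamma0 N)) (Cosets (Gamma0 N)) ℂ :=
      Matrix.of fun i x ↦ F i x τ with hB
    set r : Cosets (Gamma0 N) → ℂ := fun x ↦ tr j.wt (gen j) x τ with hr
    have h1 := congrFun (Matrix.mulVec_cramer Bᵀ r) (QuotientGroup.mk 1)
    have h2 : ∀ i, Matrix.cramer Bᵀ r i = Q i τ := by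
      intro i
      rw [Matrix.cramer_apply, Matrix.updateCol_transpose, Matrix.det_transpose]
      show _ = Matrix.det _
      congr 1
      ext l x
      by_cases h : l = i
      · subst h; simp [e', hr]
      · simp [e', h, hB, F]
    simp only [Matrix.mulVec, dotProduct, h2] at h1
    simp only [Matrix.det_transpose, Pi.smul_apply,
      smul_eq_mul, Matrix.transpose_apply, hB, Matrix.of_apply, F, hr,
      tr_one (isMF_gen _).inv] at h1
    rw [show D τ = famDet F τ from rfl]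
    simp only [famDet, F]
    rw [← h1]
    exact Finset.sum_congr rfl fun i _ ↦ mul_comm _ _
  set PP : GenIdx (Gamma0 N) → ℍ → ℂ :=
    Function.update (Function.extend e (fun i ↦ D * Q i) 0) j (-(D * D)) with hPP
  have hPPe : ∀ i, PP (e i) = D * Q i := fun i ↦ by
    rw [hPP, Function.update_of_ne (hj i), hinj.extend_apply]
  have hPPj : PP j = -(D * D) := by rw [hPP, Function.update_self]
  set S := insert j (Finset.univ.image e) with hS
  have hco : Coeffs (Gamma0 N) (2 * W + j.wt) S PP := by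
    refine ⟨fun g ↦ ?_, fun g hg ↦ ?_⟩
    · by_cases hgj : g = j
      · subst hgj; rw [hPPj]; exact hDD.neg.cast (by ring) rfl
      by_cases hge : ∃ i, e i = g
      · obtain ⟨i, rfl⟩ := hge; rw [hPPe]; exact hQ i
      · rw [hPP, Function.update_of_ne hgj, Function.extend_apply' _ _ _ hge]
        exact IsMF.zero' _
    · simp only [hS, Finset.mem_insert, Finset.mem_image, Finset.mem_univ, true_and, not_or] at hg
      rw [hPP, Function.update_of_ne hg.1, Function.extend_apply' _ _ _ hg.2]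
      rfl
  have h0 : ∑ g ∈ S, PP g * gen g = 0 := by
    rw [hS, Finset.sum_insert (by simp [hj]), Finset.sum_image hinj.injOn]
    ext τ
    simp only [hPPj, hPPe, Pi.add_apply, Finset.sum_apply, Pi.mul_apply, Pi.neg_apply, Pi.zero_apply,
      mul_assoc, ← Finset.mul_sum, hcr]
    ring
  have := congrFun (coeffs_eq_zero hco h0 j) τ₀
  have hdet : IsUnit (Matrix.of fun i x ↦ F i x τ₀).det :=
    (Matrix.isUnit_iff_isUnit_det _).1 (Matrix.linearIndependent_rows_iff_isUnit.1 he)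
  rw [hPPj] at this
  simp only [Pi.neg_apply, Pi.mul_apply, Pi.zero_apply, neg_eq_zero, mul_self_eq_zero] at this
  exact hdet.ne_zero this

theorem exists_linearIndependent_evalTr (τ : ℍ) :
    ∃ e : Cosets (Gamma0 N) → GenIdx (Gamma0 N),
      LinearIndependent ℂ fun i ↦ evalTr N τ (e i) := by
  obtain ⟨κ, a, _, hspan, hli⟩ := exists_linearIndependent' ℂ (evalTr N τ)
  rw [span_evalTr] at hspan
  let bas := Module.Basis.mk hli hspan.ge
  let eq := (Pi.basisFun ℂ (Cosets (Gamma0 N))).indexEquiv bas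
  exact ⟨a ∘ eq, hli.comp _ eq.injective⟩

/-- A frame: weights and forms, one for each coset, with nowhere singular translate matrix,
generating all forms. -/
structure Frame where
  /-- the weights -/
  wt : Cosets (Gamma0 N) → ℤ
  /-- the forms -/
  b : Cosets (Gamma0 N) → ℍ → ℂ
  wt_nonneg : ∀ i, 0 ≤ wt i
  isMF : ∀ i, IsMF (Gamma0 N) (wt i) (b i)
  det_ne : ∀ τ, famDet (fun i x ↦ tr (wt i) (b i) x) τ ≠ 0
  generates : ∀ {k : ℤ} {f : ℍ → ℂ}, IsMF (Gamma0 N) k f →
    ∃ P : Cosets (Gamma0 N) → ℍ → ℂ, (∀ i, IsMF ⊤ (k - wt i) (P i)) ∧ f = ∑ i, P i * b i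

theorem nonempty_frame : Nonempty (Frame N) := by
  classical
  obtain ⟨e, he⟩ := exists_linearIndependent_evalTr N UpperHalfPlane.I
  have hs := surjective_of_linearIndependent N e he
  have hbij : Function.Bijective e := ⟨fun a b h ↦ he.injective (by simp [h]), hs⟩
  refine ⟨⟨fun i ↦ (e i).wt, fun i ↦ gen (e i), fun i ↦ by simp [GenIdx.wt],
    fun i ↦ isMF_gen _, fun τ ↦ ?_, fun {k f} hf ↦ ?_⟩⟩
  · have hspan : ⊤ ≤ Submodule.span ℂ (Set.range fun i ↦ evalTr N τ (e i)) := by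
      rw [show (fun i ↦ evalTr N τ (e i)) = evalTr N τ ∘ e from rfl, Set.range_comp,
        hs.range_eq, Set.image_univ, span_evalTr]
    have hli := linearIndependent_of_top_le_span_of_card_eq_finrank hspan (by simp)
    exact ((Matrix.isUnit_iff_isUnit_det _).1
      (Matrix.linearIndependent_rows_iff_isUnit.1 hli)).ne_zero
  · obtain ⟨s, P, hP, rfl⟩ := exists_coeffs hf
    refine ⟨fun i ↦ P (e i), fun i ↦ hP.mem _, ?_⟩
    rw [← hP.sum_eq (t := Finset.univ.image e) (fun g _ ↦ by simp [hs g]),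
      Finset.sum_image hbij.1.injOn]

/-- A chosen frame. -/
def frame : Frame N := (nonempty_frame N).some

end FermatAgent.ModCurve.Forms
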