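import Mathlib
import Fermat.Agent.ModCurve.Forms.Frame

/-!
# Expansions of translates along the orbits of `T`
-/

noncomputable section

open UpperHalfPlane CongruenceSubgroup Filter Topology Matrix Asymptotics
open scoped Manifold MatrixGroups ModularForm

namespace FermatAgent.ModCurve.Forms

variable (N : ℕ) [NeZero N]

/-- The orbits of `T` on the cosets. -/
abbrev CuspClass : Type :=
  MulAction.orbitRel.Quotient (Subgroup.zpowers ModularGroup.T) (Cosets (Gamma0 N))

instance : Fintype (CuspClass N) := Fintype.ofFinite _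

instance : DecidableEq (CuspClass N) := Classical.decEq _

/-- The width of an orbit. -/
def width (c : CuspClass N) : ℕ := MulAction.period (ModularGroup.T⁻¹ : SL(2, ℤ)) c.out

theorem width_pos (c : CuspClass N) : 0 < width N c := by
  have h1 := Function.minimalPeriod_pos_of_mem_periodicPts
    (f := fun y : Cosets (Gamma0 N) ↦ (ModularGroup.T⁻¹ : SL(2, ℤ)) • y) (x := c.out) ?_
  · rwa [width, MulAction.period_eq_minimalPeriod]
  · exact (MulAction.injective _).mem_periodicPts _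

/-- The points of an orbit. -/
def sheet (p : Σ c : CuspClass N, Fin (width N c)) : Cosets (Gamma0 N) :=
  (ModularGroup.T⁻¹ : SL(2, ℤ)) ^ (p.2 : ℕ) • p.1.out

theorem sheet_bijective : Function.Bijective (sheet N) := by
  constructor
  · rintro ⟨c, l⟩ ⟨c', l'⟩ h
    have hcc : c = c' := by
      have : (Quotient.mk'' (sheet N ⟨c, l⟩) : CuspClass N) = Quotient.mk'' (sheet N ⟨c', l'⟩) := by
        rw [h]
      have e : ∀ d : CuspClass N, ∀ n : ℕ,
          (Quotient.mk'' ((ModularGroup.T⁻¹ : SL(2, ℤ)) ^ n • d.out) : CuspClass N) = d := by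
        intro d n
        conv_rhs => rw [← Quotient.out_eq' d]
        refine Quotient.eq''.2 ?_
        exact ⟨⟨ModularGroup.T⁻¹ ^ n, Subgroup.pow_mem _
          (Subgroup.inv_mem _ (Subgroup.mem_zpowers _)) _⟩, rfl⟩
      simp only [sheet, e] at this
      exact this
    subst hcc
    simp only [sheet] at h
    have h2 : (ModularGroup.T⁻¹ : SL(2, ℤ)) ^ ((l : ℤ) - (l' : ℤ)) • c.out = c.out := by
      have h3 := congrArg (fun y ↦ ((ModularGroup.T⁻¹ : SL(2, ℤ)) ^ (l' : ℕ))⁻¹ • y) h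
      simp only [inv_smul_smul] at h3
      rw [← mul_smul] at h3
      convert h3 using 2
      rw [← zpow_natCast, ← zpow_natCast, ← _root_.zpow_neg, ← _root_.zpow_add]
      congr 1; ring
    rw [MulAction.zpow_smul_eq_iff_period_dvd] at h2
    have hl := l.2
    have hl' := l'.2
    have h4 : ((width N c : ℕ) : ℤ) ∣ (l : ℤ) - l' := h2
    have : (l : ℤ) - l' = 0 := Int.eq_zero_of_abs_lt_dvd h4 (by rw [abs_lt]; omega)
    have hval : (l : ℕ) = l' := by omega
    rw [Fin.ext hval]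
  · intro x
    set c : CuspClass N := Quotient.mk'' x
    obtain ⟨⟨g, hg⟩, hgx⟩ := Quotient.exact' (Quotient.out_eq' c).symm
    obtain ⟨n, rfl⟩ := Subgroup.mem_zpowers_iff.1 hg
    replace hgx : ModularGroup.T ^ n • c.out = x := hgx
    have hw : (0 : ℤ) < width N c := by exact_mod_cast width_pos N c
    have hm1 := Int.emod_lt_of_pos (-n) hw
    have hm0 := Int.emod_nonneg (-n) hw.ne'
    refine ⟨⟨c, ⟨((-n) % (width N c : ℤ)).toNat, by omega⟩⟩, ?_⟩
    simp only [sheet]
    rw [← zpow_natCast, Int.toNat_of_nonneg hm0, width, MulAction.zpow_mod_period_smul,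
      _root_.inv_zpow, ← _root_.zpow_neg, neg_neg, hgx]

/-- Cosets as pairs (orbit, position). -/
def sheetEquiv : (Σ c : CuspClass N, Fin (width N c)) ≃ Cosets (Gamma0 N) :=
  Equiv.ofBijective _ (sheet_bijective N)

theorem sum_width : ∑ c : CuspClass N, width N c = Fintype.card (Cosets (Gamma0 N)) := by
  rw [← Fintype.card_congr (sheetEquiv N), Fintype.card_sigma]
  simp

variable {N}

/-- `exp (-2πi r s / w)`. -/
def twist (w r : ℕ) (s : ℂ) : ℂ :=
  Complex.exp (-(2 * Real.pi * Complex.I) * r * s / w)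

theorem twist_add (w r : ℕ) (s t : ℂ) : twist w r (s + t) = twist w r s * twist w r t := by
  rw [twist, twist, twist, ← Complex.exp_add]; ring_nf

theorem twist_period {w : ℕ} (hw : w ≠ 0) (r : ℕ) : twist w r w = 1 := by
  rw [twist, mul_div_assoc, div_self (Nat.cast_ne_zero.2 hw), mul_one,
    show -(2 * Real.pi * Complex.I) * r = ((-r : ℤ) : ℂ) * (2 * Real.pi * Complex.I) by
      push_cast; ring]
  exact Complex.exp_int_mul_two_pi_mul_I _

theorem norm_twist (w r : ℕ) (s : ℂ) :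
    ‖twist w r s‖ = Real.exp (2 * Real.pi * r * s.im / w) := by
  rw [twist, Complex.norm_exp]
  congr 1
  simp [Complex.div_natCast_re]

theorem mdiff_twist (w r n : ℕ) : MDiff fun τ : ℍ ↦ twist w r ((τ : ℂ) + n) := by
  rw [UpperHalfPlane.mdifferentiable_iff]
  refine DifferentiableOn.congr (f := fun z : ℂ ↦ twist w r (z + n)) ?_ fun z hz ↦ ?_
  · unfold twist; fun_prop
  · simp [ofComplex_apply_of_im_pos hz]

omit [NeZero N] in
theorem tr_vadd_one {k : ℤ} {f : ℍ → ℂ} (hinv : ∀ γ ∈ Gamma0 N, f ∣[k] γ = f)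
    (x : Cosets (Gamma0 N)) (τ : ℍ) :
    tr k f x ((1 : ℝ) +ᵥ τ) = tr k f ((ModularGroup.T⁻¹ : SL(2, ℤ)) • x) τ := by
  have hd : denom (ModularGroup.T : GL (Fin 2) ℝ) τ = 1 := by
    rw [denom_sl]; simp [ModularGroup.T]
  rw [← modular_T_smul, tr_apply_smul hinv, hd, _root_.one_zpow, one_mul]

variable (N) in
/-- The `r`-th component of the expansion of translates along an orbit. -/
def comb (k : ℤ) (f : ℍ → ℂ) (p : Σ c : CuspClass N, Fin (width N c)) : ℍ → ℂ :=
  fun τ ↦ ∑ l : Fin (width N p.1),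
    twist (width N p.1) p.2 ((τ : ℂ) + (l : ℕ)) * tr k f (sheet N ⟨p.1, l⟩) τ

theorem comb_periodOne {k : ℤ} {f : ℍ → ℂ} (hinv : ∀ γ ∈ Gamma0 N, f ∣[k] γ = f)
    (p : Σ c : CuspClass N, Fin (width N c)) : PeriodOne (comb N k f p) := by
  intro τ
  obtain ⟨c, r⟩ := p
  let φ : ℕ → ℂ := fun n ↦ twist (width N c) r ((τ : ℂ) + n) *
    tr k f ((ModularGroup.T⁻¹ : SL(2, ℤ)) ^ n • c.out) τ
  have hφw : φ (width N c) = φ 0 := by
    have : (ModularGroup.T⁻¹ : SL(2, ℤ)) ^ (width N c) • c.out = c.out := MulAction.pow_period_smul _ _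
    simp only [φ, this, pow_zero, one_smul]
    rw [twist_add, twist_period (width_pos N c).ne', mul_one, Nat.cast_zero, add_zero]
  have hshift : ∀ l : ℕ, twist (width N c) r ((((1 : ℝ) +ᵥ τ : ℍ) : ℂ) + l) *
      tr k f ((ModularGroup.T⁻¹ : SL(2, ℤ)) ^ l • c.out) ((1 : ℝ) +ᵥ τ) = φ (l + 1) := by
    intro l
    simp only [φ]
    rw [tr_vadd_one hinv, ← mul_smul, ← pow_succ', coe_vadd]
    congr 2
    push_cast; ring
  simp only [comb, sheet]
  rw [Fin.sum_univ_eq_sum_range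
      (fun l ↦ twist (width N c) r ((((1 : ℝ) +ᵥ τ : ℍ) : ℂ) + l) *
        tr k f ((ModularGroup.T⁻¹ : SL(2, ℤ)) ^ l • c.out) ((1 : ℝ) +ᵥ τ)) (width N c),
    Fin.sum_univ_eq_sum_range φ (width N c), Finset.sum_congr rfl fun l _ ↦ hshift l]
  have h1 := Finset.sum_range_succ φ (width N c)
  have h2 := Finset.sum_range_succ' φ (width N c)
  linear_combination -h2 + h1 + hφw

omit [NeZero N] in
theorem comb_holo {k : ℤ} {f : ℍ → ℂ} (hf : IsMF (Gamma0 N) k f)
    (p : Σ c : CuspClass N, Fin (width N c)) : MDiff (comb N k f p) := by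
  rw [UpperHalfPlane.mdifferentiable_iff]
  simp only [comb, Function.comp_def]
  refine DifferentiableOn.fun_sum fun l _ ↦ ?_
  exact (UpperHalfPlane.mdifferentiable_iff.1 (mdiff_twist _ _ _)).mul
    (UpperHalfPlane.mdifferentiable_iff.1 (hf.tr_holo _))

theorem comb_bdd {k : ℤ} {f : ℍ → ℂ} (hf : IsMF (Gamma0 N) k f)
    (p : Σ c : CuspClass N, Fin (width N c)) : IsBoundedAtImInfty (comb N k f p) := by
  obtain ⟨c, r⟩ := p
  have hw0 : (0 : ℝ) < (width N c) := by exact_mod_cast width_pos N c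
  refine (comb_periodOne hf.inv ⟨c, r⟩).isBoundedAtImInfty_of_qParam_mul (comb_holo hf _) ?_
  have hterm : ∀ l : Fin (width N c), IsZeroAtImInfty fun τ : ℍ ↦
      Function.Periodic.qParam 1 (τ : ℂ) *
        (twist (width N c) r ((τ : ℂ) + (l : ℕ)) * tr k f (sheet N ⟨c, l⟩) τ) := by
    intro l
    have h1 : Tendsto (fun τ : ℍ ↦ Function.Periodic.qParam 1 (τ : ℂ) *
        twist (width N c) r ((τ : ℂ) + (l : ℕ))) atImInfty (𝓝 0) := by
      rw [tendsto_zero_iff_norm_tendsto_zero]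
      have hr : ((r : ℕ) : ℝ) / (width N c) < 1 := (div_lt_one hw0).2 (by exact_mod_cast r.2)
      have : Tendsto (fun τ : ℍ ↦ Real.exp (-(2 * Real.pi * (1 - (r : ℕ) / (width N c)) * τ.im)))
          atImInfty (𝓝 0) := by
        refine Real.tendsto_exp_neg_atTop_nhds_zero.comp ?_
        exact Tendsto.const_mul_atTop (by have := Real.pi_pos; nlinarith) tendsto_comap
      refine this.congr fun τ ↦ ?_
      rw [norm_mul, norm_qParam_one, norm_twist, ← Real.exp_add]
      congr 1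
      simp only [Complex.add_im, Complex.natCast_im, add_zero, UpperHalfPlane.coe_im]
      field_simp
      ring
    have := h1.zero_mul_isBoundedUnder_le (g := tr k f (sheet N ⟨c, l⟩))
      (Asymptotics.IsBigO.isBoundedUnder_le (hf.tr_bdd _))
    exact this.congr fun τ ↦ by ring
  have := tendsto_finsetSum Finset.univ fun l _ ↦ hterm l
  simp only [Finset.sum_const_zero] at this
  exact this.congr fun τ ↦ (Finset.mul_sum _ _ _).symm

theorem sum_comb {k : ℤ} (f : ℍ → ℂ) (c : CuspClass N) (l₀ : Fin (width N c)) (τ : ℍ) :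
    ∑ r : Fin (width N c), (twist (width N c) r ((τ : ℂ) + (l₀ : ℕ)))⁻¹ * comb N k f ⟨c, r⟩ τ =
      (width N c : ℂ) * tr k f (sheet N ⟨c, l₀⟩) τ := by
  have hw0 : ((width N c) : ℂ) ≠ 0 := Nat.cast_ne_zero.2 (width_pos N c).ne'
  simp only [comb, Finset.mul_sum]
  change (∑ r : Fin (width N c), ∑ l : Fin (width N c), (twist (width N c) r ((τ : ℂ) + (l₀ : ℕ)))⁻¹ *
    (twist (width N c) r ((τ : ℂ) + (l : ℕ)) * tr k f (sheet N ⟨c, l⟩) τ)) = _
  rw [Finset.sum_comm, Finset.sum_eq_single l₀]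
  · have h1 : ∀ r : Fin (width N c), (twist (width N c) r ((τ : ℂ) + (l₀ : ℕ)))⁻¹ *
        (twist (width N c) r ((τ : ℂ) + (l₀ : ℕ)) * tr k f (sheet N ⟨c, l₀⟩) τ) =
        tr k f (sheet N ⟨c, l₀⟩) τ :=
      fun r ↦ inv_mul_cancel_left₀ (Complex.exp_ne_zero _) _
    simp [h1]
  · intro l _ hl
    simp only [← mul_assoc]
    rw [← Finset.sum_mul]
    convert zero_mul _
    set z : ℂ := twist (width N c) 1 ((l : ℕ) - (l₀ : ℕ)) with hz
    have e : ∀ r : ℕ, (twist (width N c) r ((τ : ℂ) + (l₀ : ℕ)))⁻¹ * twist (width N c) r ((τ : ℂ) + (l : ℕ)) = z ^ r := by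
      intro r
      rw [hz, twist, twist, twist, ← Complex.exp_neg, ← Complex.exp_add, ← Complex.exp_nat_mul]
      congr 1
      field_simp
      ring
    simp only [e]
    rw [Fin.sum_univ_eq_sum_range (fun r ↦ z ^ r)]
    have hzw : z ^ (width N c) = 1 := by
      rw [hz, twist, ← Complex.exp_nat_mul,
        show ((width N c) : ℂ) * (-(2 * Real.pi * Complex.I) * ((1 : ℕ) : ℂ) * ((l : ℕ) - (l₀ : ℕ)) / (width N c)) =
          (((l₀ : ℕ) : ℤ) - (l : ℕ) : ℤ) * (2 * Real.pi * Complex.I) by field_simp; push_cast; ring]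
      exact Complex.exp_int_mul_two_pi_mul_I _
    have hz1 : z ≠ 1 := by
      intro h1
      rw [hz, twist, Complex.exp_eq_one_iff] at h1
      obtain ⟨n, hn⟩ := h1
      rw [div_eq_iff hw0] at hn
      have : (((l₀ : ℕ) : ℤ) - (l : ℕ) : ℤ) = n * (width N c) := by
        have h2 : (2 * Real.pi * Complex.I : ℂ) ≠ 0 := by simp [Real.pi_ne_zero]
        exact_mod_cast (mul_left_cancel₀ h2 (by push_cast at hn ⊢; linear_combination hn) :
          ((((l₀ : ℕ) : ℤ) - (l : ℕ) : ℤ) : ℂ) = n * (width N c))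
      have hl1 := l.2
      have hl2 := l₀.2
      refine hl (Fin.ext ?_)
      have : ((l₀ : ℕ) : ℤ) - (l : ℕ) = 0 := Int.eq_zero_of_abs_lt_dvd (m := ((width N c) : ℤ))
        ⟨n, by rw [this]; ring⟩ (by rw [abs_lt]; omega)
      omega
    rw [geom_sum_eq hz1, hzw, sub_self, zero_div]
  · intro h; exact absurd (Finset.mem_univ _) h

/-- If all components vanish at infinity the translates are `O(Δ)`. -/
theorem tr_isBigO_disc_of_comb {k : ℤ} {f : ℍ → ℂ} (hf : IsMF (Gamma0 N) k f)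
    (h : ∀ p, IsZeroAtImInfty (comb N k f p)) (x : Cosets (Gamma0 N)) :
    tr k f x =O[atImInfty] disc := by
  obtain ⟨⟨c, l₀⟩, rfl⟩ := (sheet_bijective N).2 x
  have hw0 : ((width N c) : ℂ) ≠ 0 := Nat.cast_ne_zero.2 (width_pos N c).ne'
  have : tr k f (sheet N ⟨c, l₀⟩) = fun τ : ℍ ↦ ((width N c) : ℂ)⁻¹ *
      ∑ r : Fin (width N c), (twist (width N c) r ((τ : ℂ) + (l₀ : ℕ)))⁻¹ * comb N k f ⟨c, r⟩ τ := by
    funext τ; rw [sum_comb, inv_mul_cancel_left₀ hw0]
  rw [this]
  refine (IsBigO.const_mul_left (IsBigO.fun_sum fun r _ ↦ ?_) _)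
  have h1 := ((comb_periodOne hf.inv ⟨c, r⟩).isBigO_exp (comb_holo hf _) (h _)).trans exp_isBigO_disc
  refine IsBigO.trans (IsBigO.of_bound 1 ?_) h1
  rw [Filter.Eventually, atImInfty_mem]
  refine ⟨0, fun τ _ ↦ ?_⟩
  simp only [Set.mem_ofPred_eq, norm_mul, one_mul, norm_inv, norm_twist]
  refine mul_le_of_le_one_left (norm_nonneg _) (inv_le_one_of_one_le₀ (Real.one_le_exp ?_))
  simp only [Complex.add_im, Complex.natCast_im, add_zero, UpperHalfPlane.coe_im]
  positivity [τ.im_pos.le]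

end FermatAgent.ModCurve.Forms
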