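import Mathlib
import Fermat.Agent.ModCurve.Forms.Frame

/-!
# Traces at the elliptic points
-/

noncomputable section

open UpperHalfPlane CongruenceSubgroup Filter Topology Matrix
open scoped Manifold MatrixGroups ModularForm

namespace FermatAgent.ModCurve.Forms

variable (N : ℕ) [NeZero N]

omit [NeZero N] in
theorem neg_one_mem_Gamma0 : (-1 : SL(2, ℤ)) ∈ Gamma0 N := by
  rw [Gamma0_mem]; simp

variable {N}

/-- The translate matrix of a frame. -/
def Frame.mat (B : Frame N) (τ : ℍ) : Matrix (Cosets (Gamma0 N)) (Cosets (Gamma0 N)) ℂ :=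
  Matrix.of fun i x ↦ tr (B.wt i) (B.b i) x τ

theorem Frame.det_mat_ne (B : Frame N) (τ : ℍ) : (B.mat τ).det ≠ 0 := B.det_ne τ

theorem Frame.tr_b_apply_smul (B : Frame N) (i : Cosets (Gamma0 N)) (γ : SL(2, ℤ))
    (x : Cosets (Gamma0 N)) (τ : ℍ) :
    tr (B.wt i) (B.b i) x (γ • τ) = denom γ τ ^ B.wt i * tr (B.wt i) (B.b i) (γ⁻¹ • x) τ :=
  tr_apply_smul (B.isMF i).inv γ x τ

theorem Frame.even_wt (B : Frame N) (i : Cosets (Gamma0 N)) : Even (B.wt i) := by
  by_contra h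
  refine B.det_mat_ne UpperHalfPlane.I (Matrix.det_eq_zero_of_row_eq_zero i fun x ↦ ?_)
  have h0 := (B.isMF i).eq_zero_of_odd (neg_one_mem_Gamma0 N) (Int.not_even_iff_odd.1 h)
  simp [Frame.mat, h0, tr_zero]

/-- If `γ` fixes `τ`, the trace of its permutation of cosets is a sum over the frame weights. -/
theorem Frame.card_fixed (B : Frame N) {γ : SL(2, ℤ)} {τ : ℍ} (h : γ • τ = τ) :
    (Nat.card {x : Cosets (Gamma0 N) // γ • x = x} : ℂ) =
      ∑ i, denom γ τ ^ (-B.wt i) := by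
  set σ : Equiv.Perm (Cosets (Gamma0 N)) := MulAction.toPerm γ⁻¹ with hσ
  set Pm : Matrix (Cosets (Gamma0 N)) (Cosets (Gamma0 N)) ℂ :=
    Matrix.of fun a x ↦ if a = σ x then 1 else 0 with hPm
  set Λ : Matrix (Cosets (Gamma0 N)) (Cosets (Gamma0 N)) ℂ :=
    Matrix.diagonal fun i ↦ denom γ τ ^ (-B.wt i) with hΛ
  have hBP : B.mat τ * Pm = Λ * B.mat τ := by
    ext i x
    rw [Matrix.mul_apply, hΛ, Matrix.diagonal_mul]
    simp only [hPm, Matrix.of_apply, mul_ite, mul_one, mul_zero, Finset.sum_ite_eq',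
      Finset.mem_univ, if_true]
    have := B.tr_b_apply_smul i γ x τ
    rw [h] at this
    show tr (B.wt i) (B.b i) (γ⁻¹ • x) τ = _ * tr (B.wt i) (B.b i) x τ
    rw [this, _root_.zpow_neg, inv_mul_cancel_left₀ (zpow_ne_zero _ (denom_ne_zero _ τ))]
  have hu : IsUnit (B.mat τ).det := (B.det_mat_ne τ).isUnit
  have htr : Pm.trace = Λ.trace := by
    calc Pm.trace = ((B.mat τ)⁻¹ * (B.mat τ * Pm)).trace := by
          rw [← Matrix.mul_assoc, Matrix.nonsing_inv_mul _ hu, Matrix.one_mul]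
      _ = Λ.trace := by
          rw [hBP, Matrix.trace_mul_comm, Matrix.mul_assoc, Matrix.mul_nonsing_inv _ hu,
            Matrix.mul_one]
  rw [hΛ, Matrix.trace_diagonal] at htr
  rw [← htr, Nat.card_eq_fintype_card, Fintype.card_subtype]
  simp only [Matrix.trace, Matrix.diag, hPm, Matrix.of_apply, Finset.sum_boole]
  congr 2
  ext x
  simp only [hσ, Finset.mem_filter, Finset.mem_univ, true_and, MulAction.toPerm_apply]
  rw [eq_inv_smul_iff]

/-- The point `ρ = (-1 + √-3)/2`. -/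
def rhoPt : ℍ := ⟨⟨-1 / 2, Real.sqrt 3 / 2⟩, by norm_num⟩

theorem rhoPt_sq : (rhoPt : ℂ) ^ 2 + rhoPt + 1 = 0 := by
  have h := Real.mul_self_sqrt (show (0 : ℝ) ≤ 3 by norm_num)
  apply Complex.ext
  · simp [rhoPt, pow_two]; nlinarith
  · simp [rhoPt, pow_two]; ring

theorem ST_smul_rhoPt : (ModularGroup.S * ModularGroup.T) • rhoPt = rhoPt := by
  rw [mul_smul, modular_S_smul, modular_T_smul]
  apply UpperHalfPlane.ext
  have h := rhoPt_sq
  show (-(((1 : ℝ) +ᵥ rhoPt : ℍ) : ℂ))⁻¹ = _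
  rw [coe_vadd]
  refine inv_eq_of_mul_eq_one_left ?_
  push_cast
  linear_combination -h

theorem denom_ST_rhoPt :
    denom ((ModularGroup.S * ModularGroup.T : SL(2, ℤ)) : GL (Fin 2) ℝ) rhoPt =
      (rhoPt : ℂ) + 1 := by
  have h1 : ((ModularGroup.S * ModularGroup.T : SL(2, ℤ)) 1 0 : ℤ) = 1 := by decide
  have h2 : ((ModularGroup.S * ModularGroup.T : SL(2, ℤ)) 1 1 : ℤ) = 1 := by decide
  rw [denom_sl, h1, h2]
  simp

theorem Frame.card_fixed_S (B : Frame N) :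
    (Nat.card {x : Cosets (Gamma0 N) // ModularGroup.S • x = x} : ℂ) =
      ∑ i, (-1 : ℂ) ^ (B.wt i / 2) := by
  rw [B.card_fixed (τ := UpperHalfPlane.I) (by rw [modular_S_smul]; simp [UpperHalfPlane.ext_iff])]
  refine Finset.sum_congr rfl fun i _ ↦ ?_
  obtain ⟨u, hu⟩ := B.even_wt i
  rw [hu, show (u + u) / 2 = u by omega, ModularGroup.denom_S, show -(u + u) = (-2) * u by ring,
    _root_.zpow_mul]
  congr 1
  simp [_root_.zpow_neg, UpperHalfPlane.coe_I]

theorem Frame.card_fixed_ST (B : Frame N) :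
    (Nat.card {x : Cosets (Gamma0 N) // (ModularGroup.S * ModularGroup.T) • x = x} : ℂ) =
      ∑ i, ((rhoPt : ℂ) ^ 2) ^ (B.wt i / 2) := by
  rw [B.card_fixed ST_smul_rhoPt]
  refine Finset.sum_congr rfl fun i _ ↦ ?_
  obtain ⟨u, hu⟩ := B.even_wt i
  rw [hu, show (u + u) / 2 = u by omega, denom_ST_rhoPt, show -(u + u) = (-2) * u by ring,
    _root_.zpow_mul]
  congr 1
  rw [_root_.zpow_neg, zpow_ofNat]
  refine inv_eq_of_mul_eq_one_left ?_
  linear_combination ((rhoPt : ℂ) ^ 2 + rhoPt - 1) * rhoPt_sq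

end FermatAgent.ModCurve.Forms
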