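import Mathlib
import Fermat.Agent.ModCurve.Forms.Elliptic
import Fermat.Agent.ModCurve.Forms.CuspChart

/-!
# The behaviour of the frame determinant at infinity, and the sum of the weights
-/

noncomputable section

open UpperHalfPlane CongruenceSubgroup Filter Topology Matrix Asymptotics
open scoped Manifold MatrixGroups ModularForm

namespace FermatAgent.ModCurve.Forms

variable {N : ℕ} [NeZero N]

theorem exists_unit_form {K : ℤ} (hK : Even K) (h4 : 4 ≤ K) :
    ∃ E, IsMF ⊤ K E ∧ Tendsto E atImInfty (𝓝 1) := by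
  obtain ⟨m, rfl⟩ := hK
  obtain ⟨a, b, hab⟩ : ∃ a b : ℕ, m + m = 4 * a + 6 * b := by
    rcases Int.even_or_odd m with ⟨r, hr⟩ | ⟨r, hr⟩
    · exact ⟨r.toNat, 0, by omega⟩
    · exact ⟨(r - 1).toNat, 1, by omega⟩
  refine ⟨e4 ^ a * e6 ^ b, ((isMF_e4_pow a).mul (isMF_e6_pow b)).cast (by omega) rfl, ?_⟩
  have := (tendsto_e4.pow a).mul (tendsto_e6.pow b)
  simp only [one_pow, mul_one] at this
  exact this

omit [NeZero N] in
/-- A form whose translates are `O(Δ)` is divisible by `Δ`. -/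
theorem exists_eq_disc_mul_of_isBigO {k : ℤ} {f : ℍ → ℂ} (hf : IsMF (Gamma0 N) k f)
    (h : ∀ x : Cosets (Gamma0 N), tr k f x =O[atImInfty] disc) :
    ∃ g, IsMF (Gamma0 N) (k - 12) g ∧ f = disc * g := by
  have heq : ∀ γ : SL(2, ℤ), (fun τ ↦ f τ / disc τ) ∣[k - 12] γ =
      fun τ ↦ (f ∣[k] γ) τ / disc τ := by
    intro γ
    change (f / disc) ∣[k - 12] γ = _
    rw [ModularForm.div_slash_SL2, isMF_disc.inv_top]
    rfl
  refine ⟨fun τ ↦ f τ / disc τ, ⟨?_, fun γ hγ ↦ by rw [heq, hf.inv γ hγ], fun γ ↦ ?_⟩, ?_⟩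
  · intro τ
    exact MDifferentiableAt.div (hf.holo τ) (isMF_disc.holo τ) (disc_ne_zero τ)
  · rw [heq, ← inv_inv γ, ← tr_mk hf.inv γ⁻¹]
    exact (div_isBoundedUnder_of_isBigO (h _)).isBigO_one ℝ
  · funext τ; simp [mul_div_cancel₀ _ (disc_ne_zero τ)]

variable (B : Frame N)

/-- The normalised expansion matrix of a frame. -/
def Frame.lead (τ : ℍ) :
    Matrix (Σ c : CuspClass N, Fin (width N c)) (Σ c : CuspClass N, Fin (width N c)) ℂ :=
  Matrix.of fun i p ↦ comb N (B.wt (sheetEquiv N i)) (B.b (sheetEquiv N i)) p τ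

/-- The limit of the normalised expansion matrix. -/
def Frame.leadLim :
    Matrix (Σ c : CuspClass N, Fin (width N c)) (Σ c : CuspClass N, Fin (width N c)) ℂ :=
  Matrix.of fun i p ↦ valueAtInfty (comb N (B.wt (sheetEquiv N i)) (B.b (sheetEquiv N i)) p)

theorem Frame.det_leadLim_ne : B.leadLim.det ≠ 0 := by
  intro h0
  obtain ⟨v, hv, hvA⟩ := Matrix.exists_vecMul_eq_zero_iff.2 h0
  set K : ℤ := (∑ i, B.wt i) * 2 + 4 with hK
  have hKe : Even K := ⟨(∑ i, B.wt i) + 2, by rw [hK]; ring⟩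
  have hge : ∀ i, 4 ≤ K - B.wt i := fun i ↦ by
    have h1 := Finset.single_le_sum (fun j _ ↦ B.wt_nonneg j) (Finset.mem_univ i)
    have h2 : 0 ≤ ∑ j, B.wt j := Finset.sum_nonneg fun j _ ↦ B.wt_nonneg j
    omega
  choose E hE hElim using fun i ↦ exists_unit_form (hKe.sub (B.even_wt i)) (hge i)
  set v' : Cosets (Gamma0 N) → ℂ := fun i ↦ v ((sheetEquiv N).symm i) with hv'
  set g : ℍ → ℂ := ∑ i, v' i • (E i * B.b i) with hg
  have hgK : IsMF (Gamma0 N) K g := IsMF.sum fun i _ ↦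
    ((((hE i).ofTop).mul (B.isMF i)).cast (by ring) rfl).smul _
  have htr : ∀ (x : Cosets (Gamma0 N)) τ, tr K g x τ = ∑ i, v' i * (E i τ * tr (B.wt i) (B.b i) x τ) := by
    intro x τ
    rw [hg, tr_sum, Finset.sum_apply]
    refine Finset.sum_congr rfl fun i _ ↦ ?_
    rw [tr_smul, Pi.smul_apply, smul_eq_mul]
    have h : tr K (E i * B.b i) x = tr (K - B.wt i) (E i) x * tr (B.wt i) (B.b i) x := by
      rw [← tr_mul, sub_add_cancel]
    rw [h, Pi.mul_apply, tr_of_top (hE i)]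
  have hz : ∀ p, IsZeroAtImInfty (comb N K g p) := by
    intro p
    have hc : comb N K g p = fun τ ↦ ∑ i, v' i * (E i τ * comb N (B.wt i) (B.b i) p τ) := by
      funext τ
      simp only [comb, htr, Finset.mul_sum]
      rw [Finset.sum_comm]
      exact Finset.sum_congr rfl fun i _ ↦ Finset.sum_congr rfl fun l _ ↦ by ring
    rw [hc]
    have hlim : ∀ i, Tendsto (fun τ ↦ v' i * (E i τ * comb N (B.wt i) (B.b i) p τ)) atImInfty
        (𝓝 (v' i * (1 * valueAtInfty (comb N (B.wt i) (B.b i) p)))) := fun i ↦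
      ((hElim i).mul ((comb_periodOne (B.isMF i).inv p).tendsto_valueAtInfty
        (comb_holo (B.isMF i) p) (comb_bdd (B.isMF i) p))).const_mul _
    have h2 := tendsto_finsetSum Finset.univ fun i _ ↦ hlim i
    have h3 : ∑ i, v' i * (1 * valueAtInfty (comb N (B.wt i) (B.b i) p)) = 0 := by
      rw [← (sheetEquiv N).sum_comp]
      simp only [hv', Equiv.symm_apply_apply, one_mul]
      exact congrFun hvA p
    rw [h3] at h2
    exact h2
  obtain ⟨g', hg', hgg'⟩ := exists_eq_disc_mul_of_isBigO hgK (tr_isBigO_disc_of_comb hgK hz)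
  obtain ⟨Q, hQ, hQg⟩ := B.generates hg'
  have hvE : ∀ τ i, v' i * E i τ - disc τ * Q i τ = 0 := by
    intro τ
    refine congrFun (Matrix.eq_zero_of_vecMul_eq_zero (B.det_mat_ne τ)
      (v := fun i ↦ v' i * E i τ - disc τ * Q i τ) ?_)
    funext x
    simp only [Matrix.vecMul, dotProduct, Frame.mat, Matrix.of_apply, sub_mul,
      Finset.sum_sub_distrib, Pi.zero_apply]
    rw [sub_eq_zero]
    have h1 : tr K g x τ = disc τ * tr (K - 12) g' x τ := by
      rw [hgg', show K = 12 + (K - 12) by ring, tr_mul, tr_of_top isMF_disc, Pi.mul_apply,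
        add_sub_cancel_left]
    have h2 : tr (K - 12) g' x τ = ∑ i, Q i τ * tr (B.wt i) (B.b i) x τ := by
      rw [hQg, tr_sum, Finset.sum_apply]
      refine Finset.sum_congr rfl fun i _ ↦ ?_
      have h : tr (K - 12) (Q i * B.b i) x =
          tr (K - 12 - B.wt i) (Q i) x * tr (B.wt i) (B.b i) x := by
        rw [← tr_mul, sub_add_cancel]
      rw [h, Pi.mul_apply, tr_of_top (hQ i)]
    simpa [htr, h2, Finset.mul_sum, mul_assoc] using h1
  have hv0 : ∀ i, v' i = 0 := by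
    intro i
    have h1 : Tendsto (fun τ ↦ v' i * E i τ) atImInfty (𝓝 0) := by
      have := disc_isZeroAtImInfty.zero_mul_isBoundedUnder_le
        (g := Q i) (Asymptotics.IsBigO.isBoundedUnder_le (hQ i).bounded)
      refine this.congr fun τ ↦ ?_
      linear_combination -(hvE τ i)
    have h2 : Tendsto (fun τ ↦ v' i * E i τ) atImInfty (𝓝 (v' i)) := by
      simpa using (hElim i).const_mul (v' i)
    exact tendsto_nhds_unique h2 h1
  exact hv (funext fun p ↦ by simpa [hv'] using hv0 (sheetEquiv N p))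

theorem Frame.exists_det_lead :
    ∃ V : ℂ, V ≠ 0 ∧ ∀ τ, (B.lead τ).det = famDet (fun i x ↦ tr (B.wt i) (B.b i) x) τ * V *
      ∏ p : Σ c : CuspClass N, Fin (width N c), twist (width N p.1) p.2 τ := by
  let Vb : ∀ c : CuspClass N, Matrix (Fin (width N c)) (Fin (width N c)) ℂ :=
    fun c ↦ Matrix.vandermonde fun l ↦ twist (width N c) 1 (l : ℕ)
  have hVb : ∀ c, (Vb c).det ≠ 0 := by
    intro c
    refine Matrix.det_vandermonde_ne_zero_iff.2 fun l l' h ↦ ?_
    simp only [twist] at h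
    rw [Complex.exp_eq_exp_iff_exists_int] at h
    obtain ⟨n, hn⟩ := h
    have hw0 : (width N c : ℂ) ≠ 0 := Nat.cast_ne_zero.2 (width_pos N c).ne'
    have h2 : (2 * Real.pi * Complex.I : ℂ) ≠ 0 := by simp [Real.pi_ne_zero]
    field_simp at hn
    have h3 : ((((l' : ℕ) : ℤ) - (l : ℕ) : ℤ) : ℂ) = ((n * width N c : ℤ) : ℂ) := by
      push_cast at hn ⊢
      linear_combination hn
    have h4 : ((l' : ℕ) : ℤ) - (l : ℕ) = n * width N c := by exact_mod_cast h3
    have hl := l.2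
    have hl' := l'.2
    have : ((l' : ℕ) : ℤ) - (l : ℕ) = 0 := Int.eq_zero_of_abs_lt_dvd (m := (width N c : ℤ))
      ⟨n, by rw [h4]; ring⟩ (by rw [abs_lt]; omega)
    exact Fin.ext (by omega)
  refine ⟨(Matrix.blockDiagonal' Vb).det, ?_, fun τ ↦ ?_⟩
  · refine IsUnit.ne_zero ((Matrix.isUnit_iff_isUnit_det _).1 ?_)
    refine IsUnit.of_mul_eq_one (Matrix.blockDiagonal' fun c ↦ (Vb c)⁻¹) ?_
    rw [← Matrix.blockDiagonal'_mul]
    simp [fun c ↦ Matrix.mul_nonsing_inv (Vb c) (hVb c).isUnit, ← Matrix.blockDiagonal'_one,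
      Pi.one_def]
  · have e : B.lead τ = ((B.mat τ).submatrix (sheetEquiv N) (sheetEquiv N)) *
        Matrix.blockDiagonal' Vb *
        Matrix.diagonal (fun p : Σ c : CuspClass N, Fin (width N c) ↦
          twist (width N p.1) p.2 τ) := by
      ext i ⟨c, r⟩
      rw [Matrix.mul_diagonal, Matrix.mul_apply]
      simp only [Frame.lead, Matrix.of_apply, comb, Fintype.sum_sigma]
      rw [Finset.sum_eq_single c]
      · rw [Finset.sum_mul]
        refine Finset.sum_congr rfl fun l _ ↦ ?_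
        simp only [Matrix.submatrix_apply, Frame.mat, Matrix.of_apply,
          Matrix.blockDiagonal'_apply_eq, Vb, Matrix.vandermonde_apply]
        have hpow : twist (width N c) 1 ((l : ℕ) : ℂ) ^ (r : ℕ) =
            twist (width N c) r ((l : ℕ) : ℂ) := by
          rw [twist, twist, ← Complex.exp_nat_mul]; push_cast; ring_nf
        rw [hpow, twist_add]
        simp only [sheetEquiv, Equiv.ofBijective_apply]
        ring
      · intro c' _ hc
        refine Finset.sum_eq_zero fun l _ ↦ ?_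
        rw [Matrix.blockDiagonal'_apply_ne _ _ _ hc, mul_zero]
      · intro h; exact absurd (Finset.mem_univ _) h
    rw [e, Matrix.det_mul, Matrix.det_mul, Matrix.det_diagonal,
      Matrix.det_submatrix_equiv_self]
    rfl

theorem prod_twist_sq (τ : ℂ) :
    (∏ p : Σ c : CuspClass N, Fin (width N c), twist (width N p.1) p.2 τ) ^ 2 =
      Complex.exp (-(2 * Real.pi * Complex.I) * τ) ^ (∑ c : CuspClass N, (width N c - 1)) := by
  simp only [twist]
  rw [← Complex.exp_sum, ← Complex.exp_nat_mul, ← Complex.exp_nat_mul, Fintype.sum_sigma]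
  congr 1
  push_cast
  rw [Finset.sum_mul, Finset.mul_sum]
  refine Finset.sum_congr rfl fun c _ ↦ ?_
  have h1 : (∑ r : Fin (width N c), ((r : ℕ) : ℂ)) * 2 = (width N c : ℂ) * ((width N c - 1 : ℕ) : ℂ) := by
    have := congrArg (Nat.cast : ℕ → ℂ) (Finset.sum_range_id_mul_two (width N c))
    simp only [Nat.cast_mul, Nat.cast_sum, Nat.cast_ofNat] at this
    rw [Fin.sum_univ_eq_sum_range (fun i ↦ (i : ℂ))]
    exact this
  rw [← Finset.sum_div, ← Finset.sum_mul, ← Finset.mul_sum]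
  have hw0 : (width N c : ℂ) ≠ 0 := Nat.cast_ne_zero.2 (width_pos N c).ne'
  field_simp
  linear_combination -τ * h1

theorem Frame.sum_wt :
    ∑ i, B.wt i = 6 * ((Fintype.card (Cosets (Gamma0 N)) : ℤ) - Fintype.card (CuspClass N)) := by
  obtain ⟨V, hV, hdet⟩ := B.exists_det_lead
  set m : ℕ := ∑ c : CuspClass N, (width N c - 1) with hm
  have hm' : (m : ℤ) = (Fintype.card (Cosets (Gamma0 N)) : ℤ) - Fintype.card (CuspClass N) := by
    rw [hm, ← sum_width, Nat.cast_sum, Nat.cast_sum]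
    simp only [fun c ↦ Nat.cast_sub (R := ℤ) (Nat.one_le_iff_ne_zero.2 (width_pos N c).ne')]
    rw [Finset.sum_sub_distrib]
    simp
  set D := famDet (fun i x ↦ tr (B.wt i) (B.b i) x) with hD
  have hD2 : IsMF ⊤ (2 * ∑ i, B.wt i) (D * D) :=
    (isMF_famDet_mul (F := fun i x ↦ tr (B.wt i) (B.b i) x) (G := fun i x ↦ tr (B.wt i) (B.b i) x)
      (fun γ i x τ ↦ B.tr_b_apply_smul i γ x τ) (fun γ i x τ ↦ B.tr_b_apply_smul i γ x τ)
      (fun i x ↦ (B.isMF i).tr_holo x) (fun i x ↦ (B.isMF i).tr_holo x)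
      (fun i x ↦ (B.isMF i).tr_bdd x) (fun i x ↦ (B.isMF i).tr_bdd x)).cast (by ring) rfl
  -- the normalised square has a nonzero limit
  have hlim : Tendsto (fun τ ↦ (D τ * D τ) / Function.Periodic.qParam 1 (τ : ℂ) ^ m) atImInfty
      (𝓝 ((B.leadLim.det / V) ^ 2)) := by
    have h1 : Tendsto (fun τ ↦ (B.lead τ).det) atImInfty (𝓝 B.leadLim.det) := by
      refine ((Continuous.matrix_det continuous_id).tendsto _).comp (tendsto_pi_nhds.2 fun i ↦
        tendsto_pi_nhds.2 fun p ↦ ?_)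
      exact (comb_periodOne (B.isMF _).inv p).tendsto_valueAtInfty (comb_holo (B.isMF _) p)
        (comb_bdd (B.isMF _) p)
    refine ((h1.div_const V).pow 2).congr fun τ ↦ ?_
    rw [hdet τ, mul_right_comm, mul_div_assoc, div_self hV, mul_one, mul_pow, prod_twist_sq, ← hm,
      Function.Periodic.qParam, div_eq_mul_inv _ ((Complex.exp _) ^ m), ← inv_pow, ← Complex.exp_neg]
    congr 2
    · ring
    · congr 1; simp
  set κ : ℤ := 2 * ∑ i, B.wt i - 12 * m with hκ
  set g : ℍ → ℂ := fun τ ↦ (D τ * D τ) / disc τ ^ m with hg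
  have hDne : ∀ τ, D τ ≠ 0 := fun τ ↦ B.det_ne τ
  have hgne : ∀ τ, g τ ≠ 0 := fun τ ↦
    div_ne_zero (mul_ne_zero (hDne τ) (hDne τ)) (pow_ne_zero _ (disc_ne_zero τ))
  have hdm : IsMF ⊤ (12 * m) (disc ^ m) := by
    clear_value m
    clear hκ hg hgne g κ hlim hm' hm
    induction m with
    | zero => exact (IsMF.const 1).cast (by simp) (by ext; simp)
    | succ n ih => exact (ih.mul isMF_disc).cast (by push_cast; ring) (pow_succ _ _).symm
  have hqd : IsBoundedAtImInfty fun τ : ℍ ↦ Function.Periodic.qParam 1 (τ : ℂ) / disc τ := by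
    refine (div_isBoundedUnder_of_isBigO ?_).isBigO_one ℝ
    exact (IsBigO.of_bound 1 (Eventually.of_forall fun τ ↦ by
      simp [norm_qParam_one, abs_of_pos, Real.exp_pos])).trans exp_isBigO_disc
  have hdq : IsBoundedAtImInfty fun τ : ℍ ↦ disc τ / Function.Periodic.qParam 1 (τ : ℂ) := by
    refine (div_isBoundedUnder_of_isBigO ?_).isBigO_one ℝ
    refine ((periodOne_of_top isMF_disc).isBigO_exp isMF_disc.holo disc_isZeroAtImInfty).trans ?_
    exact IsBigO.of_bound 1 (Eventually.of_forall fun τ ↦ by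
      simp [norm_qParam_one, abs_of_pos, Real.exp_pos])
  have hbpow : ∀ {φ : ℍ → ℂ}, IsBoundedAtImInfty φ → IsBoundedAtImInfty (φ ^ m) := fun {φ} h ↦
    (boundedAtImInftySubalgebra ℂ).pow_mem h m
  have hgb : IsBoundedAtImInfty g := by
    have e : g = (fun τ ↦ D τ * D τ / Function.Periodic.qParam 1 (τ : ℂ) ^ m) *
        (fun τ : ℍ ↦ Function.Periodic.qParam 1 (τ : ℂ) / disc τ) ^ m := by
      funext τ
      simp only [hg, Pi.mul_apply, Pi.pow_apply, div_pow]
      field_simp [Function.Periodic.qParam_ne_zero]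
    rw [e]
    exact Filter.BoundedAtFilter.mul (hlim.isBigO_one ℝ) (hbpow hqd)
  have hgib : IsBoundedAtImInfty (fun τ ↦ (g τ)⁻¹) := by
    have e : (fun τ ↦ (g τ)⁻¹) = (fun τ ↦ (D τ * D τ / Function.Periodic.qParam 1 (τ : ℂ) ^ m)⁻¹) *
        (fun τ : ℍ ↦ disc τ / Function.Periodic.qParam 1 (τ : ℂ)) ^ m := by
      funext τ
      simp only [hg, Pi.mul_apply, Pi.pow_apply, div_pow]
      field_simp [Function.Periodic.qParam_ne_zero]
    rw [e]
    exact Filter.BoundedAtFilter.mul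
      ((hlim.inv₀ (pow_ne_zero _ (div_ne_zero B.det_leadLim_ne hV))).isBigO_one ℝ) (hbpow hdq)
  have hginv : ∀ γ : SL(2, ℤ), g ∣[κ] γ = g := by
    intro γ
    change ((D * D) / disc ^ m) ∣[κ] γ = (D * D) / disc ^ m
    rw [hκ, ModularForm.div_slash_SL2, hD2.inv_top, hdm.inv_top]
  have hginv' : ∀ γ : SL(2, ℤ), (fun τ ↦ (g τ)⁻¹) ∣[-κ] γ = fun τ ↦ (g τ)⁻¹ := by
    intro γ
    funext τ
    have := congrFun (hginv γ) τ
    rw [ModularForm.SL_slash_apply] at this ⊢
    rw [← this, mul_inv, ← _root_.zpow_neg]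
  have hgm : IsMF ⊤ κ g := ⟨fun τ ↦ MDifferentiableAt.div (hD2.holo τ) (hdm.holo τ)
    (pow_ne_zero _ (disc_ne_zero τ)), fun γ _ ↦ hginv γ, fun γ ↦ by rw [hginv]; exact hgb⟩
  have hgim : IsMF ⊤ (-κ) (fun τ ↦ (g τ)⁻¹) := ⟨fun τ ↦ by
      have := MDifferentiableAt.div (mdifferentiableAt_const (c := (1 : ℂ))) (hgm.holo τ) (hgne τ)
      exact this.congr_of_eventuallyEq (Eventually.of_forall fun x ↦ (one_div (g x)).symm),
    fun γ _ ↦ hginv' γ, fun γ ↦ by rw [hginv']; exact hgib⟩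
  have hκ0 : κ = 0 := by
    by_contra h
    rcases lt_or_gt_of_ne h with h | h
    · exact hgne UpperHalfPlane.I (congrFun (hgm.eq_zero_of_neg h) _)
    · exact inv_ne_zero (hgne UpperHalfPlane.I)
        (congrFun (hgim.eq_zero_of_neg (by omega)) UpperHalfPlane.I)
  omega

end FermatAgent.ModCurve.Forms
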