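import Mathlib
import Fermat.Agent.ModCurve.Forms.Infinity

/-!
# Cusp forms of `Γ₀(N)` against level one cusp forms, through the frame
-/

noncomputable section

open UpperHalfPlane CongruenceSubgroup Filter Topology Matrix Asymptotics
open scoped Manifold MatrixGroups ModularForm

namespace FermatAgent.ModCurve.Forms

variable {N : ℕ} [NeZero N] (B : Frame N)

/-- The pairing of a form with the frame, `i ↦ ∑ₓ (f|x)(bᵢ|x)`. -/
def Frame.pair (l : ℤ) (f : ℍ → ℂ) (i : Cosets (Gamma0 N)) : ℍ → ℂ :=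
  fun τ ↦ ∑ x : Cosets (Gamma0 N), tr (B.wt i) (B.b i) x τ * tr l f x τ

theorem Frame.isCF_pair {l : ℤ} {f : ℍ → ℂ} (hf : IsCF (Gamma0 N) l f) (i : Cosets (Gamma0 N)) :
    IsCF ⊤ (B.wt i + l) (B.pair l f i) := by
  have e : B.pair l f i = ∑ x : Cosets (Gamma0 N), tr (B.wt i) (B.b i) x * tr l f x := by
    funext τ; simp [Frame.pair, Finset.sum_apply]
  have key : ∀ γ : SL(2, ℤ), (B.pair l f i) ∣[B.wt i + l] γ = B.pair l f i := by
    intro γ
    rw [e]
    funext τ
    rw [ModularForm.SL_slash_apply, Finset.sum_apply, Finset.sum_apply, Finset.sum_mul,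
      ← Equiv.sum_comp (MulAction.toPerm γ⁻¹ : Equiv.Perm (Cosets (Gamma0 N)))
        fun x ↦ (tr (B.wt i) (B.b i) x * tr l f x) τ]
    refine Finset.sum_congr rfl fun x _ ↦ ?_
    rw [Pi.mul_apply, Pi.mul_apply, B.tr_b_apply_smul, tr_apply_smul hf.toIsMF.inv,
      _root_.zpow_neg, MulAction.toPerm_apply, zpow_add₀ (denom_ne_zero _ τ)]
    have h1 := zpow_ne_zero (B.wt i) (denom_ne_zero (γ : GL (Fin 2) ℝ) τ)
    have h2 := zpow_ne_zero l (denom_ne_zero (γ : GL (Fin 2) ℝ) τ)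
    field_simp
  have hz : IsZeroAtImInfty (B.pair l f i) := by
    have := tendsto_finsetSum (a := fun _ ↦ (0 : ℂ)) (Finset.univ : Finset (Cosets (Gamma0 N)))
      fun x _ ↦ (hf.tr_isZeroAtImInfty x).zero_mul_isBoundedUnder_le
        (g := tr (B.wt i) (B.b i) x) (Asymptotics.IsBigO.isBoundedUnder_le ((B.isMF i).tr_bdd x))
    simp only [Finset.sum_const_zero] at this
    exact this.congr fun τ ↦ Finset.sum_congr rfl fun x _ ↦ mul_comm _ _
  refine ⟨⟨?_, fun γ _ ↦ key γ, fun γ ↦ by rw [key]; exact hz.isBoundedAtImInfty⟩,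
    fun γ ↦ by rw [key]; exact hz⟩
  rw [e]
  intro τ
  exact (mfSum_mdifferentiableAt fun x ↦ ((B.isMF i).tr_holo x τ).mul (hf.toIsMF.tr_holo x τ))
where
  mfSum_mdifferentiableAt {τ : ℍ} {g : Cosets (Gamma0 N) → ℍ → ℂ}
      (h : ∀ x, MDiffAt (g x) τ) : MDiffAt (∑ x, g x) τ := by
    induction (Finset.univ : Finset (Cosets (Gamma0 N))) using Finset.cons_induction with
    | empty => exact mdifferentiableAt_const
    | cons a s ha ih => rw [Finset.sum_cons]; exact (h a).add ih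

theorem Frame.eq_zero_of_pair_eq_zero {l : ℤ} {f : ℍ → ℂ} (hf : IsMF (Gamma0 N) l f)
    (h : ∀ i, B.pair l f i = 0) : f = 0 := by
  funext τ
  have h0 : (fun x ↦ tr l f x τ) = 0 :=
    Matrix.eq_zero_of_mulVec_eq_zero (B.det_mat_ne τ) (funext fun i ↦ congrFun (h i) τ)
  have := congrFun h0 (QuotientGroup.mk 1)
  rwa [tr_one hf.inv] at this

/-- The change of coordinates at infinity. -/
def chart (τ : ℍ) : Matrix (Σ c : CuspClass N, Fin (width N c)) (Σ c : CuspClass N, Fin (width N c)) ℂ :=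
  Matrix.blockDiagonal' fun c ↦ Matrix.of fun l r : Fin (width N c) ↦
    twist (width N c) r ((τ : ℂ) + (l : ℕ))

theorem Frame.lead_eq (τ : ℍ) :
    B.lead τ = (B.mat τ).submatrix (sheetEquiv N) (sheetEquiv N) * chart τ := by
  ext i ⟨c, r⟩
  rw [Matrix.mul_apply]
  simp only [Frame.lead, Matrix.of_apply, comb, Fintype.sum_sigma, chart]
  rw [Finset.sum_eq_single c]
  · refine Finset.sum_congr rfl fun l _ ↦ ?_
    simp only [Matrix.submatrix_apply, Frame.mat, Matrix.of_apply, Matrix.blockDiagonal'_apply_eq,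
      sheetEquiv, Equiv.ofBijective_apply]
    ring
  · intro c' _ hc
    refine Finset.sum_eq_zero fun l _ ↦ ?_
    rw [Matrix.blockDiagonal'_apply_ne _ _ _ hc, mul_zero]
  · intro h; exact absurd (Finset.mem_univ _) h

theorem Frame.det_lead_ne (τ : ℍ) : (B.lead τ).det ≠ 0 := by
  obtain ⟨V, hV, hdet⟩ := B.exists_det_lead
  rw [hdet]
  exact mul_ne_zero (mul_ne_zero (B.det_ne τ) hV)
    (Finset.prod_ne_zero_iff.2 fun p _ ↦ Complex.exp_ne_zero _)

/-- The candidate translates of the cusp form with prescribed pairing. -/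
def Frame.solve (P : Cosets (Gamma0 N) → ℍ → ℂ) (x : Cosets (Gamma0 N)) : ℍ → ℂ :=
  fun τ ↦ ((B.mat τ)⁻¹ *ᵥ fun i ↦ P i τ) x

theorem Frame.mat_mulVec_solve (P : Cosets (Gamma0 N) → ℍ → ℂ) (τ : ℍ) :
    (B.mat τ *ᵥ fun x ↦ B.solve P x τ) = fun i ↦ P i τ := by
  simp only [Frame.solve]
  rw [Matrix.mulVec_mulVec, Matrix.mul_nonsing_inv _ (B.det_mat_ne τ).isUnit, Matrix.one_mulVec]

theorem Frame.solve_holo {P : Cosets (Gamma0 N) → ℍ → ℂ} (hP : ∀ i, MDiff (P i))
    (x : Cosets (Gamma0 N)) : MDiff (B.solve P x) := by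
  have e : B.solve P x = fun τ ↦ ∑ i,
      famDet (fun a b τ ↦ (Matrix.updateRow (B.mat τ) i (Pi.single x 1)) a b) τ /
        famDet (fun a b ↦ tr (B.wt a) (B.b a) b) τ * P i τ := by
    funext τ
    simp only [Frame.solve, Matrix.mulVec, dotProduct]
    refine Finset.sum_congr rfl fun i _ ↦ ?_
    rw [Matrix.inv_def, Matrix.smul_apply, Matrix.adjugate_apply, Ring.inverse_eq_inv',
      smul_eq_mul, div_eq_inv_mul]
    rfl
  rw [e, UpperHalfPlane.mdifferentiable_iff]
  simp only [Function.comp_def]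
  refine DifferentiableOn.fun_sum fun i _ ↦ DifferentiableOn.mul (DifferentiableOn.div ?_ ?_ ?_) ?_
  · refine UpperHalfPlane.mdifferentiable_iff.1 (famDet_holo fun a b ↦ ?_)
    by_cases h : a = i
    · subst h
      simp only [Matrix.updateRow_self]
      exact mdifferentiable_const
    · simp only [Matrix.updateRow_ne h]
      exact (B.isMF a).tr_holo b
  · exact UpperHalfPlane.mdifferentiable_iff.1 (famDet_holo fun a b ↦ (B.isMF a).tr_holo b)
  · exact fun z _ ↦ B.det_ne _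
  · exact UpperHalfPlane.mdifferentiable_iff.1 (hP i)

theorem Frame.solve_smul {l : ℤ} {P : Cosets (Gamma0 N) → ℍ → ℂ}
    (hP : ∀ i, IsCF ⊤ (B.wt i + l) (P i)) (γ : SL(2, ℤ)) (x : Cosets (Gamma0 N)) (τ : ℍ) :
    B.solve P x (γ • τ) = denom γ τ ^ l * B.solve P (γ⁻¹ • x) τ := by
  set σ : Equiv.Perm (Cosets (Gamma0 N)) := MulAction.toPerm γ⁻¹ with hσ
  set w : Cosets (Gamma0 N) → ℂ := fun y ↦ denom γ τ ^ l * B.solve P (γ⁻¹ • y) τ with hw
  have hsol : (B.mat (γ • τ) *ᵥ w) = fun i ↦ P i (γ • τ) := by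
    funext i
    have hPi : P i (γ • τ) = denom γ τ ^ (B.wt i + l) * P i τ := by
      have := congrFun ((hP i).toIsMF.inv_top γ) τ
      rw [ModularForm.SL_slash_apply] at this
      rw [← this, mul_left_comm, ← zpow_add₀ (denom_ne_zero _ τ), add_neg_cancel, zpow_zero,
        mul_one]
    rw [hPi, zpow_add₀ (denom_ne_zero _ τ)]
    simp only [Matrix.mulVec, dotProduct, Frame.mat, Matrix.of_apply, hw, B.tr_b_apply_smul]
    rw [← congrFun (B.mat_mulVec_solve P τ) i]
    simp only [Matrix.mulVec, dotProduct, Frame.mat, Matrix.of_apply, Finset.mul_sum]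
    rw [← Equiv.sum_comp σ fun y ↦ denom γ τ ^ B.wt i * denom γ τ ^ l *
      (tr (B.wt i) (B.b i) y τ * B.solve P y τ)]
    refine Finset.sum_congr rfl fun y _ ↦ ?_
    rw [hσ, MulAction.toPerm_apply]
    ring
  have hu := B.mat_mulVec_solve P (γ • τ)
  have := Matrix.eq_zero_of_mulVec_eq_zero (B.det_mat_ne (γ • τ))
    (v := (fun y ↦ B.solve P y (γ • τ)) - w) (by rw [Matrix.mulVec_sub, hu, hsol, sub_self])
  exact sub_eq_zero.1 (congrFun this x)

theorem Frame.solve_zero {l : ℤ} {P : Cosets (Gamma0 N) → ℍ → ℂ}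
    (hP : ∀ i, IsCF ⊤ (B.wt i + l) (P i)) (x : Cosets (Gamma0 N)) :
    IsZeroAtImInfty (B.solve P x) := by
  obtain ⟨p, rfl⟩ := (sheetEquiv N).surjective x
  set G : ℍ → (Σ c : CuspClass N, Fin (width N c)) → ℂ :=
    fun τ ↦ (B.lead τ)⁻¹ *ᵥ fun q ↦ P (sheetEquiv N q) τ with hG
  have hsol : ∀ τ, B.solve P (sheetEquiv N p) τ = (chart τ *ᵥ G τ) p := by
    intro τ
    have h1 : ((B.mat τ).submatrix (sheetEquiv N) (sheetEquiv N) *ᵥ
        fun q ↦ B.solve P (sheetEquiv N q) τ) = fun q ↦ P (sheetEquiv N q) τ := by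
      rw [Matrix.submatrix_mulVec_equiv]
      have := B.mat_mulVec_solve P τ
      funext q
      simpa [Function.comp_def] using congrFun this (sheetEquiv N q)
    have h2 : ((B.mat τ).submatrix (sheetEquiv N) (sheetEquiv N) *ᵥ (chart τ *ᵥ G τ)) =
        fun q ↦ P (sheetEquiv N q) τ := by
      rw [Matrix.mulVec_mulVec, ← B.lead_eq, hG]
      simp only
      rw [Matrix.mulVec_mulVec, Matrix.mul_nonsing_inv _ (B.det_lead_ne τ).isUnit,
        Matrix.one_mulVec]
    have hd : ((B.mat τ).submatrix (sheetEquiv N) (sheetEquiv N)).det ≠ 0 := by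
      rw [Matrix.det_submatrix_equiv_self]; exact B.det_mat_ne τ
    have := Matrix.eq_zero_of_mulVec_eq_zero hd
      (v := (fun q ↦ B.solve P (sheetEquiv N q) τ) - (chart τ *ᵥ G τ))
      (by rw [Matrix.mulVec_sub, h1, h2, sub_self])
    exact sub_eq_zero.1 (congrFun this p)
  rw [funext hsol]
  obtain ⟨c, l₀⟩ := p
  have hinv : Tendsto (fun τ ↦ (B.lead τ)⁻¹) atImInfty (𝓝 B.leadLim⁻¹) := by
    have h1 : Tendsto (fun τ ↦ B.lead τ) atImInfty (𝓝 B.leadLim) :=
      tendsto_pi_nhds.2 fun i ↦ tendsto_pi_nhds.2 fun q ↦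
        (comb_periodOne (B.isMF _).inv q).tendsto_valueAtInfty (comb_holo (B.isMF _) q)
          (comb_bdd (B.isMF _) q)
    simp only [Matrix.inv_def, Ring.inverse_eq_inv']
    exact ((((Continuous.matrix_det continuous_id).tendsto _).comp h1).inv₀ B.det_leadLim_ne).smul
      (((Continuous.matrix_adjugate continuous_id).tendsto _).comp h1)
  have hGO : ∀ q, (fun τ ↦ G τ q) =O[atImInfty] fun τ ↦ Real.exp (-2 * Real.pi * τ.im) := by
    intro q
    simp only [hG, Matrix.mulVec, dotProduct]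
    refine IsBigO.fun_sum fun i _ ↦ ?_
    have h1 : (fun τ ↦ (B.lead τ)⁻¹ q i) =O[atImInfty] fun _ ↦ (1 : ℝ) :=
      (tendsto_pi_nhds.1 (tendsto_pi_nhds.1 hinv q) i).isBigO_one ℝ
    have hp := hP (sheetEquiv N i)
    have h2 : (P (sheetEquiv N i)) =O[atImInfty] fun τ ↦ Real.exp (-2 * Real.pi * τ.im) :=
      (periodOne_of_top hp.toIsMF).isBigO_exp hp.toIsMF.holo (by simpa using hp.zero 1)
    simpa using h1.mul h2
  simp only [Matrix.mulVec, dotProduct, chart, Fintype.sum_sigma]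
  have hterm : ∀ r : Fin (width N c), Tendsto (fun τ : ℍ ↦
      twist (width N c) r ((τ : ℂ) + (l₀ : ℕ)) * G τ ⟨c, r⟩) atImInfty (𝓝 0) := by
    intro r
    have hw0 : (0 : ℝ) < width N c := by exact_mod_cast width_pos N c
    have h1 := (Asymptotics.isBigO_refl (fun τ : ℍ ↦ twist (width N c) r ((τ : ℂ) + (l₀ : ℕ))) atImInfty).norm_right.mul
      (hGO ⟨c, r⟩)
    refine h1.trans_tendsto ?_
    have hr : ((r : ℕ) : ℝ) / width N c < 1 := (div_lt_one hw0).2 (by exact_mod_cast r.2)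
    have : Tendsto (fun τ : ℍ ↦ Real.exp (-(2 * Real.pi * (1 - (r : ℕ) / width N c) * τ.im)))
        atImInfty (𝓝 0) := by
      refine Real.tendsto_exp_neg_atTop_nhds_zero.comp ?_
      exact Tendsto.const_mul_atTop (by have := Real.pi_pos; nlinarith) tendsto_comap
    refine this.congr fun τ ↦ ?_
    rw [norm_twist, ← Real.exp_add]
    congr 1
    simp only [Complex.add_im, Complex.natCast_im, add_zero, UpperHalfPlane.coe_im]
    field_simp
    ring
  have := tendsto_finsetSum Finset.univ fun r _ ↦ hterm r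
  simp only [Finset.sum_const_zero] at this
  refine this.congr fun τ ↦ ?_
  rw [Finset.sum_eq_single c]
  · refine Finset.sum_congr rfl fun r _ ↦ ?_
    rw [Matrix.blockDiagonal'_apply_eq, Matrix.of_apply]
  · intro c' _ hc
    refine Finset.sum_eq_zero fun r _ ↦ ?_
    rw [Matrix.blockDiagonal'_apply_ne _ _ _ (Ne.symm hc), zero_mul]
  · intro h; exact absurd (Finset.mem_univ _) h

/-- Every system of level one cusp forms is the pairing of a unique cusp form. -/
theorem Frame.exists_pair_eq {l : ℤ} {P : Cosets (Gamma0 N) → ℍ → ℂ}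
    (hP : ∀ i, IsCF ⊤ (B.wt i + l) (P i)) :
    ∃ f, IsCF (Gamma0 N) l f ∧ ∀ i, B.pair l f i = P i := by
  obtain ⟨h1, h2⟩ := isCF_of_family (k := l) (B.solve P) (B.solve_holo fun i ↦ (hP i).toIsMF.holo)
    (B.solve_zero hP) (B.solve_smul hP)
  refine ⟨_, h1, fun i ↦ funext fun τ ↦ ?_⟩
  rw [← congrFun (B.mat_mulVec_solve P τ) i]
  simp [Frame.pair, h2, Matrix.mulVec, dotProduct, Frame.mat]

end FermatAgent.ModCurve.Forms
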