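import Mathlib
import Fermat.Agent.ModCurve.Forms.Duality

/-!
# The dimension of `S₂(Γ₀(N))`
-/

noncomputable section

open UpperHalfPlane CongruenceSubgroup Filter Topology Matrix
open scoped Manifold MatrixGroups ModularForm

namespace FermatAgent.ModCurve.Forms

variable {N : ℕ} [NeZero N] (B : Frame N)

omit [NeZero N] in
theorem isCF_zero (Γ : Subgroup SL(2, ℤ)) (k : ℤ) : IsCF Γ k 0 :=
  ⟨IsMF.zero' k, fun γ ↦ by
    rw [SlashAction.zero_slash]; exact (tendsto_const_nhds : Tendsto (fun _ : ℍ ↦ (0 : ℂ)) atImInfty (𝓝 0))⟩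

/-- The frame weights are at most ten. -/
theorem Frame.wt_le_ten (i : Cosets (Gamma0 N)) : B.wt i ≤ 10 := by
  by_contra h
  obtain ⟨u, hu⟩ := B.even_wt i
  have h12 : 12 ≤ B.wt i := by omega
  obtain ⟨f, hf, hP⟩ := B.exists_pair_eq (l := 12 - B.wt i)
    (P := fun j ↦ if j = i then disc else 0) fun j ↦ by
      by_cases hj : j = i
      · subst hj
        rw [if_pos rfl, add_sub_cancel]
        exact isCF_top_of_isZero isMF_disc disc_isZeroAtImInfty
      · rw [if_neg hj]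
        exact isCF_zero _ _
  have hf0 := hf.eq_zero_of_nonpos (by omega)
  have := congrFun (hP i) UpperHalfPlane.I
  rw [if_pos rfl, hf0] at this
  simp [Frame.pair, tr_zero] at this
  exact disc_ne_zero _ this.symm

/-- Exactly one frame weight is zero. -/
theorem Frame.card_wt_zero : (Finset.univ.filter fun i ↦ B.wt i = 0).card = 1 := by
  classical
  have hconst : ∀ i, B.wt i = 0 → ∃ c : ℂ, ∀ (x : Cosets (Gamma0 N)) τ, tr (B.wt i) (B.b i) x τ = c := by
    intro i hi
    obtain ⟨c, hc⟩ := ((B.isMF i).cast hi rfl : IsMF (Gamma0 N) 0 _).exists_const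
    refine ⟨c, fun x τ ↦ ?_⟩
    rw [hi, hc, tr_of_top (IsMF.const c)]
    rfl
  rw [Finset.card_eq_one]
  have h1 : IsMF (Gamma0 N) 0 (Function.const ℍ (1 : ℂ)) := IsMF.const _
  obtain ⟨P, hP, hPs⟩ := B.generates h1
  obtain ⟨i₀, hi₀⟩ : ∃ i, B.wt i = 0 := by
    by_contra! h
    have hz : ∀ i, P i = 0 := fun i ↦
      (hP i).eq_zero_of_neg (by have := B.wt_nonneg i; have := h i; omega)
    have := congrFun hPs UpperHalfPlane.I
    simp [hz] at this
  refine ⟨i₀, Finset.eq_singleton_iff_unique_mem.2 ⟨by simp [hi₀], fun i hi ↦ ?_⟩⟩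
  simp only [Finset.mem_filter, Finset.mem_univ, true_and] at hi
  by_contra hne
  obtain ⟨c, hc⟩ := hconst i hi
  obtain ⟨c₀, hc₀⟩ := hconst i₀ hi₀
  refine B.det_mat_ne UpperHalfPlane.I ?_
  by_cases hc₀0 : c₀ = 0
  · exact Matrix.det_eq_zero_of_row_eq_zero i₀ fun x ↦ by simp [Frame.mat, hc₀, hc₀0]
  have := Matrix.det_updateRow_add_smul_self (B.mat UpperHalfPlane.I) (i := i) (j := i₀) hne
    (-(c / c₀))
  rw [← this]
  refine Matrix.det_eq_zero_of_row_eq_zero i fun x ↦ ?_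
  simp [Frame.mat, hc, hc₀]
  field_simp
  ring

/-- The number of frame elements of weight `2u`. -/
def Frame.count (u : ℕ) : ℕ := (Finset.univ.filter fun i ↦ B.wt i = 2 * (u : ℤ)).card

theorem Frame.sum_eq_count {M : Type*} [AddCommMonoid M] (φ : ℤ → M) :
    ∑ i, φ (B.wt i) = ∑ u ∈ Finset.range 6, B.count u • φ (2 * u) := by
  classical
  have hmaps : ∀ i ∈ (Finset.univ : Finset (Cosets (Gamma0 N))),
      (B.wt i / 2).toNat ∈ Finset.range 6 := fun i _ ↦ by
    have := B.wt_le_ten i; simp; omega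
  rw [← Finset.sum_fiberwise_of_maps_to hmaps fun i ↦ φ (B.wt i)]
  refine Finset.sum_congr rfl fun u _ ↦ ?_
  have e : (Finset.univ.filter fun i ↦ (B.wt i / 2).toNat = u) =
      Finset.univ.filter fun i ↦ B.wt i = 2 * (u : ℤ) := by
    ext i
    have := B.wt_nonneg i
    obtain ⟨v, hv⟩ := B.even_wt i
    simp only [Finset.mem_filter, Finset.mem_univ, true_and]
    omega
  rw [e, Frame.count, ← Finset.sum_const]
  refine Finset.sum_congr rfl fun i hi ↦ ?_
  rw [(Finset.mem_filter.1 hi).2]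

/-- The weight ten frame elements number the genus, in terms of coset counts. -/
theorem Frame.count_five :
    (B.count 5 : ℚ) = 1 + (Nat.card (Cosets (Gamma0 N)) : ℚ) / 12
      - (Nat.card {x : Cosets (Gamma0 N) // ModularGroup.S • x = x} : ℚ) / 4
      - (Nat.card {x : Cosets (Gamma0 N) // (ModularGroup.S * ModularGroup.T) • x = x} : ℚ) / 3
      - (Nat.card (CuspClass N) : ℚ) / 2 := by
  have h0 : B.count 0 = 1 := by simpa [Frame.count] using B.card_wt_zero
  have hψ := B.sum_eq_count (fun _ ↦ (1 : ℕ))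
  have hW := B.sum_eq_count (fun k : ℤ ↦ k)
  rw [B.sum_wt] at hW
  have h2 := B.card_fixed_S
  rw [B.sum_eq_count (fun k : ℤ ↦ (-1 : ℂ) ^ (k / 2))] at h2
  have h3 := B.card_fixed_ST
  rw [B.sum_eq_count (fun k : ℤ ↦ ((rhoPt : ℂ) ^ 2) ^ (k / 2))] at h3
  set f2 := Nat.card {x : Cosets (Gamma0 N) // ModularGroup.S • x = x} with hf2
  set f3 := Nat.card {x : Cosets (Gamma0 N) // (ModularGroup.S * ModularGroup.T) • x = x} with hf3
  clear_value f2 f3
  simp [Finset.sum_range_succ, h0] at hψ hW h2 h3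
  rw [Nat.card_eq_fintype_card, Nat.card_eq_fintype_card]
  set ψ := Fintype.card (Cosets (Gamma0 N))
  set c := Fintype.card (CuspClass N)
  set n1 := B.count 1; set n2 := B.count 2; set n3 := B.count 3
  set n4 := B.count 4; set n5 := B.count 5
  have e2 : ((f2 : ℤ) : ℂ) = ((1 - n1 + n2 - n3 + n4 - n5 : ℤ) : ℂ) := by
    push_cast; linear_combination h2
  have e2' : (f2 : ℤ) = 1 - n1 + n2 - n3 + n4 - n5 := Int.cast_injective e2
  have hρ := rhoPt_sq
  have e3 : ((f3 : ℝ) : ℂ) = ((1 + n3 - n1 - n4 : ℝ) : ℂ) +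
      ((n2 + n5 - n1 - n4 : ℝ) : ℂ) * (rhoPt : ℂ) := by
    push_cast
    rw [h3]
    have r2 : (rhoPt : ℂ) ^ 2 = -1 - rhoPt := by linear_combination hρ
    simp only [pow_succ, pow_zero, one_mul]
    ring_nf
    rw [show (rhoPt : ℂ) ^ 10 = rhoPt by linear_combination ((rhoPt : ℂ) ^ 8 - rhoPt ^ 7 + rhoPt ^ 5 - rhoPt ^ 4 + rhoPt ^ 2 - rhoPt) * hρ,
      show (rhoPt : ℂ) ^ 8 = -1 - rhoPt by linear_combination ((rhoPt : ℂ) ^ 6 - rhoPt ^ 5 + rhoPt ^ 3 - rhoPt ^ 2 + 1) * hρ,
      show (rhoPt : ℂ) ^ 6 = 1 by linear_combination ((rhoPt : ℂ) ^ 4 - rhoPt ^ 3 + rhoPt - 1) * hρ,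
      show (rhoPt : ℂ) ^ 4 = rhoPt by linear_combination ((rhoPt : ℂ) ^ 2 - rhoPt) * hρ, r2]
    ring
  have him := congrArg Complex.im e3
  have hre := congrArg Complex.re e3
  simp [rhoPt] at him hre
  have e3i : (n2 : ℤ) + n5 - n1 - n4 = 0 := by
    exact_mod_cast (show ((n2 : ℝ) + n5 - n1 - n4) = 0 by linarith [him])
  have e3r : (f3 : ℤ) = 1 + n3 - n1 - n4 := by
    have e3i' : ((n2 : ℝ) + n5 - n1 - n4) = 0 := by exact_mod_cast e3i
    exact_mod_cast (show (f3 : ℝ) = 1 + n3 - n1 - n4 by rw [hre, e3i']; ring)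
  have q2 : (f2 : ℚ) = 1 - n1 + n2 - n3 + n4 - n5 := by exact_mod_cast e2'
  have q3 : (f3 : ℚ) = 1 + n3 - n1 - n4 := by exact_mod_cast e3r
  have q3' : (n2 : ℚ) + n5 - n1 - n4 = 0 := by exact_mod_cast e3i
  have qψ : (ψ : ℚ) = 1 + n1 + n2 + n3 + n4 + n5 := by exact_mod_cast hψ
  have qW : (6 : ℚ) * (ψ - c) = 2 * n1 + 4 * n2 + 6 * n3 + 8 * n4 + 10 * n5 := by
    have hW' : 6 * ((ψ : ℤ) - c) = 2 * n1 + 4 * n2 + 6 * n3 + 8 * n4 + 10 * n5 := by
      linear_combination hW
    exact_mod_cast hW'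
  linarith

/-- `S₂(Γ₀(N))` has a basis indexed by the frame elements of weight ten. -/
theorem Frame.finrank_cuspForm :
    Module.finrank ℂ (CuspForm (Gamma0 N) 2) = B.count 5 := by
  classical
  let ι := {i : Cosets (Gamma0 N) // B.wt i = 10}
  let φ : CuspForm (Gamma0 N) 2 →ₗ[ℂ] (ι → ℂ) :=
    { toFun := fun f i ↦ B.pair 2 f i.1 UpperHalfPlane.I / disc UpperHalfPlane.I
      map_add' := fun f g ↦ by
        funext i
        simp [Frame.pair, tr_add, mul_add, Finset.sum_add_distrib, add_div]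
      map_smul' := fun a f ↦ by
        funext i
        simp only [Frame.pair, FunLike.coe_smul, tr_smul, Pi.smul_apply, smul_eq_mul,
          RingHom.id_apply, mul_left_comm _ a, ← Finset.mul_sum, mul_div_assoc] }
  have hbij : Function.Bijective φ := by
    refine ⟨LinearMap.ker_eq_bot.1 ((Submodule.eq_bot_iff _).2 fun f hf ↦ ?_), fun c ↦ ?_⟩
    · have hcf : IsCF (Gamma0 N) 2 f := isCF_coe f
      refine DFunLike.coe_injective (B.eq_zero_of_pair_eq_zero hcf.toIsMF fun i ↦ ?_)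
      by_cases hi : B.wt i = 10
      · obtain ⟨a, ha⟩ := ((⟨(B.isCF_pair hcf i).toIsMF.cast (by rw [hi]; norm_num) rfl, fun γ ↦ by
          have := (B.isCF_pair hcf i).zero γ; rwa [hi] at this⟩ : IsCF ⊤ 12 _)).exists_eq_smul_disc
        have h0 : φ f ⟨i, hi⟩ = 0 := by rw [LinearMap.mem_ker.1 hf]; rfl
        change B.pair 2 f i UpperHalfPlane.I / disc UpperHalfPlane.I = 0 at h0
        rw [ha] at h0 ⊢
        simp [disc_ne_zero] at h0
        simp [h0]
      · refine (B.isCF_pair hcf i).eq_zero_of_lt_twelve ?_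
        have := B.wt_le_ten i
        omega
    · obtain ⟨f, hf, hP⟩ := B.exists_pair_eq (l := 2)
        (P := fun j ↦ if h : B.wt j = 10 then c ⟨j, h⟩ • disc else 0) fun j ↦ by
          by_cases hj : B.wt j = 10
          · rw [dif_pos hj, hj]
            refine isCF_top_of_isZero ((isMF_disc.cast (by norm_num) rfl).smul _) ?_
            show Tendsto _ atImInfty (𝓝 0)
            have h := disc_isZeroAtImInfty.const_smul (c ⟨j, hj⟩)
            simp only [smul_zero] at h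
            exact h
          · rw [dif_neg hj]
            exact isCF_zero _ _
      refine ⟨hf.toCuspForm, funext fun i ↦ ?_⟩
      change B.pair 2 hf.toCuspForm i.1 UpperHalfPlane.I / disc UpperHalfPlane.I = c i
      rw [IsCF.coe_toCuspForm, hP, dif_pos i.2, Pi.smul_apply, smul_eq_mul,
        mul_div_assoc, div_self (disc_ne_zero _), mul_one]
  rw [(LinearEquiv.ofBijective φ hbij).finrank_eq, Module.finrank_fintype_fun_eq_card,
    Fintype.card_subtype, Frame.count]
  norm_num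

/-- The dimension of `S₂(Γ₀(N))` in terms of coset counts. -/
theorem finrank_cuspForm_eq_counts (N : ℕ) [NeZero N] :
    (Module.finrank ℂ (CuspForm (Gamma0 N) 2) : ℚ) =
      1 + (Nat.card (Cosets (Gamma0 N)) : ℚ) / 12
      - (Nat.card {x : Cosets (Gamma0 N) // ModularGroup.S • x = x} : ℚ) / 4
      - (Nat.card {x : Cosets (Gamma0 N) // (ModularGroup.S * ModularGroup.T) • x = x} : ℚ) / 3
      - (Nat.card (CuspClass N) : ℚ) / 2 := by
  rw [(frame N).finrank_cuspForm]
  exact (frame N).count_five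

end FermatAgent.ModCurve.Forms
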