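import Mathlib
import Fermat.Agent.Periods.WeightTwo
import Fermat.Agent.ModCurve.Forms.Separation

/-!
# Injectivity of the Eichler–Shimura period pairing
-/

noncomputable section

open UpperHalfPlane CongruenceSubgroup Filter Topology ModularCurve ModularCurve.Period
open scoped Manifold MatrixGroups ModularForm ComplexConjugate

namespace FermatAgent.ModCurve.Forms

variable {N : ℕ}

/-- `τ ↦ -conj τ`. -/
def flipPt (τ : ℍ) : ℍ := ⟨-conj (τ : ℂ), by simpa using τ.im_pos⟩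

@[simp] theorem coe_flipPt (τ : ℍ) : (flipPt τ : ℂ) = -conj (τ : ℂ) := rfl

theorem flipPt_smul (g : SL(2, ℤ)) (τ : ℍ) : flipPt (g • τ) = jConjSL g • flipPt τ := by
  apply UpperHalfPlane.ext
  rw [coe_flipPt, UpperHalfPlane.coe_specialLinearGroup_apply,
    UpperHalfPlane.coe_specialLinearGroup_apply, coe_flipPt]
  simp [map_div₀]
  ring

theorem tendsto_flipPt : Tendsto flipPt atImInfty atImInfty := by
  refine tendsto_comap_iff.2 ?_
  exact (tendsto_comap : Tendsto UpperHalfPlane.im atImInfty atTop).congr fun τ ↦ by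
    simp [← UpperHalfPlane.coe_im]

theorem coe_T_pow_nat (n : ℕ) :
    ((ModularGroup.T ^ n : SL(2, ℤ)) : Matrix (Fin 2) (Fin 2) ℤ) = !![1, (n : ℤ); 0, 1] := by
  rw [← zpow_natCast ModularGroup.T n, ModularGroup.coe_T_zpow]

theorem conj_T_pow_mem_Gamma0 (g : SL(2, ℤ)) :
    g * ModularGroup.T ^ N * g⁻¹ ∈ Gamma0 N := by
  rw [Gamma0_mem, ZMod.intCast_zmod_eq_zero_iff_dvd]
  refine ⟨-(g 1 0) ^ 2, ?_⟩
  simp [Matrix.mul_apply, Fin.sum_univ_two, Matrix.adjugate_fin_two, coe_T_pow_nat, -Matrix.SpecialLinearGroup.coe_pow]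
  ring

theorem trace_conj_T_pow (g : SL(2, ℤ)) :
    ((g * ModularGroup.T ^ N * g⁻¹ : SL(2, ℤ)) : Matrix (Fin 2) (Fin 2) ℤ).trace ^ 2 = 4 := by
  rw [Matrix.SpecialLinearGroup.coe_mul, Matrix.trace_mul_comm, ← Matrix.SpecialLinearGroup.coe_mul,
    ← mul_assoc, inv_mul_cancel, one_mul, coe_T_pow_nat]
  simp [Matrix.trace_fin_two]

variable [NeZero N]

theorem primitive_vadd (f : CuspForm (Gamma0 N) 2) (g : SL(2, ℤ)) (τ : ℍ) :
    Periods.primitive f (g • ((N : ℝ) +ᵥ τ)) = Periods.primitive f (g • τ) := by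
  have h := Periods.periodMap_apply_eq_sub f
    ⟨g * ModularGroup.T ^ N * g⁻¹, conj_T_pow_mem_Gamma0 g⟩ (g • τ)
  rw [Periods.periodMap_mem_parabolicHoms f _ (trace_conj_T_pow g)] at h
  simp only [mul_smul, inv_smul_smul] at h
  have e : (ModularGroup.T ^ N : SL(2, ℤ)) • τ = (N : ℝ) +ᵥ τ := by
    have := modular_T_zpow_smul τ (N : ℤ)
    simpa using this
  rw [← e]
  exact (sub_eq_zero.1 h.symm)

theorem flipPt_smul_vadd (f : CuspForm (Gamma0 N) 2) (g : SL(2, ℤ)) (τ : ℍ) :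
    Periods.primitive f (flipPt (g • ((N : ℝ) +ᵥ τ))) = Periods.primitive f (flipPt (g • τ)) := by
  have hflip : flipPt τ = (N : ℝ) +ᵥ flipPt ((N : ℝ) +ᵥ τ) := by
    apply UpperHalfPlane.ext
    simp
  rw [flipPt_smul, flipPt_smul]
  conv_rhs => rw [hflip]
  rw [primitive_vadd]

theorem holo_primitive (f : CuspForm (Gamma0 N) 2) : MDiff (Periods.primitive f) := fun τ ↦
  UpperHalfPlane.mdifferentiableAt_iff.2
    ((Periods.hasEquivariantPrimitive_primitive f).1 τ).differentiableAt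

theorem holo_conj_flip (f : CuspForm (Gamma0 N) 2) :
    MDiff fun τ ↦ conj (Periods.primitive f (flipPt τ)) := by
  intro τ
  rw [UpperHalfPlane.mdifferentiableAt_iff]
  have h := ((Periods.hasEquivariantPrimitive_primitive f).1 (flipPt τ)).differentiableAt
  rw [coe_flipPt] at h
  have h2 : DifferentiableAt ℂ
      (fun z ↦ (Periods.primitive f ∘ ofComplex) (-z)) (conj (τ : ℂ)) :=
    h.comp (conj (τ : ℂ)) differentiableAt_id.neg
  have h3 := h2.conj_conj
  rw [Complex.conj_conj] at h3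
  refine h3.congr_of_eventuallyEq ?_
  filter_upwards [isOpen_upperHalfPlaneSet.mem_nhds τ.im_pos] with z (hz : 0 < z.im)
  have e : ofComplex (-conj z) = flipPt (ofComplex z) := by
    apply UpperHalfPlane.ext
    rw [ofComplex_apply_of_im_pos (by simpa using hz), coe_flipPt, ofComplex_apply_of_im_pos hz]
  simp [e]

/-- A holomorphic function whose absolute value is `Γ₀(N)`-invariant, periodic and bounded at
every cusp, is constant. -/
theorem eq_const_of_norm_invariant {φ : ℍ → ℂ} (hol : MDiff φ)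
    (hinv : ∀ γ ∈ Gamma0 N, ∀ τ, ‖φ (γ • τ)‖ = ‖φ τ‖)
    (hper : ∀ (g : SL(2, ℤ)) τ, φ (g • ((N : ℝ) +ᵥ τ)) = φ (g • τ))
    (hbdd : ∀ g : SL(2, ℤ), IsBoundedAtImInfty fun τ ↦ φ (g • τ)) :
    ∀ τ τ', φ τ = φ τ' := by
  have hN : (0 : ℝ) < N := Nat.cast_pos.2 (NeZero.pos N)
  have hQfin : Finite (SL(2, ℤ) ⧸ Gamma0 N) := Subgroup.finite_quotient_of_finiteIndex
  let ψ : SL(2, ℤ) ⧸ Gamma0 N → ℍ → ℂ := fun x τ ↦ φ (x.out⁻¹ • τ)
  let C : SL(2, ℤ) ⧸ Gamma0 N → ℂ → ℂ := fun x ↦ cuspFunction (N : ℝ) (ψ x)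
  have hψper : ∀ x, Function.Periodic (ψ x ∘ ofComplex) ((N : ℝ) : ℂ) := by
    intro x w
    by_cases! hw : 0 < w.im
    · have : 0 < (w + ((N : ℝ) : ℂ)).im := by simp [hw]
      simp only [Function.comp_apply, ofComplex_apply_of_im_pos this,
        ofComplex_apply_of_im_pos hw]
      convert hper x.out⁻¹ ⟨w, hw⟩ using 3
      rw [UpperHalfPlane.coe_vadd]
      simp [add_comm]
    · have : (w + ((N : ℝ) : ℂ)).im ≤ 0 := by simpa using hw
      simp only [Function.comp_apply, ofComplex_apply_of_im_nonpos this,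
        ofComplex_apply_of_im_nonpos hw]
  have hψhol : ∀ x, MDiff (ψ x) := by
    intro x τ
    rw [UpperHalfPlane.mdifferentiableAt_iff]
    have h1 := UpperHalfPlane.mdifferentiableAt_iff.1 (hol (x.out⁻¹ • τ))
    have h2 : DifferentiableAt ℂ (fun z ↦ ((x.out⁻¹ • ofComplex z : ℍ) : ℂ)) τ := by
      have e : ∀ᶠ z in 𝓝 (τ : ℂ), ((x.out⁻¹ • ofComplex z : ℍ) : ℂ) =
          ((x.out⁻¹ 0 0 : ℂ) * z + x.out⁻¹ 0 1) / ((x.out⁻¹ 1 0 : ℂ) * z + x.out⁻¹ 1 1) := by
        filter_upwards [isOpen_upperHalfPlaneSet.mem_nhds τ.im_pos] with z (hz : 0 < z.im)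
        rw [UpperHalfPlane.coe_specialLinearGroup_apply, ofComplex_apply_of_im_pos hz]
        simp
      refine DifferentiableAt.congr_of_eventuallyEq ?_ e
      refine DifferentiableAt.div (by fun_prop) (by fun_prop) ?_
      rw [← denom_sl]
      exact UpperHalfPlane.denom_ne_zero _ τ
    have h2' : (fun z ↦ ((x.out⁻¹ • ofComplex z : ℍ) : ℂ)) τ = ((x.out⁻¹ • τ : ℍ) : ℂ) := by
      simp
    exact (DifferentiableAt.comp (τ : ℂ) (h2' ▸ h1) h2).congr_of_eventuallyEq
      (Eventually.of_forall fun z ↦ by simp [ψ])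
  have hCdiff : ∀ x q, ‖q‖ < 1 → DifferentiableAt ℂ (C x) q := fun x q hq ↦
    differentiableAt_cuspFunction hN (hψper x) (hψhol x) (hbdd _) hq
  have hCq : ∀ x (τ : ℍ), C x (Function.Periodic.qParam (N : ℝ) (τ : ℂ)) = ψ x τ := fun x τ ↦
    eq_cuspFunction τ hN.ne' (hψper x)
  -- reduction to a compact set
  set r : ℝ := Real.exp (-Real.pi / (2 * N)) with hr
  have hr0 : 0 ≤ r := (Real.exp_pos _).le
  have hr1 : r < 1 := Real.exp_lt_one_iff.2 (div_neg_of_neg_of_pos (neg_lt_zero.2 Real.pi_pos) (by positivity))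
  have hred : ∀ τ : ℍ, ∃ x, ∃ q ∈ Metric.closedBall (0 : ℂ) r, ‖φ τ‖ = ‖C x q‖ := by
    intro τ
    obtain ⟨g, hg⟩ := ModularGroup.exists_smul_mem_fd τ
    set x : SL(2, ℤ) ⧸ Gamma0 N := QuotientGroup.mk g
    refine ⟨x, Function.Periodic.qParam (N : ℝ) ((g • τ : ℍ) : ℂ), ?_, ?_⟩
    · rw [mem_closedBall_zero_iff, Function.Periodic.norm_qParam, hr, Real.exp_le_exp,
        UpperHalfPlane.coe_im]
      have h3 : (3 : ℝ) < 4 * (g • τ).im ^ 2 + 1e-9 := by
        have := ModularGroup.three_le_four_mul_im_sq_of_mem_fd hg; linarith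
      have him : (1 / 2 : ℝ) ≤ (g • τ).im := by nlinarith [(g • τ).im_pos]
      rw [div_le_div_iff₀ hN (by positivity)]
      have : Real.pi * (1 / 2) * (4 * N) ≤ Real.pi * (g • τ).im * (4 * N) := by gcongr
      nlinarith
    · rw [hCq]
      obtain ⟨h, hh⟩ := QuotientGroup.mk_out_eq_mul (Gamma0 N) g
      simp only [ψ, x, hh, mul_inv_rev, mul_smul, inv_smul_smul]
      exact (hinv _ (Subgroup.inv_mem _ h.2) τ).symm
  have hcont : ∀ x, ContinuousOn (fun q ↦ ‖C x q‖) (Metric.closedBall (0 : ℂ) r) := fun x q hq ↦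
    ((hCdiff x q ((mem_closedBall_zero_iff.1 hq).trans_lt hr1)).continuousAt.norm).continuousWithinAt
  choose qm hqm hmax using fun x ↦ (isCompact_closedBall (0 : ℂ) r).exists_isMaxOn
    ⟨0, Metric.mem_closedBall_self hr0⟩ (hcont x)
  obtain ⟨x₀, hx₀⟩ := Finite.exists_max fun x ↦ ‖C x (qm x)‖
  have hball : ∀ q ∈ Metric.ball (0 : ℂ) 1, ‖C x₀ q‖ ≤ ‖C x₀ (qm x₀)‖ := by
    intro q hq
    rw [mem_ball_zero_iff] at hq
    have key : ∀ τ : ℍ, ‖φ τ‖ ≤ ‖C x₀ (qm x₀)‖ := fun τ ↦ by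
      obtain ⟨x, q', hq', e⟩ := hred τ
      exact e ▸ (hmax x hq').trans (hx₀ x)
    have hne : ∀ q : ℂ, q ≠ 0 → ‖q‖ < 1 → ‖C x₀ q‖ ≤ ‖C x₀ (qm x₀)‖ := fun q h0 h1 ↦ by
      obtain ⟨τ, hτ⟩ : ∃ τ : ℍ, Function.Periodic.qParam (N : ℝ) (τ : ℂ) = q :=
        ⟨⟨_, Function.Periodic.im_invQParam_pos_of_norm_lt_one hN h1 h0⟩,
          Function.Periodic.qParam_right_inv hN.ne' h0⟩
      rw [← hτ, hCq]
      exact key _
    by_cases h0 : q = 0
    · subst h0
      refine le_of_tendsto ((hCdiff x₀ 0 (by simp)).continuousAt.norm.tendsto.mono_left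
        (nhdsWithin_le_nhds (s := {0}ᶜ))) ?_
      filter_upwards [self_mem_nhdsWithin, mem_nhdsWithin_of_mem_nhds
        (Metric.ball_mem_nhds (0 : ℂ) one_pos)] with q (h0 : q ≠ 0) h1
      exact hne q h0 (mem_ball_zero_iff.1 h1)
    · exact hne q h0 hq
  have hq0 : qm x₀ ∈ Metric.ball (0 : ℂ) 1 :=
    mem_ball_zero_iff.2 ((mem_closedBall_zero_iff.1 (hqm x₀)).trans_lt hr1)
  have heq : ∀ q ∈ Metric.ball (0 : ℂ) 1, C x₀ q = C x₀ (qm x₀) :=
    Complex.eqOn_of_isPreconnected_of_isMaxOn_norm Metric.isPreconnected_ball Metric.isOpen_ball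
      (fun q hq ↦ (hCdiff x₀ q (mem_ball_zero_iff.1 hq)).differentiableWithinAt) hq0 hball
  have hφc : ∀ τ, φ τ = C x₀ (qm x₀) := by
    intro τ
    rw [← heq (Function.Periodic.qParam (N : ℝ) ((x₀.out • τ : ℍ) : ℂ))
      (mem_ball_zero_iff.2 (Function.Periodic.norm_qParam_lt_one hN (x₀.out • τ).im_pos)), hCq]
    simp only [ψ, inv_smul_smul]
  intro τ τ'
  rw [hφc, hφc]

theorem exp_const_imp_deriv_zero {A : ℍ → ℂ} (hol : MDiff A)
    (h : ∀ τ τ', Complex.exp (A τ) = Complex.exp (A τ')) (τ : ℍ) :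
    deriv (A ∘ ofComplex) τ = 0 := by
  have hA := (UpperHalfPlane.mdifferentiableAt_iff.1 (hol τ)).hasDerivAt
  have h1 := hA.cexp
  have h2 : HasDerivAt (fun z ↦ Complex.exp ((A ∘ ofComplex) z)) 0 (τ : ℂ) :=
    (hasDerivAt_const (τ : ℂ) (Complex.exp (A τ))).congr_of_eventuallyEq
      (Eventually.of_forall fun z ↦ h _ _)
  have := h1.unique h2
  simpa [Complex.exp_ne_zero] using this

theorem periodHomPair_injective (N : ℕ) [NeZero N] : Function.Injective (periodHomPair N) := by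
  rw [← LinearMap.ker_eq_bot, Submodule.eq_bot_iff]
  rintro ⟨f, g⟩ hfg
  rw [LinearMap.mem_ker, Periods.periodHomPair_apply] at hfg
  set u := f + g with hu
  set v := f - g with hv
  have hP : ∀ (γ : Gamma0 N), periodMap N u (Additive.ofMul γ) +
      periodMap N v (Additive.ofMul (jConjGamma0 N γ)) = 0 := by
    intro γ
    have h := DFunLike.congr_fun hfg (Additive.ofMul γ)
    simp only [AddMonoidHom.add_apply, AddMonoidHom.sub_apply, charInvolution_apply,
      toMul_ofMul, AddMonoidHom.zero_apply] at h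
    rw [← Periods.periodMapLin_apply, ← Periods.periodMapLin_apply, hu, hv, map_add, map_sub]
    simp only [Periods.periodMapLin_apply, AddMonoidHom.add_apply, AddMonoidHom.sub_apply]
    linear_combination h
  set F := Periods.primitive u with hF
  set K : ℍ → ℂ := fun τ ↦ conj (Periods.primitive v (flipPt τ)) with hK
  have hHinv : ∀ γ ∈ Gamma0 N, ∀ τ, F (γ • τ) + conj (K (γ • τ)) = F τ + conj (K τ) := by
    intro γ hγ τ
    have h1 := Periods.periodMap_apply_eq_sub u ⟨γ, hγ⟩ τ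
    have h2 := Periods.periodMap_apply_eq_sub v (jConjGamma0 N ⟨γ, hγ⟩) (flipPt τ)
    have h3 := hP ⟨γ, hγ⟩
    simp only [hK, Complex.conj_conj, flipPt_smul]
    rw [jConjGamma0_coe] at h2
    linear_combination -h1 - h2 + h3
  have hper : ∀ (δ : SL(2, ℤ)) τ,
      F (δ • ((N : ℝ) +ᵥ τ)) = F (δ • τ) ∧ K (δ • ((N : ℝ) +ᵥ τ)) = K (δ • τ) :=
    fun δ τ ↦ ⟨primitive_vadd u δ τ, by simp only [hK, flipPt_smul_vadd]⟩
  have hlim : ∀ δ : SL(2, ℤ), ∃ L M, Tendsto (fun τ ↦ F (δ • τ)) atImInfty (𝓝 L) ∧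
      Tendsto (fun τ ↦ K (δ • τ)) atImInfty (𝓝 M) := by
    intro δ
    obtain ⟨L, hL⟩ := (Periods.hasEquivariantPrimitive_primitive u).2.2.2 δ
    obtain ⟨M, hM⟩ := (Periods.hasEquivariantPrimitive_primitive v).2.2.2 (jConjSL δ)
    refine ⟨L, conj M, hL, ((Complex.continuous_conj.tendsto M).comp (hM.comp tendsto_flipPt)).congr
      fun τ ↦ ?_⟩
    simp only [hK, flipPt_smul, Function.comp_apply]
  have c1 := eq_const_of_norm_invariant (N := N) (φ := fun τ ↦ Complex.exp (F τ + K τ))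
    (fun τ ↦ UpperHalfPlane.mdifferentiableAt_iff.2
      ((UpperHalfPlane.mdifferentiableAt_iff.1 (holo_primitive u τ)).add
        (UpperHalfPlane.mdifferentiableAt_iff.1 (holo_conj_flip v τ))).cexp)
    (fun γ hγ τ ↦ by
      have := congrArg Complex.re (hHinv γ hγ τ)
      simp only [Complex.add_re, Complex.conj_re] at this
      simp only [Complex.norm_exp, Complex.add_re, this])
    (fun δ τ ↦ by simp only [(hper δ τ).1, (hper δ τ).2])
    (fun δ ↦ by
      obtain ⟨L, M, hL, hM⟩ := hlim δ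
      exact (((Complex.continuous_exp.tendsto _).comp (hL.add hM))).isBigO_one ℝ)
  have c2 := eq_const_of_norm_invariant (N := N)
    (φ := fun τ ↦ Complex.exp (Complex.I * (F τ - K τ)))
    (fun τ ↦ UpperHalfPlane.mdifferentiableAt_iff.2
      (((UpperHalfPlane.mdifferentiableAt_iff.1 (holo_primitive u τ)).sub
        (UpperHalfPlane.mdifferentiableAt_iff.1 (holo_conj_flip v τ))).const_mul Complex.I).cexp)
    (fun γ hγ τ ↦ by
      have := congrArg Complex.im (hHinv γ hγ τ)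
      simp only [Complex.add_im, Complex.conj_im] at this
      simp only [Complex.norm_exp, Complex.mul_re, Complex.I_re, Complex.I_im, zero_mul, one_mul,
        zero_sub, Complex.sub_im, Real.exp_eq_exp]
      linarith)
    (fun δ τ ↦ by simp only [(hper δ τ).1, (hper δ τ).2])
    (fun δ ↦ by
      obtain ⟨L, M, hL, hM⟩ := hlim δ
      exact (((Complex.continuous_exp.tendsto _).comp ((hL.sub hM).const_mul Complex.I))).isBigO_one ℝ)
  have hKd : ∀ τ : ℍ, DifferentiableAt ℂ (K ∘ ofComplex) τ :=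
    fun τ ↦ UpperHalfPlane.mdifferentiableAt_iff.1 (holo_conj_flip v τ)
  have hFd : ∀ τ : ℍ, HasDerivAt (F ∘ ofComplex) (u τ) τ :=
    (Periods.hasEquivariantPrimitive_primitive u).1
  have key : ∀ τ : ℍ, u τ = 0 ∧ deriv (K ∘ ofComplex) τ = 0 := by
    intro τ
    have e1 := exp_const_imp_deriv_zero (A := fun τ ↦ F τ + K τ)
      ((holo_primitive u).add (holo_conj_flip v)) c1 τ
    have e2 := exp_const_imp_deriv_zero (A := fun τ ↦ Complex.I * (F τ - K τ))
      (fun τ ↦ UpperHalfPlane.mdifferentiableAt_iff.2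
        (((hFd τ).differentiableAt.sub (hKd τ)).const_mul Complex.I)) c2 τ
    have d1 : HasDerivAt ((fun τ ↦ F τ + K τ) ∘ ofComplex) (u τ + deriv (K ∘ ofComplex) τ) τ :=
      (hFd τ).add (hKd τ).hasDerivAt
    have d2 : HasDerivAt ((fun τ ↦ Complex.I * (F τ - K τ)) ∘ ofComplex)
        (Complex.I * (u τ - deriv (K ∘ ofComplex) τ)) τ :=
      ((hFd τ).sub (hKd τ).hasDerivAt).const_mul Complex.I
    rw [d1.deriv] at e1
    rw [d2.deriv] at e2
    have e2' := (mul_eq_zero.1 e2).resolve_left Complex.I_ne_zero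
    exact ⟨by linear_combination (e1 + e2') / 2, by linear_combination (e1 - e2') / 2⟩
  have hKc : ∀ τ τ' : ℍ, K τ = K τ' := by
    intro τ τ'
    have := IsOpen.is_const_of_deriv_eq_zero (f := K ∘ ofComplex) isOpen_upperHalfPlaneSet
      (convex_halfSpace_im_gt 0).isPreconnected
      (fun z hz ↦ (hKd ⟨z, hz⟩).differentiableWithinAt)
      (fun z hz ↦ (key ⟨z, hz⟩).2) τ.im_pos τ'.im_pos
    simpa using this
  have hv0 : v = 0 := by
    ext τ
    have hconst : ∀ σ : ℍ, Periods.primitive v σ = Periods.primitive v τ := by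
      intro σ
      have h := congrArg conj (hKc (flipPt σ) (flipPt τ))
      have e : ∀ ρ : ℍ, flipPt (flipPt ρ) = ρ := fun ρ ↦ UpperHalfPlane.ext (by simp)
      simpa [hK, e] using h
    have h1 := (Periods.hasEquivariantPrimitive_primitive v).1 τ
    exact h1.unique ((hasDerivAt_const (τ : ℂ) (Periods.primitive v τ)).congr_of_eventuallyEq
      (Eventually.of_forall fun z ↦ hconst _))
  have hu0 : u = 0 := by ext τ; exact (key τ).1
  have hff : (2 : ℂ) • f = 0 := by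
    rw [show (2 : ℂ) • f = u + v by rw [hu, hv]; module, hu0, hv0, add_zero]
  have hf0 : f = 0 := (smul_eq_zero.1 hff).resolve_left two_ne_zero
  have hg0 : g = 0 := by rw [hu, hf0, zero_add] at hu0; exact hu0
  simp [hf0, hg0]

end FermatAgent.ModCurve.Forms
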