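import Mathlib
import Fermat.Prelude.Def_ModularCurve_GenusNumerics
import Fermat.Agent.ModCurve.Group.Homology
import Fermat.Agent.ModCurve.Forms.Dimension
import Fermat.Agent.ModCurve.Forms.PeriodPairInjective

/-!
# `dim S₂(Γ₀(N)) = g` and the Eichler–Shimura isomorphism
-/

noncomputable section

open UpperHalfPlane CongruenceSubgroup Module
open scoped MatrixGroups

namespace FermatAgent.ModCurve.Forms

open FermatAgent.ModCurveGroup in
/-- The orbits of `T` on cosets are the cycles of its permutation. -/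
def cuspClassEquiv (N : ℕ) [NeZero N] : CuspClass N ≃ CycleClass (permT (Gamma0 N)) :=
  Quotient.congr (Equiv.refl _) fun x y ↦ by
    simp only [MulAction.orbitRel_apply, Equiv.refl_apply]
    constructor
    · rintro ⟨⟨g, hg⟩, rfl⟩
      obtain ⟨n, rfl⟩ := Subgroup.mem_zpowers_iff.1 hg
      refine ⟨-n, ?_⟩
      show (permT (Gamma0 N) ^ (-n)) ((ModularGroup.T ^ n : SL(2, ℤ)) • y) = y
      rw [show permT (Gamma0 N) = MulAction.toPermHom SL(2, ℤ) (Cosets (Gamma0 N)) ModularGroup.T
        from rfl, ← map_zpow, MulAction.toPermHom_apply, MulAction.toPerm_apply, ← mul_smul]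
      simp
    · rintro ⟨n, hn⟩
      refine ⟨⟨ModularGroup.T ^ (-n), Subgroup.zpow_mem _ (Subgroup.mem_zpowers _) _⟩, ?_⟩
      rw [show permT (Gamma0 N) = MulAction.toPermHom SL(2, ℤ) (Cosets (Gamma0 N)) ModularGroup.T
        from rfl, ← map_zpow, MulAction.toPermHom_apply, MulAction.toPerm_apply] at hn
      show (ModularGroup.T ^ (-n) : SL(2, ℤ)) • y = x
      rw [← hn, ← mul_smul]
      simp

theorem finrank_cuspForm_two (N : ℕ) [NeZero N] :
    (finrank ℂ (CuspForm (Gamma0 N) 2) : ℚ) = ModularCurve.genusFormula N := by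
  rw [finrank_cuspForm_eq_counts, ModularCurve.genusFormula,
    Nat.card_congr (cuspClassEquiv N), ModCurveGroup.card_cycleClass_T]
  have h1 : Nat.card (Cosets (Gamma0 N)) = ModularCurve.dedekindPsi N :=
    ModCurveGroup.card_edge_gamma0
  have h2 : Nat.card {x : Cosets (Gamma0 N) // ModularGroup.S • x = x} = ModularCurve.nuTwo N :=
    ModCurveGroup.card_fixed_S
  have h3 : Nat.card {x : Cosets (Gamma0 N) // (ModularGroup.S * ModularGroup.T) • x = x} =
      ModularCurve.nuThree N := ModCurveGroup.card_fixed_S_mul_T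
  rw [h1, h2, h3]

theorem finiteDimensional_cuspForm_two (N : ℕ) [NeZero N] :
    FiniteDimensional ℂ (CuspForm (Gamma0 N) 2) := by
  refine FiniteDimensional.of_injective (Periods.periodMapLin N |>.codRestrict
    (ModularCurve.Period.parabolicHoms ℂ (Gamma0 N) ℂ) Periods.periodMap_mem_parabolicHoms) ?_
  intro f g h
  exact Periods.periodMap_injective N (congrArg Subtype.val h)

theorem range_periodHomPair (N : ℕ) [NeZero N] :
    LinearMap.range (ModularCurve.periodHomPair N) =
      ModularCurve.Period.parabolicHoms ℂ (Gamma0 N) ℂ := by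
  have := finiteDimensional_cuspForm_two N
  refine Submodule.eq_of_le_of_finrank_eq ?_ ?_
  · rintro _ ⟨x, rfl⟩
    exact Periods.periodHomPair_mem_parabolicHoms x
  · rw [LinearMap.finrank_range_of_inj (periodHomPair_injective N), finrank_prod]
    have h := finrank_cuspForm_two N
    have h' := ModCurveGroup.finrank_parabolicHoms_complex N
    exact_mod_cast (by push_cast; rw [h, h']; ring :
      ((finrank ℂ (CuspForm (Gamma0 N) 2) + finrank ℂ (CuspForm (Gamma0 N) 2) : ℕ) : ℚ) =
        (finrank ℂ (ModularCurve.Period.parabolicHoms ℂ (Gamma0 N) ℂ) : ℚ))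

end FermatAgent.ModCurve.Forms
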