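import Mathlib
import Fermat.Agent.Periods.HeckeFinite
import Fermat.Agent.Periods.WeightTwo
import Fermat.Agent.DSLift.QExp
import Fermat.Agent.ModCurve.Forms.Genus

/-!
# An integral structure on `S₂(Γ₀(N))`
-/

noncomputable section

open CongruenceSubgroup ModularFormClass ModularCurve ModularCurve.Period Module
open scoped MatrixGroups

namespace FermatAgent.ModCurve.Forms

variable (N : ℕ) [NeZero N]

/-- The full Hecke algebra in weight two. -/
abbrev heckeFull : Subalgebra ℤ (Module.End ℂ (CuspForm (Gamma0 N) 2)) :=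
  CuspForm.heckeAlgebra N 2 ∅

theorem exists_hecke_coeff (n : ℕ) (hn : n ≠ 0) :
    ∃ t ∈ heckeFull N, ∀ f : CuspForm (Gamma0 N) 2, qCoeff ⇑(t f) 1 = qCoeff ⇑f n := by
  induction n using Nat.strong_induction_on with
  | _ n ih =>
  by_cases h1 : n = 1
  · subst h1; exact ⟨1, one_mem _, fun f ↦ rfl⟩
  obtain ⟨p, hp, m, rfl⟩ : ∃ p, p.Prime ∧ ∃ m, n = p * m := by
    obtain ⟨p, hp, hpn⟩ := Nat.exists_prime_and_dvd h1
    exact ⟨p, hp, hpn⟩
  have hm : m ≠ 0 := by rintro rfl; simp at hn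
  have hmlt : m < p * m := lt_mul_left (Nat.pos_of_ne_zero hm) hp.one_lt
  obtain ⟨t, ht, htf⟩ := ih m hmlt hm
  by_cases hpN : p ∣ N
  · refine ⟨t * CuspForm.heckeULin 2 hpN,
      mul_mem ht (CuspForm.heckeULin_mem_heckeAlgebra hp hpN (Set.notMem_empty _)), fun f ↦ ?_⟩
    rw [Module.End.mul_apply, htf, DSLift.qCoeff_heckeULin hp.ne_zero hpN, mul_comm m p]
  · have hT := CuspForm.heckeTLin_mem_heckeAlgebra (N := N) (k := 2) (S := ∅) hp hpN (Set.notMem_empty _)
    by_cases hpm : p ∣ m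
    · obtain ⟨u, hu, huf⟩ := ih (m / p) ((Nat.div_le_self m p).trans_lt hmlt)
        (Nat.div_ne_zero_iff.2 ⟨hp.ne_zero, Nat.le_of_dvd (Nat.pos_of_ne_zero hm) hpm⟩)
      refine ⟨t * CuspForm.heckeTLin 2 hp hpN - (p : ℤ) • u,
        sub_mem (mul_mem ht hT) (Subalgebra.smul_mem _ hu _), fun f ↦ ?_⟩
      have e : (t * CuspForm.heckeTLin 2 hp hpN - (p : ℤ) • u) f =
          t (CuspForm.heckeTLin 2 hp hpN f) - (p : ℂ) • u f := by
        simp [Module.End.mul_apply, ← Int.cast_smul_eq_zsmul ℂ]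
      rw [e, ← DSLift.qCoeffLin_apply, map_sub, map_smul, DSLift.qCoeffLin_apply,
        DSLift.qCoeffLin_apply, htf, huf, DSLift.qCoeff_heckeTLin, if_pos hpm, mul_comm m p]
      norm_num
    · refine ⟨t * CuspForm.heckeTLin 2 hp hpN, mul_mem ht hT, fun f ↦ ?_⟩
      rw [Module.End.mul_apply, htf, DSLift.qCoeff_heckeTLin, if_neg hpm, add_zero, mul_comm m p]

/-- `periodHomPair` as an isomorphism onto the parabolic homomorphisms. -/
def periodEquiv : (CuspForm (Gamma0 N) 2 × CuspForm (Gamma0 N) 2) ≃ₗ[ℂ]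
    parabolicHoms ℂ (Gamma0 N) ℂ :=
  (LinearEquiv.ofInjective _ (periodHomPair_injective N)).trans
    (LinearEquiv.ofEq _ _ (range_periodHomPair N))

theorem coe_periodEquiv (x : CuspForm (Gamma0 N) 2 × CuspForm (Gamma0 N) 2) :
    (periodEquiv N x : Additive (Gamma0 N) →+ ℂ) = periodHomPair N x := rfl

/-- Parabolic homomorphisms with integral values. -/
def IsIntegralHom (φ : parabolicHoms ℂ (Gamma0 N) ℂ) : Prop :=
  ∃ ψ : Additive (Gamma0 N) →+ ℤ, (φ : Additive (Gamma0 N) →+ ℂ) = (Int.castAddHom ℂ).comp ψ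

/-- The diagonal action on parabolic homomorphisms. -/
def periodAct (t : Module.End ℂ (CuspForm (Gamma0 N) 2)) :
    Module.End ℂ (parabolicHoms ℂ (Gamma0 N) ℂ) :=
  (periodEquiv N).conj (LinearMap.prodMap t t)

theorem periodAct_apply (t : Module.End ℂ (CuspForm (Gamma0 N) 2))
    (x : CuspForm (Gamma0 N) 2 × CuspForm (Gamma0 N) 2) :
    periodAct N t (periodEquiv N x) = periodEquiv N (t x.1, t x.2) := by
  simp [periodAct, LinearEquiv.conj_apply]

theorem isIntegralHom_periodAct {t : Module.End ℂ (CuspForm (Gamma0 N) 2)} (ht : t ∈ heckeFull N) :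
    ∀ φ, IsIntegralHom N φ → IsIntegralHom N (periodAct N t φ) := by
  induction ht using Algebra.adjoin_induction with
  | mem x hx =>
    intro φ ⟨ψ, hψ⟩
    obtain ⟨⟨f, g⟩, rfl⟩ := (periodEquiv N).surjective φ
    rw [periodAct_apply]
    rcases hx with ⟨ℓ, hℓ, hℓN, -, rfl⟩ | ⟨q, hqN, hq, -, rfl⟩
    · refine ⟨Periods.heckeHomT ℤ N hℓ hℓN ψ, ?_⟩
      rw [coe_periodEquiv, Periods.periodHomPair_heckeTLin, ← coe_periodEquiv, hψ,
        Periods.heckeHomT_map (R := ℤ) N hℓ hℓN (Int.castAddHom ℂ) ψ |>.symm]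
      rfl
    · have : NeZero q := ⟨hq.ne_zero⟩
      refine ⟨Periods.heckeHomU ℤ N hqN ψ, ?_⟩
      rw [coe_periodEquiv, Periods.periodHomPair_heckeULin, ← coe_periodEquiv, hψ,
        Periods.heckeHomU_map (R := ℤ) N hqN (Int.castAddHom ℂ) ψ |>.symm]
      rfl
  | algebraMap r =>
    intro φ ⟨ψ, hψ⟩
    obtain ⟨⟨f, g⟩, rfl⟩ := (periodEquiv N).surjective φ
    refine ⟨r • ψ, ?_⟩
    have e : (((algebraMap ℤ (Module.End ℂ (CuspForm (Gamma0 N) 2))) r) f,
        ((algebraMap ℤ (Module.End ℂ (CuspForm (Gamma0 N) 2))) r) g) = (r : ℂ) • (f, g) := by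
      simp [Int.cast_smul_eq_zsmul]
    rw [periodAct_apply, e, map_smul, Submodule.coe_smul, hψ]
    ext γ
    simp
  | add x y _ _ hx hy =>
    intro φ hφ
    obtain ⟨a, ha⟩ := hx φ hφ
    obtain ⟨b, hb⟩ := hy φ hφ
    refine ⟨a + b, ?_⟩
    obtain ⟨z, rfl⟩ := (periodEquiv N).surjective φ
    rw [periodAct_apply, LinearMap.add_apply, LinearMap.add_apply,
      show (x z.1 + y z.1, x z.2 + y z.2) = ((x z.1, x z.2) + (y z.1, y z.2)) from rfl, map_add,
      ← periodAct_apply N x, ← periodAct_apply N y, Submodule.coe_add, ha, hb]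
    ext γ; simp
  | mul x y _ _ hx hy =>
    intro φ hφ
    have : periodAct N (x * y) φ = periodAct N x (periodAct N y φ) := by
      obtain ⟨z, rfl⟩ := (periodEquiv N).surjective φ
      rw [periodAct_apply, periodAct_apply, periodAct_apply]
      rfl
    rw [this]
    exact hx _ (hy φ hφ)

/-- Elements of the Hecke algebra independent over `ℤ` are independent over `ℂ`. -/
theorem linearIndependent_hecke {ι : Type*} [Fintype ι] {b : ι → heckeFull N}
    (hb : LinearIndependent ℤ b) :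
    LinearIndependent ℂ fun i ↦ (b i : Module.End ℂ (CuspForm (Gamma0 N) 2)) := by
  classical
  let g := 2 * ModCurveGroup.genusX0 N
  let E := ModCurveGroup.parabolicHomsEquivPi N ℂ ℂ
  let EZ := ModCurveGroup.parabolicHomsEquivPi N ℤ ℤ
  choose γ hγ using fun i ↦ ModCurveGroup.homProj_surjective (Gamma0 N) (ModCurveGroup.basisH1X0 N i)
  let e : Fin g → parabolicHoms ℂ (Gamma0 N) ℂ := fun j ↦ E.symm (Pi.single j 1)
  have heint : ∀ j, IsIntegralHom N (e j) := by
    intro j
    set ψ := EZ.symm (Pi.single j 1) with hψ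
    have hmem : (Int.castAddHom ℂ).comp (ψ : Additive (Gamma0 N) →+ ℤ) ∈
        parabolicHoms ℂ (Gamma0 N) ℂ := fun x hx ↦ by
      simp [ψ.2 x hx]
    refine ⟨ψ, congrArg Subtype.val (show e j = ⟨_, hmem⟩ from E.injective ?_)⟩
    funext i
    rw [LinearEquiv.apply_symm_apply, ModCurveGroup.parabolicHomsEquivPi_apply N ℂ ℂ _ i (hγ i)]
    have h2 : EZ ψ i = (Pi.single j 1 : Fin g → ℤ) i := by rw [hψ, LinearEquiv.apply_symm_apply]
    rw [ModCurveGroup.parabolicHomsEquivPi_apply N ℤ ℤ _ i (hγ i)] at h2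
    simp only [AddMonoidHom.coe_comp, Function.comp_apply, h2, Int.coe_castAddHom]
    simp [Pi.single_apply]
  choose ψ hψ using fun i j ↦ isIntegralHom_periodAct N (b i).2 (e j) (heint j)
  let M : Matrix ι (Fin g × Fin g) ℤ := fun i p ↦ ψ i p.1 (γ p.2)
  have hM : ∀ i (j k : Fin g), E (periodAct N (b i) (e j)) k = (M i (j, k) : ℂ) := by
    intro i j k
    rw [ModCurveGroup.parabolicHomsEquivPi_apply N ℂ ℂ _ k (hγ k), hψ i j]
    rfl
  have hact : ∀ (s : Finset ι) (c : ι → ℂ) (φ : parabolicHoms ℂ (Gamma0 N) ℂ),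
      periodAct N (∑ i ∈ s, c i • (b i : Module.End ℂ (CuspForm (Gamma0 N) 2))) φ =
        ∑ i ∈ s, c i • periodAct N (b i) φ := by
    intro s c φ
    obtain ⟨z, rfl⟩ := (periodEquiv N).surjective φ
    simp only [periodAct_apply, ← map_smul, ← map_sum, LinearMap.sum_apply, LinearMap.smul_apply]
    congr 1
    refine Prod.ext ?_ ?_
    · simp [Prod.fst_sum]
    · simp [Prod.snd_sum]
  -- the integer coordinate vectors are independent
  have hinj : ∀ y : ι → ℤ, (∀ p, ∑ i, y i * M i p = 0) → y = 0 := by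
    intro y hy
    have hzero : ∀ φ, periodAct N
        (∑ i, (y i : ℂ) • (b i : Module.End ℂ (CuspForm (Gamma0 N) 2))) φ = 0 := by
      intro φ
      rw [hact]
      have hφ : φ = ∑ j, E φ j • e j := by
        apply E.injective
        simp only [map_sum, map_smul, e, LinearEquiv.apply_symm_apply]
        funext i; simp [Finset.sum_apply, Pi.single_apply, Finset.sum_ite_eq]
      rw [hφ]
      apply E.injective
      funext k
      simp only [map_sum, map_smul, Finset.sum_apply, Pi.smul_apply, smul_eq_mul, map_zero,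
        Pi.zero_apply, hM, Finset.mul_sum]
      rw [Finset.sum_comm]
      refine Finset.sum_eq_zero fun j _ ↦ ?_
      have := congrArg (Int.cast : ℤ → ℂ) (hy (j, k))
      push_cast at this
      rw [show (0 : ℂ) = E φ j * ∑ i, (y i : ℂ) * (M i (j, k) : ℂ) by rw [this, mul_zero],
        Finset.mul_sum]
      exact Finset.sum_congr rfl fun i _ ↦ by ring
    have hsum : ∑ i, y i • b i = 0 := by
      apply Subtype.ext
      have h0 : ∀ f : CuspForm (Gamma0 N) 2,
          (∑ i, (y i : ℂ) • (b i : Module.End ℂ (CuspForm (Gamma0 N) 2))) f = 0 := by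
        intro f
        have := hzero (periodEquiv N (f, 0))
        rw [periodAct_apply, map_eq_zero_iff _ (periodEquiv N).injective] at this
        exact (Prod.ext_iff.1 this).1
      simp only [AddSubmonoidClass.coe_finsetSum, SetLike.val_smul, ZeroMemClass.coe_zero]
      refine LinearMap.ext fun f ↦ ?_
      rw [LinearMap.zero_apply, ← h0 f]
      simp [Int.cast_smul_eq_zsmul]
    exact funext (Fintype.linearIndependent_iff.1 hb y hsum)
  have hG : (M * M.transpose).det ≠ 0 := by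
    intro h
    obtain ⟨y, hy, hy0⟩ := Matrix.exists_mulVec_eq_zero_iff.2 h
    refine hy (hinj y fun p ↦ ?_)
    have h1 : ∑ p, (∑ i, y i * M i p) ^ 2 = 0 := by
      have : y ⬝ᵥ ((M * M.transpose).mulVec y) = 0 := by rw [hy0, dotProduct_zero]
      rw [← this, ← Matrix.mulVec_mulVec, Matrix.dotProduct_mulVec, ← Matrix.mulVec_transpose]
      simp only [dotProduct, Matrix.mulVec, Matrix.transpose_apply, sq]
      exact Finset.sum_congr rfl fun p _ ↦ by simp only [mul_comm (y _)]
    exact (pow_eq_zero_iff two_ne_zero).1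
      ((Finset.sum_eq_zero_iff_of_nonneg fun p _ ↦ sq_nonneg _).1 h1 p (Finset.mem_univ p))
  rw [Fintype.linearIndependent_iff]
  intro c hc
  let MC : Matrix ι (Fin g × Fin g) ℂ := M.map (Int.castRingHom ℂ)
  have hMc : MC.transpose.mulVec c = 0 := by
    funext ⟨j, k⟩
    simp only [Matrix.mulVec, dotProduct, Matrix.transpose_apply, Pi.zero_apply, MC,
      Matrix.map_apply, Int.coe_castRingHom, ← hM]
    have h0 := hact Finset.univ c (e j)
    rw [hc] at h0
    have h00 : periodAct N 0 (e j) = 0 := by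
      obtain ⟨z, hz⟩ := (periodEquiv N).surjective (e j)
      rw [← hz, periodAct_apply]; simp
    rw [h00] at h0
    have := congrArg (fun u ↦ E u k) h0.symm
    simpa [map_sum, map_smul, Finset.sum_apply, mul_comm] using this
  have hdet : (MC * MC.transpose).det ≠ 0 := by
    have : MC * MC.transpose = (M * M.transpose).map (Int.castRingHom ℂ) := by
      rw [Matrix.map_mul, Matrix.transpose_map]
    rw [this, ← RingHom.mapMatrix_apply, ← RingHom.map_det]
    simpa using hG
  exact congrFun (Matrix.eq_zero_of_mulVec_eq_zero hdet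
    (by rw [← Matrix.mulVec_mulVec, hMc, Matrix.mulVec_zero]))

theorem qCoeff_one_eq_sum {ι : Type*} [Fintype ι] (b : Module.Basis ι ℤ (heckeFull N))
    (t : heckeFull N) (f : CuspForm (Gamma0 N) 2) :
    DSLift.qCoeffLin N 2 1 ((t : Module.End ℂ (CuspForm (Gamma0 N) 2)) f) =
      ∑ i, (b.repr t i : ℂ) *
        DSLift.qCoeffLin N 2 1 ((b i : Module.End ℂ (CuspForm (Gamma0 N) 2)) f) := by
  let L : heckeFull N →+ ℂ :=
    AddMonoidHom.mk' (fun u ↦ DSLift.qCoeffLin N 2 1 ((u : Module.End ℂ (CuspForm (Gamma0 N) 2)) f))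
      fun u v ↦ (map_add (DSLift.qCoeffLin N 2 1) _ _)
  show L t = ∑ i, (b.repr t i : ℂ) * L (b i)
  conv_lhs => rw [← b.sum_repr t]
  rw [map_sum]
  exact Finset.sum_congr rfl fun i _ ↦ by rw [map_zsmul, zsmul_eq_mul]

theorem hecke_apply_comm (t u : heckeFull N) (f : CuspForm (Gamma0 N) 2) :
    (t : Module.End ℂ (CuspForm (Gamma0 N) 2)) ((u : Module.End ℂ (CuspForm (Gamma0 N) 2)) f) =
      (u : Module.End ℂ (CuspForm (Gamma0 N) 2)) ((t : Module.End ℂ (CuspForm (Gamma0 N) 2)) f) := by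
  have h : t * u = u * t := IsMulCommutative.is_comm.comm t u
  exact LinearMap.congr_fun (congrArg Subtype.val h) f

variable {ι : Type*} [Fintype ι] (b : Module.Basis ι ℤ (heckeFull N))

/-- The first coefficients of the translates of a form by a basis of the Hecke algebra. -/
def firstCoeffs : CuspForm (Gamma0 N) 2 →ₗ[ℂ] (ι → ℂ) :=
  LinearMap.pi fun i ↦
    (DSLift.qCoeffLin N 2 1).comp (b i : Module.End ℂ (CuspForm (Gamma0 N) 2))

omit [Fintype ι] in
theorem firstCoeffs_apply (f : CuspForm (Gamma0 N) 2) (i : ι) :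
    firstCoeffs N b f i =
      DSLift.qCoeffLin N 2 1 ((b i : Module.End ℂ (CuspForm (Gamma0 N) 2)) f) := rfl

theorem qCoeff_eq_sum_firstCoeffs (n : ℕ) (hn : n ≠ 0) :
    ∃ c : ι → ℤ, ∀ f : CuspForm (Gamma0 N) 2,
      DSLift.qCoeffLin N 2 n f = ∑ i, (c i : ℂ) * firstCoeffs N b f i := by
  obtain ⟨t, ht, htf⟩ := exists_hecke_coeff N n hn
  refine ⟨fun i ↦ b.repr ⟨t, ht⟩ i, fun f ↦ ?_⟩
  rw [DSLift.qCoeffLin_apply, ← htf f, ← DSLift.qCoeffLin_apply]
  exact qCoeff_one_eq_sum N b ⟨t, ht⟩ f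

theorem firstCoeffs_injective : Function.Injective (firstCoeffs N b) := by
  rw [← LinearMap.ker_eq_bot, Submodule.eq_bot_iff]
  intro f hf
  refine DSLift.eq_zero_of_qCoeff_eq_zero fun n ↦ ?_
  rcases eq_or_ne n 0 with rfl | hn
  · exact DSLift.qCoeff_zero_index f
  obtain ⟨c, hc⟩ := qCoeff_eq_sum_firstCoeffs N b n hn
  rw [← DSLift.qCoeffLin_apply, hc, LinearMap.mem_ker.1 hf]
  simp

theorem eq_zero_of_forall_sum_firstCoeffs (c : ι → ℂ)
    (h : ∀ f, ∑ i, c i * firstCoeffs N b f i = 0) : c = 0 := by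
  classical
  refine funext (Fintype.linearIndependent_iff.1 (linearIndependent_hecke N b.linearIndependent) c ?_)
  refine LinearMap.ext fun f ↦ ?_
  rw [LinearMap.zero_apply, LinearMap.sum_apply]
  refine DSLift.eq_zero_of_qCoeff_eq_zero fun n ↦ ?_
  rcases eq_or_ne n 0 with rfl | hn
  · exact DSLift.qCoeff_zero_index _
  obtain ⟨t, ht, htf⟩ := exists_hecke_coeff N n hn
  rw [← DSLift.qCoeffLin_apply, map_sum, ← h (t f)]
  refine Finset.sum_congr rfl fun i _ ↦ ?_
  rw [LinearMap.smul_apply, map_smul, DSLift.qCoeffLin_apply, ← htf,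
    hecke_apply_comm N ⟨t, ht⟩ (b i) f, smul_eq_mul, firstCoeffs_apply, DSLift.qCoeffLin_apply]

theorem firstCoeffs_surjective : Function.Surjective (firstCoeffs N b) := by
  classical
  rw [← LinearMap.dualMap_injective_iff, ← LinearMap.ker_eq_bot, Submodule.eq_bot_iff]
  intro ℓ hℓ
  have hc := eq_zero_of_forall_sum_firstCoeffs N b (fun i ↦ ℓ (Pi.single i 1)) fun f ↦ by
    have h : ℓ (firstCoeffs N b f) = 0 := LinearMap.congr_fun (LinearMap.mem_ker.1 hℓ) f
    rw [pi_eq_sum_univ' (firstCoeffs N b f), map_sum] at h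
    rw [← h]
    exact Finset.sum_congr rfl fun i _ ↦ by rw [map_smul, smul_eq_mul, mul_comm]
  refine LinearMap.ext fun v ↦ ?_
  rw [pi_eq_sum_univ' v, map_sum, LinearMap.zero_apply]
  exact Finset.sum_eq_zero fun i _ ↦ by rw [map_smul, congrFun hc i, Pi.zero_apply, smul_zero]

theorem hasIntegralStructure_two : CuspForm.HasIntegralStructure N 2 := by
  classical
  have : Module.Finite ℤ (heckeFull N) := Periods.moduleFinite_heckeAlgebra_all N 2 ∅
  let b := Module.Free.chooseBasis ℤ (heckeFull N)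
  unfold CuspForm.HasIntegralStructure
  rw [eq_top_iff]
  intro f _
  choose g hg using fun i ↦ firstCoeffs_surjective N b (Pi.single i 1)
  have hgint : ∀ i, g i ∈ CuspForm.intLattice N 2 := by
    intro i
    rw [DSLift.mem_intLattice_iff]
    intro n
    rcases eq_or_ne n 0 with rfl | hn
    · exact ⟨0, by simp [DSLift.qCoeff_zero_index]⟩
    obtain ⟨c, hc⟩ := qCoeff_eq_sum_firstCoeffs N b n hn
    refine ⟨c i, ?_⟩
    rw [← DSLift.qCoeffLin_apply, hc, hg, Finset.sum_eq_single i]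
    · simp
    · intro j _ hj; simp [hj]
    · intro h; exact absurd (Finset.mem_univ _) h
  have hf : f = ∑ i, firstCoeffs N b f i • g i := by
    apply firstCoeffs_injective N b
    simp only [map_sum, map_smul, hg]
    exact pi_eq_sum_univ' (firstCoeffs N b f)
  rw [hf]
  exact Submodule.sum_mem _ fun i _ ↦ Submodule.smul_mem _ _ (Submodule.subset_span (hgint i))

end FermatAgent.ModCurve.Forms
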